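import Mathlib

set_option autoImplicit false

/-!
# S36 / Tor / Alg : from the two norm relations to constant ratios   (task TOR-Alg; MATHLIB ONLY)

`R` a commutative ring, `ϖ` a PRIME element.  Relations (mod `ϖ`), `ri, rm, r0` units mod `ϖ` (here: units of `R`):
  (α)  `ωs * r0^q ≡ ωr * (ri * rm^(q-1))`,      (β)  `ωs' * ri^q ≡ ωr' * (r0 * rm^(q-1))`.
Then  `ωs' ωs^q r0^(q²-1) ≡ ωr^q ωr' rm^(q²-1)`  and  `ωs ωs'^q ri^(q²-1) ≡ ωr'^q ωr rm^(q²-1)`.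

SKETCH.  Work in `R ⧸ span {ϖ}` (a domain) or with `Ideal.Quotient.eq` / `Dvd`.  (α)^q * ωs':  `ωs' ωs^q r0^(q²) ≡ ωr^q (ωs' ri^q) rm^(q²-q) ≡ ωr^q ωr' r0 rm^(q-1) rm^(q²-q)`; cancel the unit `r0`
 (`q² = (q²-1) + 1`, `(q-1) + (q²-q) = q²-1`; write `q = j + 1` to avoid truncated subtraction).  Symmetric for the other one.
 With `ω^m = 1` (`m ≥ 1`) the inverse of `ω` is `ω^(m-1)`:  `a₁ := ωs ωs'^q (ωr'^q ωr)^(m-1)` (inverse of `a₀ := ωr'^q ωr (ωs ωs'^q)^(m-1)`), `b₁ := ωs' ωs^q (ωr^q ωr')^(m-1)`.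
-/

namespace Fermat.Agent.S36.Tor

theorem alg_aux {A : Type} [CommRing A] {j : ℕ} (s r s' r' i mm o : A) (hi : IsUnit i)
    (hα : s * o ^ (j + 1) = r * (i * mm ^ j)) (hβ : s' * i ^ (j + 1) = r' * (o * mm ^ j)) :
    s * s' ^ (j + 1) * i ^ (j * (j + 2)) = r' ^ (j + 1) * r * mm ^ (j * (j + 2)) := by
  apply hi.mul_left_cancel
  calc i * (s * s' ^ (j + 1) * i ^ (j * (j + 2))) = s * (s' * i ^ (j + 1)) ^ (j + 1) := by ring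
    _ = s * (r' * (o * mm ^ j)) ^ (j + 1) := by rw [hβ]
    _ = r' ^ (j + 1) * (s * o ^ (j + 1)) * mm ^ (j * (j + 1)) := by ring
    _ = r' ^ (j + 1) * (r * (i * mm ^ j)) * mm ^ (j * (j + 1)) := by rw [hα]
    _ = i * (r' ^ (j + 1) * r * mm ^ (j * (j + 2))) := by ring

theorem alg_aux2 {A : Type} [CommRing A] {k e : ℕ} (S T i mm : A) (hT : T ^ (k + 1) = 1)
    (h : S * i ^ e = T * mm ^ e) : i ^ e * (S * T ^ k) = mm ^ e := by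
  calc i ^ e * (S * T ^ k) = (S * i ^ e) * T ^ k := by ring
    _ = T * mm ^ e * T ^ k := by rw [h]
    _ = T ^ (k + 1) * mm ^ e := by ring
    _ = mm ^ e := by rw [hT, one_mul]

theorem alg_const {R : Type} [CommRing R] {ϖ : R} (hϖ : Prime ϖ) {q m : ℕ} (hq : 1 ≤ q) (hm : 1 ≤ m)
    {ωs ωr ωs' ωr' : R} (h1 : ωs ^ m = 1) (h2 : ωr ^ m = 1) (h3 : ωs' ^ m = 1) (h4 : ωr' ^ m = 1) :
    ∃ a₀ a₁ b₀ b₁ : R, a₀ ^ m = 1 ∧ b₀ ^ m = 1 ∧ a₀ * a₁ = 1 ∧ b₀ * b₁ = 1 ∧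
      ∀ ri rm r0 : R, IsUnit ri → IsUnit rm → IsUnit r0 →
        ϖ ∣ ωs * r0 ^ q - ωr * (ri * rm ^ (q - 1)) →
        ϖ ∣ ωs' * ri ^ q - ωr' * (r0 * rm ^ (q - 1)) →
        ϖ ∣ ri ^ (q ^ 2 - 1) * a₁ - rm ^ (q ^ 2 - 1) ∧ ϖ ∣ r0 ^ (q ^ 2 - 1) * b₁ - rm ^ (q ^ 2 - 1) := by
  obtain ⟨j, rfl⟩ : ∃ j, q = j + 1 := ⟨q - 1, by omega⟩
  obtain ⟨k, rfl⟩ : ∃ k, m = k + 1 := ⟨m - 1, by omega⟩
  have he : (j + 1) ^ 2 - 1 = j * (j + 2) := Nat.sub_eq_of_eq_add (by ring)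
  have hj : j + 1 - 1 = j := rfl
  have hA : (ωs * ωs' ^ (j + 1)) ^ (k + 1) = 1 := by
    rw [mul_pow, ← pow_mul, mul_comm (j + 1), pow_mul, h1, h3, one_pow, one_mul]
  have hB : (ωr' ^ (j + 1) * ωr) ^ (k + 1) = 1 := by
    rw [mul_pow, ← pow_mul, mul_comm (j + 1), pow_mul, h2, h4, one_pow, one_mul]
  have hC : (ωs' * ωs ^ (j + 1)) ^ (k + 1) = 1 := by
    rw [mul_pow, ← pow_mul, mul_comm (j + 1), pow_mul, h1, h3, one_pow, one_mul]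
  have hD : (ωr ^ (j + 1) * ωr') ^ (k + 1) = 1 := by
    rw [mul_pow, ← pow_mul, mul_comm (j + 1), pow_mul, h2, h4, one_pow, one_mul]
  refine ⟨ωr' ^ (j + 1) * ωr * (ωs * ωs' ^ (j + 1)) ^ k, ωs * ωs' ^ (j + 1) * (ωr' ^ (j + 1) * ωr) ^ k,
    ωr ^ (j + 1) * ωr' * (ωs' * ωs ^ (j + 1)) ^ k, ωs' * ωs ^ (j + 1) * (ωr ^ (j + 1) * ωr') ^ k,
    ?_, ?_, ?_, ?_, ?_⟩
  · rw [mul_pow, hB, one_mul, ← pow_mul, mul_comm k, pow_mul, hA, one_pow]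
  · rw [mul_pow, hD, one_mul, ← pow_mul, mul_comm k, pow_mul, hC, one_pow]
  · calc _ = (ωr' ^ (j + 1) * ωr) ^ (k + 1) * (ωs * ωs' ^ (j + 1)) ^ (k + 1) := by ring
      _ = 1 := by rw [hA, hB, one_mul]
  · calc _ = (ωr ^ (j + 1) * ωr') ^ (k + 1) * (ωs' * ωs ^ (j + 1)) ^ (k + 1) := by ring
      _ = 1 := by rw [hC, hD, one_mul]
  · intro ri rm r0 hri hrm hr0 hα hβ
    rw [he, hj] at *
    have hiff : ∀ a b : R, ϖ ∣ a - b ↔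
        Ideal.Quotient.mk (Ideal.span {ϖ}) a = Ideal.Quotient.mk (Ideal.span {ϖ}) b := by
      intro a b
      rw [Ideal.Quotient.eq, Ideal.mem_span_singleton]
    rw [hiff] at hα hβ ⊢
    rw [hiff]
    simp only [map_mul, map_pow] at hα hβ ⊢
    constructor
    · refine alg_aux2 _ _ _ _ ?_ (alg_aux _ _ _ _ _ _ _ (hri.map _) hα hβ)
      rw [← map_pow, ← map_mul, ← map_pow, hB, map_one]
    · refine alg_aux2 _ _ _ _ ?_ (alg_aux _ _ _ _ _ _ _ (hr0.map _) hβ hα)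
      rw [← map_pow, ← map_mul, ← map_pow, hD, map_one]

end Fermat.Agent.S36.Tor
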