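import Fermat.Agent.S36.Tor.Basic

set_option autoImplicit false
set_option linter.unusedSectionVars false

/-!
# S36 / Tor / GlueRoot : representatives with the same value at `n` glue   (task TOR-GlueRoot)

This replaces Hensel / étale algebra / conductors.  `ε h^m ≡ 1` on the components `k ∈ s`, `h ≡ δ_k` on `V k`, all `δ_k` have the same value `r` at `n`, `m ∈ Rˣ`.  Then ONE `δ ∈ O_nˣ` represents `h` on all `V k`, `k ∈ s`.

SKETCH.  Induction on `s` (`Finset.induction_on`), statement: `s.Nonempty → ∃ δ, LocUnit n δ ∧ InMax n (δ - rE r) ∧ ∀ k ∈ s, h - δ ∈ 𝔪_{V k}`.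
 Step `insert k s` (`s` nonempty; otherwise take `δ_k`): `δ_s` for `s`, `δ_k` for `k`.  `A := ε δ_s^m - 1 ∈ O_n`, `A ∈ 𝔪_{V j}` for `j ∈ s` (`δ_s^m ≡ h^m`: `ss_pow_sub_pow_mem`; `h ∈ V j` since `h = (h - δ) + δ`);
 `B := ε δ_k^m - 1 ∈ O_n ∩ 𝔪_{V k}`.   `A - B = ε (δ_s - δ_k) Σ`, `Σ := ∑_{i<m} δ_s^i δ_k^(m-1-i)` (`Commute.mul_geom_sum₂` / `(Commute.all _ _).geom_sum₂_mul`).
 `Σ - rE (m r^(m-1))` is `InMax` (each term `δ_s^i δ_k^(m-1-i) - r^(m-1)` is), `m r^(m-1) ∈ Rˣ` (`ValAt.isUnit`, `hm`), so `Σ` is a `LocUnit` (`LocUnit.of_not_inMax`).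
 `A' := A (ε Σ)⁻¹`, `B' := B (ε Σ)⁻¹`: in `O_n`, `A' ∈ 𝔪_{V j}` (`j ∈ s`), `B' ∈ 𝔪_{V k}`, `δ_s - δ_k = A' - B'`.  `δ := δ_s - A' = δ_k - B'`.
 `A'` is `InMax` (`Centered.inMax` with any `j ∈ s`), so `δ - rE r` is `InMax` and `δ` is a `LocUnit` (`rE r` is a unit).
-/

noncomputable section

namespace Fermat.Agent.S36.Tor

open Polynomial IntermediateField Fermat.Agent.S18 Fermat.Agent.S34 Fermat.Agent.S36.LG
open Fermat.Agent.S36.Norm (One1 Near)

variable {R K F' F : Type} [CommRing R] [IsDomain R] [IsDiscreteValuationRing R] [Field K] [CharZero K]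
  [Algebra R K] [IsFractionRing R K] [Field F'] [Algebra K F'] [Field F] [Algebra K F]
  {ϖ : R} {κ : Type} [Finite κ] {V : κ → ValuationSubring F}
  {q : ℕ} {t' : F'} {t : F} {γ : F' →ₐ[K] F} {Nm : F →* F'} {Vs Vr : ValuationSubring F'} {a b c : κ}

theorem glueRoot_inMax_sum {n : Ideal (CInt R K t)} [n.IsPrime] {ι : Type} (s : Finset ι)
    (f : ι → F) (hf : ∀ i ∈ s, InMax n (f i)) : InMax n (∑ i ∈ s, f i) := by
  classical
  induction s using Finset.induction_on with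
  | empty =>
    rw [Finset.sum_empty]
    exact InMax.of_mem (c := 0) n.zero_mem
  | insert a s ha ih =>
    rw [Finset.sum_insert ha]
    exact (hf a (Finset.mem_insert_self _ _)).add
      (ih fun i hi => hf i (Finset.mem_insert_of_mem hi))

theorem glueRoot_pow_sub {n : Ideal (CInt R K t)} [n.IsPrime] {x ρ : F} (hx : InLoc n x)
    (hρ : InLoc n ρ) (h : InMax n (x - ρ)) (i : ℕ) : InMax n (x ^ i - ρ ^ i) := by
  induction i with
  | zero =>
    rw [pow_zero, pow_zero, sub_self]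
    exact InMax.of_mem (c := 0) n.zero_mem
  | succ i ih =>
    have e : x ^ (i + 1) - ρ ^ (i + 1) = x ^ i * (x - ρ) + (x ^ i - ρ ^ i) * ρ := by ring
    rw [e]
    exact (InMax.mul_left (hx.pow i) h).add (ih.mul_right hρ)

theorem glueRoot_mul_sub {n : Ideal (CInt R K t)} [n.IsPrime] {x y ρ : F} (hx : InLoc n x)
    (hy : InLoc n y) (hρ : InLoc n ρ) (h : InMax n (x - ρ)) (h' : InMax n (y - ρ)) (i j : ℕ) :
    InMax n (x ^ i * y ^ j - ρ ^ (i + j)) := by
  have e : x ^ i * y ^ j - ρ ^ (i + j) = x ^ i * (y ^ j - ρ ^ j) + (x ^ i - ρ ^ i) * ρ ^ j := by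
    ring
  rw [e]
  exact (InMax.mul_left (hx.pow i) (glueRoot_pow_sub hy hρ h' j)).add
    ((glueRoot_pow_sub hx hρ h i).mul_right (hρ.pow j))

theorem glueRoot_locUnit_of_sub {n : Ideal (CInt R K t)} [n.IsPrime] {x : F} {u : R}
    (hu : IsUnit u) (h : InMax n (x - rE R K F u)) : LocUnit n x := by
  have hx : InLoc n x := by
    have := h.inLoc.add (InLoc.rE (n := n) u)
    rwa [sub_add_cancel] at this
  refine LocUnit.of_not_inMax hx fun hmax => ?_
  have h1 := hmax.sub h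
  rw [sub_sub_cancel] at h1
  exact LocUnit.not_inMax (locUnit_rE (n := n) hu) h1

theorem glueRoot_step {n : Ideal (CInt R K t)} [n.IsPrime] {m : ℕ} (hm : IsUnit (m : R)) {ε : F}
    (hε : LocUnit n ε) {r : R} (hr : IsUnit r) {δ₁ δ₂ : F} (h1 : InLoc n δ₁) (h2 : InLoc n δ₂)
    (h1r : InMax n (δ₁ - rE R K F r)) (h2r : InMax n (δ₂ - rE R K F r)) :
    ∃ U : F, LocUnit n U ∧ (ε * δ₁ ^ m - 1) - (ε * δ₂ ^ m - 1) = U * (δ₁ - δ₂) := by
  have hSig : LocUnit n (∑ i ∈ Finset.range m, δ₁ ^ i * δ₂ ^ (m - 1 - i)) := by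
    refine glueRoot_locUnit_of_sub (u := (m : R) * r ^ (m - 1)) (hm.mul (hr.pow _)) ?_
    have e : (∑ i ∈ Finset.range m, δ₁ ^ i * δ₂ ^ (m - 1 - i)) - rE R K F ((m : R) * r ^ (m - 1)) =
        ∑ i ∈ Finset.range m, (δ₁ ^ i * δ₂ ^ (m - 1 - i) - rE R K F r ^ (m - 1)) := by
      rw [Finset.sum_sub_distrib, Finset.sum_const, Finset.card_range, nsmul_eq_mul, map_mul,
        map_natCast, map_pow]
    rw [e]
    refine glueRoot_inMax_sum _ _ fun i hi => ?_
    have hi' : i + (m - 1 - i) = m - 1 := by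
      have := Finset.mem_range.1 hi
      omega
    have := glueRoot_mul_sub h1 h2 (InLoc.rE (n := n) r) h1r h2r i (m - 1 - i)
    rwa [hi'] at this
  refine ⟨ε * ∑ i ∈ Finset.range m, δ₁ ^ i * δ₂ ^ (m - 1 - i), LocUnit.mul' hε hSig, ?_⟩
  have := geom_sum₂_mul δ₁ δ₂ m
  rw [mul_assoc, this]
  ring

theorem glueRoot_aux (hϖ : Irreducible ϖ) {n : Ideal (CInt R K t)} (hn : IsClosedPt ϖ n)
    (hCV : ∀ k, ∀ y ∈ CInt R K t, y ∈ V k) {m : ℕ} (hm : IsUnit (m : R)) {ε h : F}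
    (hε : LocUnit n ε) {r : R} (s : Finset κ) : s.Nonempty → (∀ k ∈ s, Centered (V k) n) →
    (∀ k ∈ s, One1 (V k) (ε * h ^ m)) → (∀ k ∈ s, ValAt n (V k) h r) →
    ∃ δ : F, LocUnit n δ ∧ InMax n (δ - rE R K F r) ∧ ∀ k ∈ s, h - δ ∈ (V k).nonunits := by
  classical
  haveI := hn.max.isPrime
  induction s using Finset.induction_on with
  | empty => intro hs; exact absurd hs Finset.not_nonempty_empty
  | insert k s hk ih =>
    intro _ hcen hone hval
    obtain ⟨δk, hδk, hhk, hδkr⟩ := hval k (Finset.mem_insert_self _ _)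
    have hr : IsUnit r := (hval k (Finset.mem_insert_self _ _)).isUnit hϖ hn
    rcases s.eq_empty_or_nonempty with rfl | hs
    · refine ⟨δk, hδk, hδkr, fun j hj => ?_⟩
      rw [Finset.mem_insert] at hj
      rcases hj with rfl | hj
      · exact hhk
      · exact absurd hj (Finset.notMem_empty _)
    obtain ⟨δs, hδs, hδsr, hhs⟩ := ih hs (fun j hj => hcen j (Finset.mem_insert_of_mem hj))
      (fun j hj => hone j (Finset.mem_insert_of_mem hj))
      (fun j hj => hval j (Finset.mem_insert_of_mem hj))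
    obtain ⟨U, hU, hAB⟩ := glueRoot_step hm hε hr hδs.2.1 hδk.2.1 hδsr hδkr
    -- a general fact on one component
    have hmem : ∀ j, Centered (V j) n → One1 (V j) (ε * h ^ m) → ∀ δ : F, InLoc n δ →
        h - δ ∈ (V j).nonunits → (ε * δ ^ m - 1) * U⁻¹ ∈ (V j).nonunits := by
      intro j hcj hoj δ hδ hhδ
      have hδV : δ ∈ V j := hcj.mem_of_inLoc (hCV j) hδ
      have hhV : h ∈ V j := by
        have := add_mem (mem_of_mem_nonunits _ hhδ) hδV
        rwa [sub_add_cancel] at this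
      have e : ε * δ ^ m - 1 = (ε * h ^ m - 1) - ε * (h ^ m - δ ^ m) := by ring
      rw [e]
      exact mul_mem_nonunits' _ (sub_mem_nonunits _ hoj (mul_mem_nonunits _
        (hcj.mem_of_inLoc (hCV j) hε.2.1) (ss_pow_sub_pow_mem _ hhV hδV hhδ m)))
        (hcj.mem_of_inLoc (hCV j) hU.2.2)
    have hA'loc : InLoc n ((ε * δs ^ m - 1) * U⁻¹) :=
      (((hε.2.1.mul (hδs.2.1.pow m)).sub (InLoc.of_mem n (CInt R K t).one_mem))).mul hU.2.2
    obtain ⟨j₀, hj₀⟩ := hs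
    have hA'max : InMax n ((ε * δs ^ m - 1) * U⁻¹) :=
      (hcen j₀ (Finset.mem_insert_of_mem hj₀)).inMax (hCV j₀) hA'loc
        (hmem j₀ (hcen j₀ (Finset.mem_insert_of_mem hj₀)) (hone j₀ (Finset.mem_insert_of_mem hj₀))
          δs hδs.2.1 (hhs j₀ hj₀))
    have hδr : InMax n (δs - (ε * δs ^ m - 1) * U⁻¹ - rE R K F r) := by
      have e : δs - (ε * δs ^ m - 1) * U⁻¹ - rE R K F r =
          (δs - rE R K F r) - (ε * δs ^ m - 1) * U⁻¹ := by ring
      rw [e]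
      exact hδsr.sub hA'max
    have heq : δs - (ε * δs ^ m - 1) * U⁻¹ = δk - (ε * δk ^ m - 1) * U⁻¹ := by
      have hU0 := hU.1
      have e : δs - δk = ((ε * δs ^ m - 1) - (ε * δk ^ m - 1)) * U⁻¹ := by
        rw [hAB, mul_comm U, mul_assoc, mul_inv_cancel₀ hU0, mul_one]
      linear_combination e
    refine ⟨δs - (ε * δs ^ m - 1) * U⁻¹, glueRoot_locUnit_of_sub hr hδr, hδr, fun j hj => ?_⟩
    rw [Finset.mem_insert] at hj
    rcases hj with rfl | hj
    · rw [heq]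
      have e : h - (δk - (ε * δk ^ m - 1) * U⁻¹) = (h - δk) + (ε * δk ^ m - 1) * U⁻¹ := by ring
      rw [e]
      exact add_mem_nonunits _ hhk (hmem j (hcen j (Finset.mem_insert_self _ _))
        (hone j (Finset.mem_insert_self _ _)) δk hδk.2.1 hhk)
    · have e : h - (δs - (ε * δs ^ m - 1) * U⁻¹) = (h - δs) + (ε * δs ^ m - 1) * U⁻¹ := by ring
      rw [e]
      exact add_mem_nonunits _ (hhs j hj) (hmem j (hcen j (Finset.mem_insert_of_mem hj))
        (hone j (Finset.mem_insert_of_mem hj)) δs hδs.2.1 (hhs j hj))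

theorem exists_common_rep (hϖ : Irreducible ϖ) {n : Ideal (CInt R K t)} (hn : IsClosedPt ϖ n)
    (hCV : ∀ k, ∀ y ∈ CInt R K t, y ∈ V k) {m : ℕ} (hm : IsUnit (m : R)) {ε h : F}
    (hε : LocUnit n ε) (s : Finset κ) (hs : s.Nonempty) (hcen : ∀ k ∈ s, Centered (V k) n)
    (hone : ∀ k ∈ s, One1 (V k) (ε * h ^ m)) {r : R} (hval : ∀ k ∈ s, ValAt n (V k) h r) :
    ∃ δ : F, LocUnit n δ ∧ ∀ k ∈ s, h - δ ∈ (V k).nonunits := by
  obtain ⟨δ, h1, -, h2⟩ := glueRoot_aux hϖ hn hCV hm hε s hs hcen hone hval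
  exact ⟨δ, h1, h2⟩

end Fermat.Agent.S36.Tor
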