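import Fermat.Agent.S36.Tor.Basic
import Fermat.Agent.S34.SS.MorseB

set_option autoImplicit false
set_option linter.unusedSectionVars false

/-!
# S36 / Tor / Val : existence of the values `η_W(n)`   (task TOR-Val)

SKETCH.  `u = ε h^m`, `u ≡ 1` on `W`, `ε` a `LocUnit` (so a unit of `W`: `Centered.mem_of_inLoc`).  `h^m = u ε⁻¹ ∈ W`, so `h ∈ W` (`S18.mem_of_pow_mem` / valuation rings are integrally closed).
 `h^m - ε⁻¹ = (u - 1) ε⁻¹ ∈ 𝔪_W`.  `hrep m h ε⁻¹`: `δ ∈ O_n`, `h - δ ∈ 𝔪_W`.   `δ` is a `LocUnit` (`LocUnit.of_not_inMax`): if `InMax n δ`, then `δ^m` is `InMax`; `δ^m - ε⁻¹ ∈ O_n ∩ 𝔪_W`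
 (`ss_pow_sub_pow_mem`) is `InMax` (`Centered.inMax`); so `ε⁻¹` is `InMax`: contradiction (`LocUnit.not_inMax`).   `IsRat.exists_sub_inMax` gives `r`.
-/

noncomputable section

namespace Fermat.Agent.S36.Tor

open Polynomial IntermediateField Fermat.Agent.S18 Fermat.Agent.S34 Fermat.Agent.S36.LG
open Fermat.Agent.S36.Norm (One1 Near)

variable {R K F' F : Type} [CommRing R] [IsDomain R] [IsDiscreteValuationRing R] [Field K] [CharZero K]
  [Algebra R K] [IsFractionRing R K] [Field F'] [Algebra K F'] [Field F] [Algebra K F]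
  {ϖ : R} {κ : Type} [Finite κ] {V : κ → ValuationSubring F}
  {q : ℕ} {t' : F'} {t : F} {γ : F' →ₐ[K] F} {Nm : F →* F'} {Vs Vr : ValuationSubring F'} {a b c : κ}

theorem exists_valAt (hϖ : Irreducible ϖ) {n : Ideal (CInt R K t)} (hn : IsClosedPt ϖ n)
    (hrat : IsRat n) {W : ValuationSubring F} (hCW : ∀ y ∈ CInt R K t, y ∈ W) (hc : Centered W n)
    (hrep : RepAt W n) {m : ℕ} (hm : m ≠ 0) {u ε h : F} (hε : LocUnit n ε) (hh : h ≠ 0)
    (hu : u = ε * h ^ m) (hu1 : One1 W u) : ∃ r : R, ValAt n W h r := by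
  haveI := hn.max.isPrime
  have hεiW : ε⁻¹ ∈ W := hc.mem_of_inLoc hCW hε.2.2
  have huW : u ∈ W := hu1.mem
  have hhm : h ^ m = u * ε⁻¹ := by
    rw [hu, mul_comm ε, mul_assoc, mul_inv_cancel₀ hε.1, mul_one]
  have hhW : h ∈ W := mem_of_pow_mem W hm (by rw [hhm]; exact mul_mem huW hεiW)
  have h1 : h ^ m - ε⁻¹ ∈ W.nonunits := by
    have e : h ^ m - ε⁻¹ = (u - 1) * ε⁻¹ := by rw [hhm]; ring
    rw [e]
    exact mul_mem_nonunits' W hu1 hεiW
  obtain ⟨δ, hδ, hhδ⟩ := hrep m h ε⁻¹ hm hhW hε.2.2 h1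
  have hδW : δ ∈ W := hc.mem_of_inLoc hCW hδ
  have hδu : LocUnit n δ := by
    refine LocUnit.of_not_inMax hδ fun hmax => ?_
    have h2 : InMax n (δ ^ m) := by
      obtain ⟨j, rfl⟩ : ∃ j, m = j + 1 := ⟨m - 1, by omega⟩
      rw [pow_succ']
      exact InMax.mul_right hmax (hδ.pow j)
    have h3 : δ ^ m - ε⁻¹ ∈ W.nonunits := by
      have e : δ ^ m - ε⁻¹ = (h ^ m - ε⁻¹) - (h ^ m - δ ^ m) := by ring
      rw [e]
      exact sub_mem_nonunits W h1 (ss_pow_sub_pow_mem W hhW hδW hhδ m)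
    have h4 : InMax n (δ ^ m - ε⁻¹) := hc.inMax hCW ((hδ.pow m).sub hε.2.2) h3
    have h5 : InMax n ε⁻¹ := by
      have := h2.sub h4
      rwa [sub_sub_cancel] at this
    exact LocUnit.not_inMax (LocUnit.inv' hε) h5
  obtain ⟨r, hr⟩ := hrat.exists_sub_inMax hϖ hn hδ
  exact ⟨r, δ, hδu, hhδ, hr⟩

end Fermat.Agent.S36.Tor
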