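import Fermat.Agent.S36.Tor.Rel
import Fermat.Agent.S36.Tor.Val
import Fermat.Agent.S36.Tor.GlueRoot
import Fermat.Agent.S36.Tor.Alg

set_option autoImplicit false
set_option linter.unusedSectionVars false

/-!
# S36 / Tor / Loc : `LocData1` at every closed point of a chart
-/

noncomputable section

namespace Fermat.Agent.S36.Tor

open Polynomial IntermediateField Fermat.Agent.S18 Fermat.Agent.S34 Fermat.Agent.S36.LG
open Fermat.Agent.S36.Norm (One1 Near)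

variable {R K F' F : Type} [CommRing R] [IsDomain R] [IsDiscreteValuationRing R] [Field K] [CharZero K]
  [Algebra R K] [IsFractionRing R K] [Field F'] [Algebra K F'] [Field F] [Algebra K F]
  {ϖ : R} {κ : Type} [Finite κ] {V : κ → ValuationSubring F}
  {q : ℕ} {t' : F'} {t : F}

/-- all the hypotheses on one pair of charts `(t', t)`.  `ki km k0` = the components `∞`, `mid`, `0`. -/
structure TorChart (ϖ : R) (q : ℕ) (V : κ → ValuationSubring F) (ki km k0 : κ) (t' : F') (t : F)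
    (α β : F' →ₐ[K] F) (Nα Nβ : F →* F') (Vi' V0' : ValuationSubring F') : Prop where
  vert : VertFam (K := K) ϖ t V
  rat : ∀ n : Ideal (CInt R K t), IsClosedPt ϖ n → IsRat n
  rep : ∀ n : Ideal (CInt R K t), IsClosedPt ϖ n → ∀ j, Centered (V j) n → RepAt (V j) n
  tri : ∀ n : Ideal (CInt R K t), IsClosedPt ϖ n →
    (∀ j, Centered (V j) n) ∨ ∃ j₀, ∀ j, Centered (V j) n → j = j₀
  degα : DegMap R q t' t α Nα Vi' V0' (V ki) (V km) (V k0)
  degβ : DegMap R q t' t β Nβ V0' Vi' (V k0) (V km) (V ki)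

/-- from a representative to `LocData1`. -/
theorem locData1_of_rep {n : Ideal (CInt R K t)} [n.IsPrime]
    (hCV : ∀ k, ∀ y ∈ CInt R K t, y ∈ V k) {m : ℕ} {u ε h δ : F} (hε : LocUnit n ε) (hh : h ≠ 0)
    (hu : u = ε * h ^ m) (hδ : LocUnit n δ)
    (hrep : ∀ k, Centered (V k) n → h - δ ∈ (V k).nonunits) : LocData1 V n m u := by
  refine ⟨h / δ, div_ne_zero hh hδ.1, ?_, fun k hk => ?_⟩
  · have e : u / (h / δ) ^ m = ε * δ ^ m := by
      rw [hu, div_pow]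
      have := pow_ne_zero m hh
      have := pow_ne_zero m hδ.1
      field_simp
    rw [e]
    exact hε.2.1.mul (hδ.2.1.pow m)
  · have e : h / δ - 1 = δ⁻¹ * (h - δ) := by
      have := hδ.1
      field_simp
    unfold One1
    rw [e]
    exact mul_mem_nonunits _ (hk.mem_of_inLoc (hCV k) hδ.2.2) (hrep k hk)

variable {ki km k0 : κ} {α β : F' →ₐ[K] F} {Nα Nβ : F →* F'} {Vi' V0' : ValuationSubring F'}

theorem TorChart.locData1 (hϖ : Irreducible ϖ) (hq : q ≠ 0)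
    (hT : TorChart ϖ q V ki km k0 t' t α β Nα Nβ Vi' V0') (hall : ∀ j, j = ki ∨ j = km ∨ j = k0)
    {m : ℕ} (hm : m ≠ 0) (hmR : IsUnit (m : R)) {u : F} (hu1 : ∀ j, One1 (V j) u) {wα wβ : F'}
    (hwα : Nα u = wα ^ m) (hwβ : Nβ u = wβ ^ m) {ωs ωr ωs' ωr' : R}
    (h1 : wα - rE R K F' ωs ∈ Vi'.nonunits) (h2 : wα - rE R K F' ωr ∈ V0'.nonunits)
    (h3 : wβ - rE R K F' ωs' ∈ V0'.nonunits) (h4 : wβ - rE R K F' ωr' ∈ Vi'.nonunits)
    {a₀ a₁ b₀ b₁ : R} (ha : a₀ * a₁ = 1) (hb : b₀ * b₁ = 1)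
    (hab : ∀ ri rm r0 : R, IsUnit ri → IsUnit rm → IsUnit r0 →
        ϖ ∣ ωs * r0 ^ q - ωr * (ri * rm ^ (q - 1)) →
        ϖ ∣ ωs' * ri ^ q - ωr' * (r0 * rm ^ (q - 1)) →
        ϖ ∣ ri ^ (q ^ 2 - 1) * a₁ - rm ^ (q ^ 2 - 1) ∧ ϖ ∣ r0 ^ (q ^ 2 - 1) * b₁ - rm ^ (q ^ 2 - 1))
    {g : F} (hg0 : g ≠ 0) (hgi : g - rE R K F a₀ ∈ (V ki).nonunits)
    (hgm : g - rE R K F 1 ∈ (V km).nonunits) (hg0' : g - rE R K F b₀ ∈ (V k0).nonunits)
    (hu3 : ∀ j, One1 (V j) (u ^ (q ^ 2 - 1) / g ^ m))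
    {n : Ideal (CInt R K t)} (hn : IsClosedPt ϖ n)
    (hK : ∃ h ε : F, h ≠ 0 ∧ LocUnit n ε ∧ u = ε * h ^ m) :
    LocData1 V n m (u ^ (q ^ 2 - 1) / g ^ m) := by
  classical
  have := hn.max.isPrime
  have := Fintype.ofFinite κ
  obtain ⟨h, ε, hh, hε, hu⟩ := hK
  have hCV : ∀ k, ∀ y ∈ CInt R K t, y ∈ V k := fun k y hy => hT.vert.mem_of_mem_CInt hϖ hy k
  set Q := q ^ 2 - 1 with hQ
  have hh3 : h ^ Q / g ≠ 0 := div_ne_zero (pow_ne_zero _ hh) hg0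
  have hε3 : LocUnit n (ε ^ Q) := LocUnit.pow' hε Q
  have hu3' : u ^ Q / g ^ m = ε ^ Q * (h ^ Q / g) ^ m := by
    rw [hu, div_pow, mul_pow, ← pow_mul, ← pow_mul, mul_comm m Q, mul_div_assoc]
  rcases hT.tri n hn with hcen | ⟨j₀, hj₀⟩
  · obtain ⟨ri, hri⟩ := exists_valAt hϖ hn (hT.rat n hn) (hCV ki) (hcen ki) (hT.rep n hn ki (hcen ki))
      hm hε hh hu (hu1 ki)
    obtain ⟨rm, hrm⟩ := exists_valAt hϖ hn (hT.rat n hn) (hCV km) (hcen km) (hT.rep n hn km (hcen km))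
      hm hε hh hu (hu1 km)
    obtain ⟨r0, hr0⟩ := exists_valAt hϖ hn (hT.rat n hn) (hCV k0) (hcen k0) (hT.rep n hn k0 (hcen k0))
      hm hε hh hu (hu1 k0)
    have relα := hT.degα.rel hϖ hq hT.vert hall hn hcen hm hε hh hu hwα h1 h2 hri hrm hr0
    have relβ := hT.degβ.rel hϖ hq hT.vert
      (fun j => by rcases hall j with h | h | h <;> simp [h]) hn hcen hm hε hh hu hwβ h3 h4 hr0 hrm hri
    obtain ⟨d1, d2⟩ := hab ri rm r0 (hri.isUnit hϖ hn) (hrm.isUnit hϖ hn) (hr0.isUnit hϖ hn) relα relβ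
    have vi : ValAt n (V ki) (h ^ Q / g) (rm ^ Q) :=
      (hri.pow_div hn (hCV ki) (hcen ki) ha hgi Q).congr hn d1
    have vm : ValAt n (V km) (h ^ Q / g) (rm ^ Q) :=
      (hrm.pow_div hn (hCV km) (hcen km) (one_mul 1) hgm Q).congr hn (by simp)
    have v0 : ValAt n (V k0) (h ^ Q / g) (rm ^ Q) :=
      (hr0.pow_div hn (hCV k0) (hcen k0) hb hg0' Q).congr hn d2
    obtain ⟨δ, hδ, hδ'⟩ := exists_common_rep (V := V) hϖ hn hCV hmR hε3 Finset.univ ⟨ki, Finset.mem_univ _⟩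
      (fun k _ => hcen k) (fun k _ => by rw [← hu3']; exact hu3 k) (r := rm ^ Q)
      (fun k _ => by rcases hall k with h | h | h <;> rw [h] <;> assumption)
    exact locData1_of_rep hCV hε3 hh3 hu3' hδ fun k _ => hδ' k (Finset.mem_univ _)
  · by_cases hc : Centered (V j₀) n
    · obtain ⟨r, δ, hδ, hδ', -⟩ := exists_valAt hϖ hn (hT.rat n hn) (hCV j₀) hc (hT.rep n hn j₀ hc)
        hm hε3 hh3 hu3' (hu3 j₀)
      exact locData1_of_rep hCV hε3 hh3 hu3' hδ fun k hk => by rw [hj₀ k hk]; exact hδ'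
    · exact locData1_of_rep hCV hε3 hh3 hu3' (locUnit_rE (R := R) (K := K) isUnit_one)
        fun k hk => absurd (hj₀ k hk ▸ hk) hc

end Fermat.Agent.S36.Tor
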