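import Fermat.Agent.S36.Tor.Defs
import Fermat.Agent.S34.SS.Prim

set_option autoImplicit false
set_option linter.unusedSectionVars false

/-!
# S36 / Tor / Rat : all closed points are rational when the residue field of `R` is algebraically closed   (task TOR-Rat)

SKETCH.  `k := R ⧸ span {ϖ}` is a field (`ϖ` generates the maximal ideal of the DVR: `IsDiscreteValuationRing.irreducible_iff_uniformizer`, `Ideal.Quotient.field`).
 `hk` ⟹ `IsAlgClosed k` (`IsAlgClosed.of_exists_root`: a monic `p : k[X]` of positive degree lifts to a monic `P : R[X]` of the same degree: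
 `Polynomial.lifts_and_natDegree_eq_and_monic`, the quotient map is surjective; `eval (mk z) p = mk (eval z P) = 0`).
 `L := C ⧸ n` is a field (`hn.max`), a `k`-algebra (`Ideal.Quotient.lift` of `R → C → L`, which kills `ϖ` by `hn.mem`).
 `L` is integral over `k`:  (i) `t̄` is algebraic: `S34.exists_prim_mem` gives `s` with `¬ C ϖ ∣ s`, `s(t) ∈ n`; `s̄ := s.map mk ≠ 0` and `aeval t̄ s̄ = 0`;
 (ii) every `c ∈ C` is integral over `R[X]` (definition of `CInt`), so `c̄` is integral over `k[t̄] = Algebra.adjoin k {t̄}`, which is integral over `k` (`isIntegral_trans` / `IsIntegral.adjoin`...).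
 `IsAlgClosed.algebraMap_bijective_of_isIntegral` (or `IsAlgClosed.algebraMap_surjective_of_isIntegral`): `c̄ = r̄`, i.e. `c - rE r ∈ n`.
 ELEMENTARY ALTERNATIVE without `IsAlgClosed`: for `c ∈ C` find a monic `P : R[X]` of positive degree with `P(c) ∈ n`; by strong induction on the degree using `hk`
 (`P = (X - z) P₁ + ϖ(..)`), `n` prime ⟹ `c - z ∈ n` for some `z`.
-/

noncomputable section

namespace Fermat.Agent.S36.Tor

open Polynomial IntermediateField Fermat.Agent.S18 Fermat.Agent.S34 Fermat.Agent.S36.LG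
open Fermat.Agent.S36.Norm (One1 Near)

variable {R K F' F : Type} [CommRing R] [IsDomain R] [IsDiscreteValuationRing R] [Field K] [CharZero K]
  [Algebra R K] [IsFractionRing R K] [Field F'] [Algebra K F'] [Field F] [Algebra K F]
  {ϖ : R} {κ : Type} [Finite κ] {V : κ → ValuationSubring F}
  {q : ℕ} {t' : F'} {t : F} {γ : F' →ₐ[K] F} {Nm : F →* F'} {Vs Vr : ValuationSubring F'} {a b c : κ}

theorem isRat_of_algClosed (hϖ : Irreducible ϖ)
    (hk : ∀ P : R[X], P.Monic → P.natDegree ≠ 0 → ∃ z : R, ϖ ∣ P.eval z)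
    {n : Ideal (CInt R K t)} (hn : IsClosedPt ϖ n) : IsRat n := by
  classical
  have := hn.max
  have hmax : (Ideal.span {ϖ} : Ideal R).IsMaximal := by
    rw [← (IsDiscreteValuationRing.irreducible_iff_uniformizer ϖ).1 hϖ]
    exact IsLocalRing.maximalIdeal.isMaximal R
  let _ : Field (R ⧸ (Ideal.span {ϖ} : Ideal R)) := Ideal.Quotient.field _
  let _ : Field (CInt R K t ⧸ n) := Ideal.Quotient.field n
  let π : R →+* R ⧸ (Ideal.span {ϖ} : Ideal R) := Ideal.Quotient.mk _
  have hπ : Function.Surjective π := Ideal.Quotient.mk_surjective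
  have hπ0 : ∀ r : R, π r = 0 ↔ ϖ ∣ r := fun r => by
    rw [Ideal.Quotient.eq_zero_iff_mem, Ideal.mem_span_singleton]
  let ρ : R →+* CInt R K t := (rE R K F).codRestrict (CInt R K t) (rE_mem_CInt t)
  let ψ : R →+* CInt R K t ⧸ n := (Ideal.Quotient.mk n).comp ρ
  have hψϖ : ∀ a ∈ (Ideal.span {ϖ} : Ideal R), ψ a = 0 := by
    intro a ha
    obtain ⟨b, rfl⟩ := Ideal.mem_span_singleton.1 ha
    have h1 : ψ ϖ = 0 := Ideal.Quotient.eq_zero_iff_mem.2 hn.mem
    rw [map_mul, h1, zero_mul]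
  let ψ' : R ⧸ (Ideal.span {ϖ} : Ideal R) →+* CInt R K t ⧸ n := Ideal.Quotient.lift _ ψ hψϖ
  let _ : Algebra (R ⧸ (Ideal.span {ϖ} : Ideal R)) (CInt R K t ⧸ n) := ψ'.toAlgebra
  have halg : ∀ r : R, algebraMap (R ⧸ (Ideal.span {ϖ} : Ideal R)) (CInt R K t ⧸ n) (π r) = ψ r :=
    fun r => Ideal.Quotient.lift_mk _ ψ hψϖ
  -- `k` is algebraically closed
  have hac : IsAlgClosed (R ⧸ (Ideal.span {ϖ} : Ideal R)) := by
    refine IsAlgClosed.of_exists_root _ fun p hp hirr => ?_
    obtain ⟨P, hP1, hP2, hP3⟩ := lifts_and_natDegree_eq_and_monic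
      ((mem_lifts p).2 (map_surjective π hπ p)) hp
    obtain ⟨z, hz⟩ := hk P hP3 (by rw [hP2]; exact hirr.natDegree_pos.ne')
    refine ⟨π z, ?_⟩
    rw [← hP1, eval_map, eval₂_at_apply, (hπ0 _).2 hz]
  -- the polynomial ring
  let φ : R[X] →+* CInt R K t := (evR R K t).codRestrict (CInt R K t) (evR_mem_CInt t)
  have hφint : φ.IsIntegral := by
    intro c
    obtain ⟨P, hPm, hP⟩ := c.2
    refine ⟨P, hPm, Subtype.ext ?_⟩
    have h1 := hom_eval₂ P φ (CInt R K t).subtype c
    have h2 : (CInt R K t).subtype.comp φ = evR R K t := by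
      ext1 <;> rfl
    rw [h2] at h1
    exact h1.trans hP
  let χ : R[X] →+* CInt R K t ⧸ n := (Ideal.Quotient.mk n).comp φ
  set tb : CInt R K t ⧸ n := χ X with htb
  have hχ : ∀ s : R[X], χ s = aeval tb (s.map π) := by
    intro s
    have e1 : χ.comp C = (algebraMap (R ⧸ (Ideal.span {ϖ} : Ideal R)) (CInt R K t ⧸ n)).comp π := by
      ext a
      have e2 : χ (C a) = ψ a := by
        show Ideal.Quotient.mk n (φ (C a)) = Ideal.Quotient.mk n (ρ a)
        congr 1
        apply Subtype.ext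
        show evR R K t (C a) = rE R K F a
        simp [evR]
      exact e2.trans (halg a).symm
    have e3 := hom_eval₂ s C χ X
    rw [eval₂_C_X, e1] at e3
    rw [e3, aeval_def, eval₂_map]
  have htint : IsIntegral (R ⧸ (Ideal.span {ϖ} : Ideal R)) tb := by
    obtain ⟨s, hs1, hs2⟩ := exists_prim_mem hϖ hn
    apply IsAlgebraic.isIntegral
    refine ⟨s.map π, ?_, ?_⟩
    · intro h0
      apply hs1
      rw [C_dvd_iff_dvd_coeff]
      intro i
      rw [← hπ0, ← coeff_map, h0, coeff_zero]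
    · rw [← hχ]
      exact Ideal.Quotient.eq_zero_iff_mem.2 hs2
  have hAint : Algebra.IsIntegral (R ⧸ (Ideal.span {ϖ} : Ideal R))
      (Algebra.adjoin (R ⧸ (Ideal.span {ϖ} : Ideal R)) {tb}) :=
    Algebra.IsIntegral.adjoin (by
      intro x hx
      rw [Set.mem_singleton_iff] at hx
      rw [hx]
      exact htint)
  have hint : Algebra.IsIntegral (R ⧸ (Ideal.span {ϖ} : Ideal R)) (CInt R K t ⧸ n) := by
    refine ⟨fun l => ?_⟩
    obtain ⟨c, rfl⟩ := Ideal.Quotient.mk_surjective l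
    obtain ⟨Q, hQm, hQ⟩ := hφint c
    let θ : R[X] →+* Algebra.adjoin (R ⧸ (Ideal.span {ϖ} : Ideal R)) {tb} :=
      χ.codRestrict (Algebra.adjoin (R ⧸ (Ideal.span {ϖ} : Ideal R)) {tb}) (fun s => by
        rw [hχ]
        exact aeval_mem_adjoin_singleton _ _)
    refine isIntegral_trans (A := Algebra.adjoin (R ⧸ (Ideal.span {ϖ} : Ideal R)) {tb}) _
      ⟨Q.map θ, hQm.map θ, ?_⟩
    rw [eval₂_map]
    have h2 : (algebraMap (Algebra.adjoin (R ⧸ (Ideal.span {ϖ} : Ideal R)) {tb})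
        (CInt R K t ⧸ n)).comp θ = χ := by
      ext1 <;> rfl
    rw [h2]
    have h3 := hom_eval₂ Q φ (Ideal.Quotient.mk n) c
    rw [hQ, map_zero] at h3
    exact h3.symm
  intro c
  obtain ⟨x, hx⟩ := (IsAlgClosed.algebraMap_bijective_of_isIntegral
    (k := R ⧸ (Ideal.span {ϖ} : Ideal R)) (K := CInt R K t ⧸ n)).2 (Ideal.Quotient.mk n c)
  obtain ⟨r, rfl⟩ := hπ x
  refine ⟨r, ?_⟩
  rw [halg] at hx
  exact (Ideal.Quotient.eq).1 hx.symm

end Fermat.Agent.S36.Tor
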