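import Fermat.Agent.S36.Tor.Main
import Fermat.Agent.S36.Norm.FivePow

set_option autoImplicit false
set_option linter.unusedSectionVars false

/-!
# S36 / Tor / FromCtx : the hypotheses `hWA`, `hram` of `Tor.toric` from `Norm.Ctx3`
-/

noncomputable section

namespace Fermat.Agent.S36.Tor

open Polynomial IntermediateField Fermat.Agent.S18 Fermat.Agent.S34 Fermat.Agent.S36.LG
open Fermat.Agent.S36.Norm

variable {K F' F : Type} [Field K] [Field F'] [CharZero F'] [Algebra K F'] [Field F] [Algebra K F]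
  {q : ℕ} {RK : ValuationSubring K} {ϖ : K} {α β : F' →+* F}
  {Vi' V0' : ValuationSubring F'} {Vi Vm V0 : ValuationSubring F} {t tα tβ : F} {yα yβ : F'}

theorem fromCtx_sub_mem {V : ValuationSubring F} (hV : V.comap (algebraMap K F) = RK) {g : F}
    {c : ↥RK} (hg : Near V g (rE ↥RK K F c)) : g - rE ↥RK K F c ∈ V.nonunits := by
  have hc : rE ↥RK K F c ∈ V := by
    have : (c : K) ∈ V.comap (algebraMap K F) := by rw [hV]; exact c.2
    exact this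
  have e : g - rE ↥RK K F c = rE ↥RK K F c * (g / rE ↥RK K F c - 1) := by
    have := hg.1
    field_simp
  rw [e]
  exact nu_mul_left hc hg.2

theorem fromCtx_rE_ne_zero {c : ↥RK} (hc : IsUnit c) : rE ↥RK K F c ≠ 0 := by
  have h1 : (c : K) ≠ 0 := by
    intro h
    have : c = 0 := Subtype.ext h
    rw [this] at hc
    exact not_isUnit_zero hc
  exact (map_ne_zero (algebraMap K F)).2 h1

/-- weak approximation of three unit constants. -/
theorem hWA_of_ctx3 (h : Ctx3 q RK ϖ α β Vi' V0' Vi Vm V0 t tα tβ yα yβ) (ci cm c0 : ↥RK)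
    (hci : IsUnit ci) (hcm : IsUnit cm) (hc0 : IsUnit c0) :
    ∃ g : F, g - rE ↥RK K F ci ∈ Vi.nonunits ∧ g - rE ↥RK K F cm ∈ Vm.nonunits ∧
      g - rE ↥RK K F c0 ∈ V0.nonunits := by
  obtain ⟨g, h1, h2, h3⟩ := exists_near3 h.unif_i h.unif_m h.unif_0 h.ne_im h.ne_i0 h.ne_m0
    (fromCtx_rE_ne_zero (F := F) hci) (fromCtx_rE_ne_zero (F := F) hcm)
    (fromCtx_rE_ne_zero (F := F) hc0)
  exact ⟨g, fromCtx_sub_mem h.comapF_i h1, fromCtx_sub_mem h.comapF_m h2,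
    fromCtx_sub_mem h.comapF_0 h3⟩

theorem fromCtx_ram_one {V : ValuationSubring F} {π : F} (hπ : IsUnif V π) (hq : 1 ≤ q) {z : F}
    (hz : z ∈ V.nonunits) : π⁻¹ * z ^ q ∈ V := by
  obtain ⟨r, rfl⟩ : ∃ r, q = r + 1 := ⟨q - 1, by omega⟩
  have e : π⁻¹ * z ^ (r + 1) = z / π * z ^ r := by
    rw [pow_succ, div_eq_mul_inv]; ring
  rw [e]
  exact mul_mem (hπ.div_mem hz) (pow_mem (nu_mem hz) r)

theorem hram_i_of_ctx3 (h : Ctx3 q RK ϖ α β Vi' V0' Vi Vm V0 t tα tβ yα yβ) {z : F}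
    (hz : z ∈ Vi.nonunits) : (algebraMap K F ϖ)⁻¹ * z ^ q ∈ Vi :=
  fromCtx_ram_one h.unif_i h.hq.one_lt.le hz

theorem hram_0_of_ctx3 (h : Ctx3 q RK ϖ α β Vi' V0' Vi Vm V0 t tα tβ yα yβ) {z : F}
    (hz : z ∈ V0.nonunits) : (algebraMap K F ϖ)⁻¹ * z ^ q ∈ V0 :=
  fromCtx_ram_one h.unif_0 h.hq.one_lt.le hz

theorem hram_m_of_ctx3 (h : Ctx3 q RK ϖ α β Vi' V0' Vi Vm V0 t tα tβ yα yβ) {z : F}
    (hz : z ∈ Vm.nonunits) : (algebraMap K F ϖ)⁻¹ * z ^ q ∈ Vm := by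
  have hq := h.hq.two_le
  obtain ⟨r, rfl⟩ : ∃ r, q = r + 1 := ⟨q - 1, by omega⟩
  have ht0 := h.unif_m.ne_zero
  obtain ⟨hϖ0, -, h2⟩ := h.ord_m
  have e0 : (((r + 1 : ℕ) : ℤ) - 1) = (r : ℤ) := by push_cast; ring
  rw [e0, zpow_natCast] at h2
  have e : (algebraMap K F ϖ)⁻¹ * z ^ (r + 1) = t ^ r / algebraMap K F ϖ * (z / t) ^ r * z := by
    rw [pow_succ, div_pow]
    field_simp
  rw [e]
  exact mul_mem (mul_mem h2 (pow_mem (h.unif_m.div_mem hz) r)) (nu_mem hz)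

end Fermat.Agent.S36.Tor
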