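import Fermat.Agent.S36.Tor.Basic
import Fermat.Agent.S34.RootB

set_option autoImplicit false
set_option linter.unusedSectionVars false

/-!
# S36 / Tor / Omega : the constants `ω`   (task TOR-Omega)

SKETCH.
 * `exists_omega`: `ξ := rE ζ` is a primitive `m`-th root of unity of `F'` (`IsPrimitiveRoot.map_of_injective`, `rE_injective`).  `S34.RootB.exists_root_of_unity`: `μ^m = 1`, `w - μ ∈ 𝔪`;
   `μ = ξ^i` (`IsPrimitiveRoot.eq_pow_of_pow_eq_one`), `ω := ζ^i`.
 * `DegMap.norm_one_s`: `hD.norm_split u 1 1` (`γ 1 = 1`, `Norm.near_one_iff`).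
 * `DegMap.norm_one_r`: `hD.norm_rad u`: `Near (V c) (u^q) (γ (Nm u))`, `One1 (u^q)` (`One1.pow`) ⟹ `One1 (V c) (γ (Nm u))` (`Near.symm`, `Near.trans`, `near_one_iff`) ⟹ `Nm u - 1 ∈ 𝔪_{Vr}` (`comap_nonunits_iff hD.comap_c`, `map_sub`, `map_one`).
-/

noncomputable section

namespace Fermat.Agent.S36.Tor

open Polynomial IntermediateField Fermat.Agent.S18 Fermat.Agent.S34 Fermat.Agent.S36.LG
open Fermat.Agent.S36.Norm (One1 Near)

variable {R K F' F : Type} [CommRing R] [IsDomain R] [IsDiscreteValuationRing R] [Field K] [CharZero K]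
  [Algebra R K] [IsFractionRing R K] [Field F'] [Algebra K F'] [Field F] [Algebra K F]
  {ϖ : R} {κ : Type} [Finite κ] {V : κ → ValuationSubring F}
  {q : ℕ} {t' : F'} {t : F} {γ : F' →ₐ[K] F} {Nm : F →* F'} {Vs Vr : ValuationSubring F'} {a b c : κ}

theorem exists_omega {W : ValuationSubring F'} {m : ℕ} (hm : 0 < m) {ζ : R}
    (hζ : IsPrimitiveRoot ζ m) {w : F'} (h : One1 W (w ^ m)) :
    ∃ ω : R, ω ^ m = 1 ∧ w - rE R K F' ω ∈ W.nonunits := by
  have hξ : IsPrimitiveRoot (rE R K F' ζ) m := hζ.map_of_injective rE_injective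
  obtain ⟨μ, hμ, hwμ⟩ := S34.RootB.exists_root_of_unity W hm hξ h
  haveI : NeZero m := ⟨hm.ne'⟩
  obtain ⟨i, -, hi⟩ := hξ.eq_pow_of_pow_eq_one hμ
  refine ⟨ζ ^ i, by rw [← pow_mul, mul_comm, pow_mul, hζ.pow_eq_one, one_pow], ?_⟩
  rw [map_pow, hi]
  exact hwμ

theorem DegMap.norm_one_s (hD : DegMap R q t' t γ Nm Vs Vr (V a) (V b) (V c)) {u : F}
    (ha : One1 (V a) u) (hb : One1 (V b) u) : One1 Vs (Nm u) := by
  have h := hD.norm_split u 1 1 (by rw [map_one]; exact Norm.near_one_iff.2 ha)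
    (by rw [map_one]; exact Norm.near_one_iff.2 hb)
  rw [one_pow, mul_one] at h
  exact Norm.near_one_iff.1 h

theorem DegMap.norm_one_r (hD : DegMap R q t' t γ Nm Vs Vr (V a) (V b) (V c)) {u : F}
    (hc : One1 (V c) u) : One1 Vr (Nm u) := by
  have h1 := hD.norm_rad u hc.ne_zero
  have h2 : Near (V c) (u ^ q) 1 := Norm.near_one_iff.2 (hc.pow q)
  have h4 := Norm.near_one_iff.1 (h1.symm.trans h2)
  show Nm u - 1 ∈ Vr.nonunits
  rw [← comap_nonunits_iff hD.comap_c, map_sub, map_one]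
  exact h4

end Fermat.Agent.S36.Tor
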