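import Fermat.Agent.S36.Tor.Basic

set_option autoImplicit false
set_option linter.unusedSectionVars false

/-!
# S36 / Tor / Prec : raising to the power `q` improves the precision from `𝔪` to `ϖ`   (task TOR-Prec)

SKETCH.  `z = 1 + μ`, `μ ∈ 𝔪_W`.  `z^q - 1 - μ^q = q * μ * (..)` with `(..) ∈ ℤ[μ] ⊆ W`: e.g. from `(add_pow_char_of_commute..)`-free argument: `(X + 1)^q - X^q - 1 ∈ q ℤ[X]` for `q` prime
 (`Polynomial`: all coefficients `q.choose i`, `0 < i < q`, are divisible by `q`: `Nat.Prime.dvd_choose_self`; or use `add_pow` + `Finset.sum_range_succ` splitting the two extreme terms;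
 or the ready-made `exists_add_pow_prime_eq (hp : p.Prime) (x y) : ∃ r, (x + y)^p = x^p + y^p + p * r` applied in the commutative ring `W`).
 `ϖ⁻¹ q ∈ W` (`hqϖ : ϖ ∣ q` in `R`, `rE R ⊆ W` by `hRW`), `ϖ⁻¹ μ^q ∈ W` (`hram`).
 `LocData1.pow`: representative `h^q`; `u^q / (h^q)^m = (u / h^m)^q` (`InLoc.pow`).
-/

noncomputable section

namespace Fermat.Agent.S36.Tor

open Polynomial IntermediateField Fermat.Agent.S18 Fermat.Agent.S34 Fermat.Agent.S36.LG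
open Fermat.Agent.S36.Norm (One1 Near)

variable {R K F' F : Type} [CommRing R] [IsDomain R] [IsDiscreteValuationRing R] [Field K] [CharZero K]
  [Algebra R K] [IsFractionRing R K] [Field F'] [Algebra K F'] [Field F] [Algebra K F]
  {ϖ : R} {κ : Type} [Finite κ] {V : κ → ValuationSubring F}
  {q : ℕ} {t' : F'} {t : F} {γ : F' →ₐ[K] F} {Nm : F →* F'} {Vs Vr : ValuationSubring F'} {a b c : κ}

theorem One1.oneP_pow (hϖ : Irreducible ϖ) (hq : q.Prime) (hqϖ : ϖ ∣ (q : R)) {W : ValuationSubring F}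
    (hRW : ∀ r : R, rE R K F r ∈ W) (hram : ∀ z ∈ W.nonunits, (rE R K F ϖ)⁻¹ * z ^ q ∈ W) {z : F}
    (h : One1 W z) : OneP K ϖ W (z ^ q) := by
  have hμ : z - 1 ∈ W.nonunits := h
  have hμW : z - 1 ∈ W := mem_of_mem_nonunits W hμ
  obtain ⟨r, hr⟩ := exists_add_pow_prime_eq hq (⟨z - 1, hμW⟩ : W) 1
  have hr' : (z - 1 + 1) ^ q = (z - 1) ^ q + 1 ^ q + (q : F) * (z - 1) * 1 * (r : F) :=
    congrArg (Subtype.val : W → F) hr
  rw [sub_add_cancel, one_pow] at hr'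
  obtain ⟨s, hs⟩ := hqϖ
  have hϖ0 : rE R K F ϖ ≠ 0 := ss_rE_ne_zero hϖ
  have hq' : (q : F) = rE R K F ϖ * rE R K F s := by rw [← map_mul, ← hs, map_natCast]
  show (rE R K F ϖ)⁻¹ * (z ^ q - 1) ∈ W
  have e : (rE R K F ϖ)⁻¹ * (z ^ q - 1) =
      (rE R K F ϖ)⁻¹ * (z - 1) ^ q + rE R K F s * ((z - 1) * r) := by
    rw [hr', hq']
    field_simp
    ring
  rw [e]
  exact add_mem (hram _ hμ) (mul_mem (hRW s) (mul_mem hμW r.2))

theorem LocData1.pow (hϖ : Irreducible ϖ) (hq : q.Prime) (hqϖ : ϖ ∣ (q : R))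
    (hRV : ∀ k, ∀ r : R, rE R K F r ∈ V k)
    (hram : ∀ k, ∀ z ∈ (V k).nonunits, (rE R K F ϖ)⁻¹ * z ^ q ∈ V k) {n : Ideal (CInt R K t)}
    [n.IsPrime] {m : ℕ} {u : F} (h : LocData1 V n m u) : LocDataV ϖ V n m (u ^ q) := by
  obtain ⟨h₀, hh₀, hloc, hone⟩ := h
  refine ⟨h₀ ^ q, pow_ne_zero _ hh₀, ?_, fun k hk =>
    One1.oneP_pow hϖ hq hqϖ (hRV k) (hram k) (hone k hk)⟩
  have e : u ^ q / (h₀ ^ q) ^ m = (u / h₀ ^ m) ^ q := by
    rw [div_pow, ← pow_mul, ← pow_mul, mul_comm]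
  rw [e]
  exact hloc.pow q

end Fermat.Agent.S36.Tor
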