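import Fermat.Agent.S36.Tor.GlueE
import Fermat.Agent.S34.RootB

set_option autoImplicit false
set_option linter.unusedSectionVars false

/-!
# S36 / Tor / RootB : the prime step, normalisation of the root   (task TOR-RootB)

ADAPTATION of `S34.exists_root_one` (Fermat/Agent/S34/RootB.lean; `RootB.exists_factor`, `RootB.exists_root_of_unity`, `RootB.pow_sub_pow_mem`, `RootB.idem_sub_mem` are general: cite them).
SKETCH.  `w^p = u`, `u ≡ 1 mod 𝔪_{V k}` (`OneP.sub_one_mem`), so `w ≡ μ_k`, `μ_k^p = 1` (`exists_root_of_unity`).  Fix `k₀`; replace `w` by `w μ_{k₀}⁻¹` (still a `p`-th root of `u`).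
 `glue_primeV` with `E = F` (`hconst`): `idem p w ≡ r mod ϖ InO`, so `idem p w - rE r ∈ 𝔪_{V k}` for all `k`.  On `V k₀`: `idem p w ≡ 1`, so `r - 1 ∈ ϖ R`.
 If `μ_k ≠ 1`: `idem p w ≡ (1/p) ∑ μ_k^i = 0` on `V k`, so `rE r ∈ 𝔪_{V k}`, `ϖ ∣ r`: contradiction.  So `w ≡ 1 mod 𝔪_{V k}` for all `k`.
 PRECISION (new): `w^p - 1 = (w - 1) * s`, `s = ∑_{i<p} w^i ≡ p mod 𝔪`, a unit of `V k` (`hpR`); so `ϖ⁻¹ (w - 1) = ϖ⁻¹ (u - 1) * s⁻¹ ∈ V k`.
-/

noncomputable section

namespace Fermat.Agent.S36.Tor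

open Polynomial IntermediateField Fermat.Agent.S18 Fermat.Agent.S34 Fermat.Agent.S36.LG
open Fermat.Agent.S36.Norm (One1 Near)

variable {R K F : Type} [CommRing R] [IsDomain R] [IsDiscreteValuationRing R] [Field K] [CharZero K]
  [Algebra R K] [IsFractionRing R K] [Field F] [Algebra K F]
  {ϖ : R} {κ : Type} [Finite κ] {V : κ → ValuationSubring F}

open Fermat.Agent.S34.RootB in
theorem exists_root_oneV (hϖ : Irreducible ϖ) {x : F} (hV : VertFam (K := K) ϖ x V)
    (hconst : ∀ z : F, IsAlgebraic K z → z ∈ (algebraMap K F).range)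
    {p : ℕ} (hp : p.Prime) (hpR : IsUnit (p : R)) {ζ : K} (hζ : IsPrimitiveRoot ζ p)
    {u : F} (hu : ∀ k, OneP K ϖ (V k) u) {w : F} (hw : w ^ p = u)
    (hfin : ∀ n : Ideal (CInt R K x), IsClosedPt ϖ n → LocDataV ϖ V n p u)
    (hinf : ∀ n : Ideal (CInt R K x⁻¹), IsClosedPt ϖ n → LocDataV ϖ V n p u) :
    ∃ w' : F, w' ^ p = u ∧ ∀ k, OneP K ϖ (V k) w' := by
  have : CharZero F := charZero_of_injective_algebraMap (algebraMap K F).injective
  have hp0 : (p : F) ≠ 0 := Nat.cast_ne_zero.2 hp.ne_zero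
  have hϖ0 : rE R K F ϖ ≠ 0 := rE_unif_ne_zero hϖ
  have hξ : IsPrimitiveRoot (algebraMap K F ζ) p := hζ.map_of_injective (algebraMap K F).injective
  have hR : ∀ (s : R) (k : κ), rE R K F s ∈ V k := fun s k =>
    hV.mem_of_mem_CInt hϖ (rE_mem_CInt x s) k
  have hpinv : ∀ k, (p : F)⁻¹ ∈ V k := by
    intro k
    obtain ⟨c, hc⟩ := hpR
    have : (p : F)⁻¹ = rE R K F ↑c⁻¹ := by
      have h1 : rE R K F (↑c) * rE R K F ↑c⁻¹ = 1 := by rw [← map_mul]; simp
      rw [hc, map_natCast] at h1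
      exact inv_eq_of_mul_eq_one_right h1
    rw [this]
    exact hR _ k
  have hu1 : ∀ k, u - 1 ∈ (V k).nonunits := fun k => (hu k).sub_one_mem (hV.mem k) hϖ
  have hroot : ∀ (W : ValuationSubring F) (μ : F), μ ^ p = 1 → μ ∈ W := fun W μ h =>
    mem_of_pow_mem W hp.ne_zero (by rw [h]; exact W.one_mem)
  -- the precision
  have hprec : ∀ (k : κ) (w' : F), w' ^ p = u → w' - 1 ∈ (V k).nonunits → OneP K ϖ (V k) w' := by
    intro k w' hw' h1
    obtain ⟨s, hsdef⟩ : ∃ s : F, s = ∑ i ∈ Finset.range p, w' ^ i := ⟨_, rfl⟩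
    have hs : s * (w' - 1) = u - 1 := by
      rw [← hw', hsdef]
      exact geom_sum_mul w' p
    have hsp : s - (p : F) ∈ (V k).nonunits := by
      have e : s - (p : F) = ∑ i ∈ Finset.range p, (w' ^ i - 1 ^ i) := by
        rw [hsdef]
        simp [Finset.sum_sub_distrib]
      rw [e]
      exact sum_mem_nonunits (V k) _ _ fun i _ => pow_sub_pow_mem (V k) (V k).one_mem h1 i
    have hpn : (p : F) ∉ (V k).nonunits := by
      intro h
      have := mul_mem_nonunits (V k) (hpinv k) h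
      rw [inv_mul_cancel₀ hp0] at this
      exact one_notMem_nonunits _ this
    have hsn : s ∉ (V k).nonunits := fun h => hpn (by
      have := sub_mem_nonunits (V k) h hsp
      rwa [sub_sub_cancel] at this)
    have hsV : s ∈ V k := by
      have e : s = (s - (p : F)) + (p : F) := by ring
      rw [e]
      exact add_mem (mem_of_mem_nonunits _ hsp) (natCast_mem _ p)
    have hsinv : s⁻¹ ∈ V k := inv_mem_of_notMem_nonunits (V k) hsV hsn
    have hs0 : s ≠ 0 := fun h => hsn (h ▸ zero_mem_nonunits _)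
    show (rE R K F ϖ)⁻¹ * (w' - 1) ∈ V k
    have e : (rE R K F ϖ)⁻¹ * (w' - 1) = ((rE R K F ϖ)⁻¹ * (u - 1)) * s⁻¹ := by
      rw [← hs]
      field_simp
    rw [e]
    exact mul_mem (hu k) hsinv
  rcases isEmpty_or_nonempty κ with hκ | ⟨⟨k₀⟩⟩
  · exact ⟨w, hw, fun k => (hκ.false k).elim⟩
  choose μ hμ hwμ using fun k =>
    exists_root_of_unity (V k) hp.pos hξ (w := w) (by rw [hw]; exact hu1 k)
  have hμ0 : μ k₀ ≠ 0 := by
    intro h
    have := hμ k₀
    rw [h] at this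
    simp [hp.ne_zero] at this
  obtain ⟨ν, hνdef⟩ : ∃ ν : F, ν = (μ k₀)⁻¹ := ⟨_, rfl⟩
  have hν : ν ^ p = 1 := by rw [hνdef, inv_pow, hμ, inv_one]
  have hw' : (w * ν) ^ p = u := by rw [mul_pow, hν, mul_one, hw]
  have hwk : ∀ k, w * ν - μ k * ν ∈ (V k).nonunits := by
    intro k
    have e : w * ν - μ k * ν = ν * (w - μ k) := by ring
    rw [e]
    exact mul_mem_nonunits (V k) (hroot (V k) _ hν) (hwμ k)
  have hμν : ∀ k, (μ k * ν) ^ p = 1 := fun k => by rw [mul_pow, hμ, hν, one_mul]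
  have h0 : μ k₀ * ν = 1 := by rw [hνdef, mul_inv_cancel₀ hμ0]
  obtain ⟨r, η, hη, hr⟩ := glue_primeV (E := F) hϖ hV hconst hp hpR hu (y := w * ν)
    (by simpa using hw') hfin hinf
  have hη' := (hV.inO_iff η).1 hη
  refine ⟨w * ν, hw', fun k => hprec k _ hw' ?_⟩
  by_cases h1 : μ k * ν = 1
  · have := hwk k
    rwa [h1] at this
  · exfalso
    have e1 : idem p (1 : F) = 1 := by simp [idem, hp0]
    have e0 : idem p (μ k * ν) = 0 := by
      have := geom_sum_mul (μ k * ν) p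
      rw [hμν, sub_self] at this
      rw [idem, (mul_eq_zero.1 this).resolve_right (sub_ne_zero.2 h1), zero_div]
    have hwk₀ := hwk k₀
    rw [h0] at hwk₀
    have a1 := idem_sub_mem (V k₀) (hpinv k₀) (V k₀).one_mem hwk₀
    have a0 := idem_sub_mem (V k) (hpinv k) (hroot (V k) _ (hμν k)) (hwk k)
    rw [e1] at a1
    rw [e0, sub_zero] at a0
    have b0 : rE R K F r ∈ (V k).nonunits := by
      have : rE R K F r = rE R K F ϖ * η + idem p (w * ν) := by rw [← hr]; ring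
      rw [this]
      exact add_mem_nonunits (V k) (mul_mem_nonunits' (V k) (hV.mem k) (hη' k)) a0
    have b1 : rE R K F r - 1 ∈ (V k₀).nonunits := by
      have : rE R K F r - 1 = rE R K F ϖ * η + (idem p (w * ν) - 1) := by rw [← hr]; ring
      rw [this]
      exact add_mem_nonunits (V k₀) (mul_mem_nonunits' (V k₀) (hV.mem k₀) (hη' k₀)) a1
    have hdvd : ϖ ∣ r := by
      by_contra hnd
      have hu : IsUnit r := by
        rw [← IsLocalRing.notMem_maximalIdeal, hϖ.maximalIdeal_eq, Ideal.mem_span_singleton]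
        exact hnd
      obtain ⟨c, rfl⟩ := hu
      have h2 : rE R K F (↑c) * rE R K F ↑c⁻¹ = 1 := by rw [← map_mul]; simp
      exact one_notMem_nonunits (V k) (h2 ▸ mul_mem_nonunits' (V k) b0 (hR _ k))
    obtain ⟨s, rfl⟩ := hdvd
    have h3 : rE R K F (ϖ * s) ∈ (V k₀).nonunits := by
      rw [map_mul]
      exact mul_mem_nonunits' (V k₀) (hV.mem k₀) (hR s k₀)
    have h4 := sub_mem_nonunits (V k₀) h3 b1
    rw [sub_sub_cancel] at h4
    exact one_notMem_nonunits (V k₀) h4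

end Fermat.Agent.S36.Tor
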