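import Fermat.Agent.S36.Tor.RootA
import Fermat.Agent.S36.Tor.RootB

set_option autoImplicit false
set_option linter.unusedSectionVars false

/-!
# S36 / Tor / T1 : the gluing theorem for `m = p^k` and a family of components   (task TOR-T1)

ADAPTATION of `S34.t1` (Fermat/Agent/S34/T1.lean: copy the proof).  `hconst` for `exists_root_oneV` follows from `h𝕃`: `z : F` algebraic over `K` ⟹ `algebraMap F 𝕃 z` algebraic ⟹
 `= algebraMap K 𝕃 c = algebraMap F 𝕃 (algebraMap K F c)` ⟹ `z = algebraMap K F c` (injectivity).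
 `OneP` for powers: `OneP h ⟹ OneP (h^j)` (`h ∈ V k`; `h^(j+1) - 1 = h^j (h - 1) + (h^j - 1)`).
-/

noncomputable section

namespace Fermat.Agent.S36.Tor

open Polynomial IntermediateField Fermat.Agent.S18 Fermat.Agent.S34 Fermat.Agent.S36.LG
open Fermat.Agent.S36.Norm (One1 Near)

variable {R K F : Type} [CommRing R] [IsDomain R] [IsDiscreteValuationRing R] [Field K] [CharZero K]
  [Algebra R K] [IsFractionRing R K] [Field F] [Algebra K F]
  {ϖ : R} {κ : Type} [Finite κ] {V : κ → ValuationSubring F}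

theorem OneP.pow {W : ValuationSubring F} (hW : rE R K F ϖ ∈ W.nonunits) (hϖ : Irreducible ϖ) {z : F}
    (h : OneP K ϖ W z) (j : ℕ) : OneP K ϖ W (z ^ j) := by
  have hz : z ∈ W := (OneP.sub_one_mem hW hϖ h).mem
  induction j with
  | zero =>
    unfold OneP
    rw [pow_zero, sub_self, mul_zero]
    exact W.zero_mem
  | succ j ih =>
    unfold OneP at ih h ⊢
    have e : (rE R K F ϖ)⁻¹ * (z ^ (j + 1) - 1) =
        z ^ j * ((rE R K F ϖ)⁻¹ * (z - 1)) + (rE R K F ϖ)⁻¹ * (z ^ j - 1) := by ring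
    rw [e]
    exact W.add_mem _ _ (W.mul_mem _ _ (pow_mem hz j) h) ih

/-- **T1** for a family of components. -/
theorem t1V [Nonempty κ] (hϖ : Irreducible ϖ) {x : F} (hV : VertFam (K := K) ϖ x V)
    {p : ℕ} (hp : p.Prime) (hpR : IsUnit (p : R))
    {𝕃 : Type} [Field 𝕃] [Algebra K 𝕃] [Algebra F 𝕃] [IsScalarTower K F 𝕃]
    (h𝕃 : ∀ z : 𝕃, IsAlgebraic K z → z ∈ (algebraMap K 𝕃).range) (k : ℕ) :
    ∀ (ζ : K) (_ : IsPrimitiveRoot ζ (p ^ k)) (u : F) (_ : ∀ j, OneP K ϖ (V j) u)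
      (y : 𝕃) (_ : y ^ (p ^ k) = algebraMap F 𝕃 u)
      (_ : ∀ n : Ideal (CInt R K x), IsClosedPt ϖ n → LocDataV ϖ V n (p ^ k) u)
      (_ : ∀ n : Ideal (CInt R K x⁻¹), IsClosedPt ϖ n → LocDataV ϖ V n (p ^ k) u),
      ∃ w : F, w ^ (p ^ k) = u ∧ ∀ j, OneP K ϖ (V j) w := by
  have hconst : ∀ z : F, IsAlgebraic K z → z ∈ (algebraMap K F).range := by
    intro z hz
    have h1 : IsAlgebraic K (algebraMap F 𝕃 z) := hz.algebraMap
    obtain ⟨c, hc⟩ := h𝕃 _ h1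
    refine ⟨c, ?_⟩
    apply (algebraMap F 𝕃).injective
    rw [← hc, ← IsScalarTower.algebraMap_apply]
  obtain ⟨j₀⟩ := ‹Nonempty κ›
  have hne : ∀ z : F, (∀ j, OneP K ϖ (V j) z) → z ≠ 0 := fun z hz =>
    (OneP.sub_one_mem (hV.mem j₀) hϖ (hz j₀)).ne_zero
  induction k with
  | zero =>
    intro ζ _ u hu y _ _ _
    exact ⟨u, by rw [pow_zero, pow_one], hu⟩
  | succ k ih =>
    intro ζ hζ u hu y hy hfin hinf
    have hred : ∀ {t : F} (n : Ideal (CInt R K t)),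
        LocDataV ϖ V n (p ^ (k + 1)) u → LocDataV ϖ V n p u := by
      rintro t n ⟨h, h0, hl, h1⟩
      refine ⟨h ^ (p ^ k), pow_ne_zero _ h0, ?_, fun j hc => OneP.pow (hV.mem j) hϖ (h1 j hc) _⟩
      rwa [← pow_mul, ← pow_succ]
    have hζp : IsPrimitiveRoot (ζ ^ (p ^ k)) p :=
      hζ.pow (pow_pos hp.pos _) (by rw [pow_succ])
    have hy1 : (y ^ (p ^ k)) ^ p = algebraMap F 𝕃 u := by rw [← pow_mul, ← pow_succ, hy]
    have : Nonempty κ := ⟨j₀⟩
    obtain ⟨w0, hw0⟩ := exists_rootV hϖ hV hp hpR hζp h𝕃 hu hy1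
      (fun n hn => hred n (hfin n hn)) (fun n hn => hred n (hinf n hn))
    obtain ⟨w1, hw1, hw1o⟩ := exists_root_oneV hϖ hV hconst hp hpR hζp hu hw0
      (fun n hn => hred n (hfin n hn)) (fun n hn => hred n (hinf n hn))
    have hloc : ∀ {t : F} (n : Ideal (CInt R K t)), IsClosedPt ϖ n →
        LocDataV ϖ V n (p ^ (k + 1)) u → LocDataV ϖ V n (p ^ k) w1 := by
      rintro t n hn ⟨h, h0, hl, h1⟩
      have := hn.max.isPrime
      refine ⟨h, h0, InLoc.of_pow (k := p) hp.ne_zero ?_, h1⟩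
      rw [div_pow, hw1, ← pow_mul, ← pow_succ]
      exact hl
    have hw1ne : algebraMap F 𝕃 w1 ≠ 0 := (_root_.map_ne_zero _).mpr (hne w1 hw1o)
    have hξ : (y ^ (p ^ k) / algebraMap F 𝕃 w1) ^ p = 1 := by
      rw [div_pow, hy1, ← map_pow, hw1, div_self]
      exact (_root_.map_ne_zero _).mpr (hne u hu)
    have hζ𝕃 : IsPrimitiveRoot (algebraMap K 𝕃 (ζ ^ (p ^ k))) p :=
      hζp.map_of_injective (algebraMap K 𝕃).injective
    have : NeZero p := ⟨hp.ne_zero⟩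
    obtain ⟨a, -, hξa⟩ := hζ𝕃.eq_pow_of_pow_eq_one hξ
    have hz0 : algebraMap K 𝕃 ζ ≠ 0 :=
      (_root_.map_ne_zero _).mpr (hζ.ne_zero (pow_pos hp.pos _).ne')
    have hy' : (y * (algebraMap K 𝕃 ζ)⁻¹ ^ a) ^ (p ^ k) = algebraMap F 𝕃 w1 := by
      have h1 : y ^ (p ^ k) = algebraMap K 𝕃 (ζ ^ (p ^ k)) ^ a * algebraMap F 𝕃 w1 := by
        rw [hξa, div_mul_cancel₀ _ hw1ne]
      rw [mul_pow, h1, map_pow, ← pow_mul, ← pow_mul, inv_pow, mul_comm a (p ^ k)]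
      field_simp
    have hζ' : IsPrimitiveRoot (ζ ^ p) (p ^ k) :=
      hζ.pow (pow_pos hp.pos _) (by rw [pow_succ, mul_comm])
    obtain ⟨w, hw, hwo⟩ := ih (ζ ^ p) hζ' w1 hw1o _ hy'
      (fun n hn => hloc n hn (hfin n hn)) (fun n hn => hloc n hn (hinf n hn))
    exact ⟨w, by rw [pow_succ, pow_mul, hw, hw1], hwo⟩

end Fermat.Agent.S36.Tor
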