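import Fermat.Agent.S36.Tor.Loc
import Fermat.Agent.S36.Tor.Omega
import Fermat.Agent.S36.Tor.Prec
import Fermat.Agent.S36.Tor.T1

set_option autoImplicit false
set_option linter.unusedSectionVars false

/-!
# S36 / Tor / Main : the abstract TORIC theorem  (blueprint (6) + (7))

`u ≡ 1` on the three components, `u` is locally (unit) * (`m`-th power) at every closed point of both charts, both norms of `u` are `m`-th powers
⟹ `u ^ ((q² - 1) q)` is an `m`-th power.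
-/

noncomputable section

namespace Fermat.Agent.S36.Tor

open Polynomial IntermediateField Fermat.Agent.S18 Fermat.Agent.S34 Fermat.Agent.S36.LG
open Fermat.Agent.S36.Norm (One1 Near)

variable {R K F' F : Type} [CommRing R] [IsDomain R] [IsDiscreteValuationRing R] [Field K] [CharZero K]
  [Algebra R K] [IsFractionRing R K] [Field F'] [Algebra K F'] [Field F] [Algebra K F]
  {ϖ : R} {κ : Type} [Finite κ] {V : κ → ValuationSubring F} {q : ℕ}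
  {ki km k0 : κ} {α β : F' →ₐ[K] F} {Nα Nβ : F →* F'} {Vi' V0' : ValuationSubring F'}

theorem one1_pow_of_sub {W : ValuationSubring F} (hRW : ∀ r : R, rE R K F r ∈ W) {g : F} {c : R}
    (hg : g - rE R K F c ∈ W.nonunits) {m : ℕ} (hc : c ^ m = 1) : One1 W (g ^ m) := by
  have hgW : g ∈ W := by
    have := W.add_mem _ _ (mem_of_mem_nonunits W hg) (hRW c)
    rwa [sub_add_cancel] at this
  have := ss_pow_sub_pow_mem W hgW (hRW c) hg m
  rwa [← map_pow, hc, map_one] at this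

/-- **TORIC**. -/
theorem toric (hϖ : Irreducible ϖ) (hq : q.Prime) (hqϖ : ϖ ∣ (q : R))
    {p : ℕ} (hp : p.Prime) (hpR : IsUnit (p : R)) (k : ℕ) {ζ : R} (hζ : IsPrimitiveRoot ζ (p ^ k))
    {x' : F'} {x : F}
    (hT : TorChart ϖ q V ki km k0 x' x α β Nα Nβ Vi' V0')
    (hT' : TorChart ϖ q V ki km k0 x'⁻¹ x⁻¹ α β Nα Nβ Vi' V0')
    (hall : ∀ j, j = ki ∨ j = km ∨ j = k0)
    (hram : ∀ j, ∀ z ∈ (V j).nonunits, (rE R K F ϖ)⁻¹ * z ^ q ∈ V j)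
    (hWA : ∀ ci cm c0 : R, IsUnit ci → IsUnit cm → IsUnit c0 → ∃ g : F,
      g - rE R K F ci ∈ (V ki).nonunits ∧ g - rE R K F cm ∈ (V km).nonunits ∧
        g - rE R K F c0 ∈ (V k0).nonunits)
    {𝕃 : Type} [Field 𝕃] [Algebra K 𝕃] [Algebra F 𝕃] [IsScalarTower K F 𝕃]
    (h𝕃 : ∀ z : 𝕃, IsAlgebraic K z → z ∈ (algebraMap K 𝕃).range)
    {u : F} (hu1 : ∀ j, One1 (V j) u) {wα wβ : F'}
    (hwα : Nα u = wα ^ (p ^ k)) (hwβ : Nβ u = wβ ^ (p ^ k))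
    (hK : ∀ n : Ideal (CInt R K x), IsClosedPt ϖ n →
      ∃ h ε : F, h ≠ 0 ∧ LocUnit n ε ∧ u = ε * h ^ (p ^ k))
    (hK' : ∀ n : Ideal (CInt R K x⁻¹), IsClosedPt ϖ n →
      ∃ h ε : F, h ≠ 0 ∧ LocUnit n ε ∧ u = ε * h ^ (p ^ k))
    {y : 𝕃} (hy : y ^ (p ^ k) = algebraMap F 𝕃 u) :
    ∃ w : F, w ^ (p ^ k) = u ^ ((q ^ 2 - 1) * q) := by
  have : Nonempty κ := ⟨ki⟩
  set m := p ^ k with hm
  have hm0 : m ≠ 0 := pow_ne_zero _ hp.ne_zero
  have hmpos : 0 < m := Nat.pos_of_ne_zero hm0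
  have hmR : IsUnit (m : R) := by rw [hm, Nat.cast_pow]; exact hpR.pow k
  have hRV : ∀ j, ∀ r : R, rE R K F r ∈ V j := fun j r =>
    hT.vert.mem_of_mem_CInt hϖ (rE_mem_CInt x r) j
  -- the constants
  obtain ⟨ωs, e1, h1⟩ := exists_omega (K := K) (W := Vi') hmpos hζ
    (by rw [← hwα]; exact hT.degα.norm_one_s (hu1 ki) (hu1 km))
  obtain ⟨ωr, e2, h2⟩ := exists_omega (K := K) (W := V0') hmpos hζ
    (by rw [← hwα]; exact hT.degα.norm_one_r (hu1 k0))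
  obtain ⟨ωs', e3, h3⟩ := exists_omega (K := K) (W := V0') hmpos hζ
    (by rw [← hwβ]; exact hT.degβ.norm_one_s (hu1 k0) (hu1 km))
  obtain ⟨ωr', e4, h4⟩ := exists_omega (K := K) (W := Vi') hmpos hζ
    (by rw [← hwβ]; exact hT.degβ.norm_one_r (hu1 ki))
  obtain ⟨a₀, a₁, b₀, b₁, ea, eb, ha, hb, hab⟩ :=
    alg_const hϖ.prime hq.one_lt.le hmpos e1 e2 e3 e4
  obtain ⟨g, hgi, hgm, hg0'⟩ := hWA a₀ 1 b₀ (IsUnit.of_mul_eq_one _ ha) isUnit_one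
    (IsUnit.of_mul_eq_one _ hb)
  have hgm1 : One1 (V km) (g ^ m) := one1_pow_of_sub (hRV km) hgm (one_pow m)
  have hg0 : g ≠ 0 := by
    intro h
    rw [h, zero_pow hm0] at hgm1
    exact hgm1.ne_zero rfl
  have hgall : ∀ j, One1 (V j) (g ^ m) := by
    intro j
    rcases hall j with h | h | h <;> rw [h]
    · exact one1_pow_of_sub (hRV ki) hgi ea
    · exact hgm1
    · exact one1_pow_of_sub (hRV k0) hg0' eb
  set u₃ : F := u ^ (q ^ 2 - 1) / g ^ m with hu₃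
  have hu3 : ∀ j, One1 (V j) u₃ := fun j => ((hu1 j).pow _).div (hgall j)
  -- local data
  have L : ∀ n : Ideal (CInt R K x), IsClosedPt ϖ n → LocDataV ϖ V n m (u₃ ^ q) := fun n hn =>
    have := hn.max.isPrime
    (hT.locData1 hϖ hq.ne_zero hall hm0 hmR hu1 hwα hwβ h1 h2 h3 h4 ha hb hab hg0 hgi hgm hg0' hu3
      hn (hK n hn)).pow hϖ hq hqϖ hRV hram
  have L' : ∀ n : Ideal (CInt R K x⁻¹), IsClosedPt ϖ n → LocDataV ϖ V n m (u₃ ^ q) := fun n hn =>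
    have := hn.max.isPrime
    (hT'.locData1 hϖ hq.ne_zero hall hm0 hmR hu1 hwα hwβ h1 h2 h3 h4 ha hb hab hg0 hgi hgm hg0' hu3
      hn (hK' n hn)).pow hϖ hq hqϖ hRV hram
  have hζK : IsPrimitiveRoot (algebraMap R K ζ) (p ^ k) :=
    hζ.map_of_injective (IsFractionRing.injective R K)
  have hg𝕃 : algebraMap F 𝕃 g ≠ 0 := (_root_.map_ne_zero _).mpr hg0
  have hy4 : ((y ^ (q ^ 2 - 1) / algebraMap F 𝕃 g) ^ q) ^ (p ^ k) = algebraMap F 𝕃 (u₃ ^ q) := by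
    rw [hu₃, map_pow, map_div₀, map_pow, map_pow, ← hy, ← pow_mul, ← pow_mul, div_pow, div_pow,
      ← pow_mul, ← pow_mul, ← pow_mul, ← hm]
    congr 2 <;> ring
  obtain ⟨w, hw, -⟩ := t1V hϖ hT.vert hp hpR h𝕃 k _ hζK (u₃ ^ q)
    (fun j => One1.oneP_pow hϖ hq hqϖ (hRV j) (hram j) (hu3 j)) _ hy4 L L'
  refine ⟨w * g ^ q, ?_⟩
  rw [mul_pow, hw, hu₃, div_pow, ← pow_mul, ← pow_mul, ← pow_mul, mul_comm m q,
    div_mul_cancel₀ _ (pow_ne_zero _ hg0)]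

end Fermat.Agent.S36.Tor
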