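import Fermat.Agent.S36.Tor.Defs

set_option autoImplicit false
set_option linter.unusedSectionVars false

/-!
# S36 / Tor / Basic : small API (points below, transport of `InLoc` / `InMax`, `ValAt`)   (task TOR-Basic)

All proofs are a few lines (unfold `InLoc`, `InMax`, `below`, `Ideal.mem_comap`, `coe_restrC`; `ss_algHom_rE` : `γ (rE r) = rE r`).
 * `inMax_of_map`: `d z = c ∈ C'`, `d ∉ n'`; `γ c = γ d * γ z` is `InMax n` (`InMax.mul_left`), so `restrC c ∈ n` (`InMax.mem`), i.e. `c ∈ n'`.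
 * `dvd_of_inMax`: otherwise `r` is a unit of `R` (DVR: `S34.lf_dvd_of_not_isUnit` in S34/LF.lean, or reprove), `rE r * rE r⁻¹ = 1` would be `InMax`: `not_inMax_one`.
 * `ValAt.isUnit`: `δ` is a `LocUnit`, `δ - rE r` is `InMax`; if `ϖ ∣ r` then `rE r` is `InMax`, so `δ` is `InMax`, `1 = δ δ⁻¹` too.
 * `ValAt.pow_div`: representative `δ^Q * rE c'`.   `h^Q / g - δ^Q c' = (h^Q - δ^Q)/g + δ^Q c' (c - g)/g`  (`c c' = 1`; `g` is a unit of `W` because `g ≡ c`, `rE c` a unit of `W`).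
   Value: `δ^Q c' - r^Q c' = c' (δ^Q - r^Q)`, `δ - r ∣ δ^Q - r^Q` in `O_n` (`sub_dvd_pow_sub_pow`, or induction as in `ss_pow_sub_pow_mem`).
-/

noncomputable section

namespace Fermat.Agent.S36.Tor

open Polynomial IntermediateField Fermat.Agent.S18 Fermat.Agent.S34 Fermat.Agent.S36.LG
open Fermat.Agent.S36.Norm (One1 Near)

variable {R K F' F : Type} [CommRing R] [IsDomain R] [IsDiscreteValuationRing R] [Field K] [CharZero K]
  [Algebra R K] [IsFractionRing R K] [Field F'] [Algebra K F'] [Field F] [Algebra K F]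
  {ϖ : R} {κ : Type} [Finite κ] {V : κ → ValuationSubring F}
  {q : ℕ} {t' : F'} {t : F} {γ : F' →ₐ[K] F} {Nm : F →* F'} {Vs Vr : ValuationSubring F'} {a b c : κ}

theorem below_isPrime (h : ∀ y ∈ CInt R K t', γ y ∈ CInt R K t) (n : Ideal (CInt R K t))
    [n.IsPrime] : (below γ h n).IsPrime := Ideal.comap_isPrime _ _

theorem mem_below (h : ∀ y ∈ CInt R K t', γ y ∈ CInt R K t) (n : Ideal (CInt R K t))
    (y : CInt R K t') : y ∈ below γ h n ↔ (⟨γ y, h y y.2⟩ : CInt R K t) ∈ n := Iff.rfl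

theorem inLoc_map (h : ∀ y ∈ CInt R K t', γ y ∈ CInt R K t) {n : Ideal (CInt R K t)} {z : F'}
    (hz : InLoc (below γ h n) z) : InLoc n (γ z) := by
  obtain ⟨d, hd, h1⟩ := hz
  refine ⟨restrC γ h d, hd, ?_⟩
  rw [coe_restrC, ← map_mul]
  exact h _ h1

theorem inMax_map (h : ∀ y ∈ CInt R K t', γ y ∈ CInt R K t) {n : Ideal (CInt R K t)} {z : F'}
    (hz : InMax (below γ h n) z) : InMax n (γ z) := by
  obtain ⟨d, hd, w, hw, e⟩ := hz
  exact ⟨restrC γ h d, hd, restrC γ h w, hw, by rw [coe_restrC, coe_restrC, ← map_mul, e]⟩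

theorem locUnit_map (h : ∀ y ∈ CInt R K t', γ y ∈ CInt R K t) {n : Ideal (CInt R K t)} {z : F'}
    (hz : LocUnit (below γ h n) z) : LocUnit n (γ z) :=
  ⟨(_root_.map_ne_zero γ).2 hz.1, inLoc_map h hz.2.1, by
    rw [← map_inv₀]; exact inLoc_map h hz.2.2⟩

theorem inMax_of_map (h : ∀ y ∈ CInt R K t', γ y ∈ CInt R K t) {n : Ideal (CInt R K t)}
    [n.IsPrime] {z : F'} (hz : InLoc (below γ h n) z) (hz' : InMax n (γ z)) :
    InMax (below γ h n) z := by
  obtain ⟨d, hd, h1⟩ := hz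
  refine ⟨d, hd, ⟨_, h1⟩, ?_, rfl⟩
  have h2 : InMax n ((restrC γ h ⟨_, h1⟩ : CInt R K t) : F) := by
    rw [coe_restrC, map_mul]
    exact InMax.mul_left (InLoc.of_mem n (h d d.2)) hz'
  exact h2.mem

theorem comap_nonunits_iff {W : ValuationSubring F} {W' : ValuationSubring F'}
    (hW : ∀ y : F', γ y ∈ W ↔ y ∈ W') (y : F') : γ y ∈ W.nonunits ↔ y ∈ W'.nonunits := by
  rw [ss_mem_nonunits_iff, ss_mem_nonunits_iff, ← map_inv₀, hW, map_eq_zero]

theorem centered_below (h : ∀ y ∈ CInt R K t', γ y ∈ CInt R K t) {n : Ideal (CInt R K t)}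
    {W : ValuationSubring F} {W' : ValuationSubring F'} (hW : ∀ y : F', γ y ∈ W ↔ y ∈ W')
    (hc : Centered W n) : Centered W' (below γ h n) := by
  intro c hcW
  exact hc (restrC γ h c) ((comap_nonunits_iff hW _).2 hcW)

theorem tb_dvd_of_not_isUnit (hϖ : Irreducible ϖ) {r : R} (hr : ¬ IsUnit r) : ϖ ∣ r := by
  have h1 := (IsDiscreteValuationRing.irreducible_iff_uniformizer ϖ).mp hϖ
  have h2 : r ∈ IsLocalRing.maximalIdeal R := (IsLocalRing.mem_maximalIdeal r).mpr hr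
  rw [h1] at h2
  exact Ideal.mem_span_singleton.mp h2

theorem dvd_of_inMax (hϖ : Irreducible ϖ) {n : Ideal (CInt R K t)} (hn : IsClosedPt ϖ n) {r : R}
    (h : InMax n (rE R K F r)) : ϖ ∣ r := by
  have := hn.max.isPrime
  apply tb_dvd_of_not_isUnit hϖ
  intro hu
  obtain ⟨r', hr'⟩ := hu.exists_left_inv
  have h1 : InMax n (rE R K F r' * rE R K F r) := InMax.mul_left (InLoc.rE r') h
  rw [← map_mul, hr', map_one] at h1
  exact not_inMax_one h1

theorem inMax_of_dvd {n : Ideal (CInt R K t)} (hn : IsClosedPt ϖ n) {r : R} (h : ϖ ∣ r) :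
    InMax n (rE R K F r) := by
  have := hn.max.isPrime
  obtain ⟨s, rfl⟩ := h
  rw [map_mul]
  exact InMax.mul_right hn.inMax_unif (InLoc.rE s)

theorem locUnit_rE {n : Ideal (CInt R K t)} [n.IsPrime] {r : R} (h : IsUnit r) :
    LocUnit n (rE R K F r) := by
  obtain ⟨r', hr'⟩ := h.exists_left_inv
  have h1 : rE R K F r' * rE R K F r = 1 := by rw [← map_mul, hr', map_one]
  have h0 : rE R K F r ≠ 0 := right_ne_zero_of_mul_eq_one h1
  refine ⟨h0, InLoc.rE r, ?_⟩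
  have h2 : (rE R K F r)⁻¹ = rE R K F r' := (eq_inv_of_mul_eq_one_left h1).symm
  rw [h2]
  exact InLoc.rE r'

theorem LocUnit.mul' {n : Ideal (CInt R K t)} [n.IsPrime] {y z : F} (hy : LocUnit n y)
    (hz : LocUnit n z) : LocUnit n (y * z) :=
  ⟨mul_ne_zero hy.1 hz.1, hy.2.1.mul hz.2.1, by rw [mul_inv]; exact hy.2.2.mul hz.2.2⟩

theorem LocUnit.inv' {n : Ideal (CInt R K t)} {z : F} (hz : LocUnit n z) : LocUnit n z⁻¹ :=
  ⟨inv_ne_zero hz.1, hz.2.2, by rw [inv_inv]; exact hz.2.1⟩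

theorem LocUnit.pow' {n : Ideal (CInt R K t)} [n.IsPrime] {z : F} (hz : LocUnit n z) (j : ℕ) :
    LocUnit n (z ^ j) :=
  ⟨pow_ne_zero _ hz.1, hz.2.1.pow j, by rw [← inv_pow]; exact hz.2.2.pow j⟩

theorem LocUnit.not_inMax {n : Ideal (CInt R K t)} [n.IsPrime] {z : F} (hz : LocUnit n z) :
    ¬ InMax n z := by
  intro h
  have h1 := InMax.mul_left hz.2.2 h
  rw [inv_mul_cancel₀ hz.1] at h1
  exact not_inMax_one h1

theorem ValAt.congr {n : Ideal (CInt R K t)} (hn : IsClosedPt ϖ n) {W : ValuationSubring F} {h : F}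
    {r r' : R} (hr : ϖ ∣ r - r') (hv : ValAt n W h r) : ValAt n W h r' := by
  have := hn.max.isPrime
  obtain ⟨δ, hδ, hW, hmax⟩ := hv
  refine ⟨δ, hδ, hW, ?_⟩
  have e : δ - rE R K F r' = (δ - rE R K F r) + rE R K F (r - r') := by
    rw [map_sub]; ring
  rw [e]
  exact hmax.add (inMax_of_dvd hn hr)

theorem ValAt.isUnit (hϖ : Irreducible ϖ) {n : Ideal (CInt R K t)} (hn : IsClosedPt ϖ n)
    {W : ValuationSubring F} {h : F} {r : R} (hv : ValAt n W h r) : IsUnit r := by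
  have := hn.max.isPrime
  obtain ⟨δ, hδ, -, hmax⟩ := hv
  by_contra hu
  have h1 : InMax n (rE R K F r) := inMax_of_dvd hn (tb_dvd_of_not_isUnit hϖ hu)
  have h2 : InMax n δ := by
    have := hmax.add h1
    rwa [sub_add_cancel] at this
  exact LocUnit.not_inMax hδ h2

theorem tb_pow_sub_pow_inMax {n : Ideal (CInt R K t)} [n.IsPrime] {a b : F} (ha : InLoc n a)
    (hb : InLoc n b) (h : InMax n (a - b)) (k : ℕ) : InMax n (a ^ k - b ^ k) := by
  induction k with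
  | zero =>
    rw [pow_zero, pow_zero, sub_self]
    exact ⟨1, loc_one_notMem n, 0, n.zero_mem, by simp⟩
  | succ k ih =>
    have e : a ^ (k + 1) - b ^ (k + 1) = a ^ k * (a - b) + (a ^ k - b ^ k) * b := by ring
    rw [e]
    exact (InMax.mul_left (ha.pow k) h).add (ih.mul_right hb)

theorem ValAt.pow_div {n : Ideal (CInt R K t)} (hn : IsClosedPt ϖ n) {W : ValuationSubring F}
    (hCW : ∀ y ∈ CInt R K t, y ∈ W) (hc : Centered W n) {h g : F} {r c₀ c₁ : R}
    (hv : ValAt n W h r) (hc₀ : c₀ * c₁ = 1) (hg : g - rE R K F c₀ ∈ W.nonunits) (Q : ℕ) :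
    ValAt n W (h ^ Q / g) (r ^ Q * c₁) := by
  have := hn.max.isPrime
  obtain ⟨δ, hδ, hhδ, hmax⟩ := hv
  have hc₁u : IsUnit c₁ := IsUnit.of_mul_eq_one c₀ (by rw [mul_comm]; exact hc₀)
  have hE : rE R K F c₀ * rE R K F c₁ = 1 := by rw [← map_mul, hc₀, map_one]
  have hδW : δ ∈ W := hc.mem_of_inLoc hCW hδ.2.1
  have hhW : h ∈ W := by
    have := add_mem (mem_of_mem_nonunits W hhδ) hδW
    rwa [sub_add_cancel] at this
  have h0W : rE R K F c₀ ∈ W := hCW _ (rE_mem_CInt t c₀)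
  have h1W : rE R K F c₁ ∈ W := hCW _ (rE_mem_CInt t c₁)
  have h0n : rE R K F c₀ ∉ W.nonunits := by
    intro hmem
    have := mul_mem_nonunits' W hmem h1W
    rw [hE] at this
    exact one_notMem_nonunits W this
  have hgn : g ∉ W.nonunits := by
    refine ss_notMem_of_sub W h0n ?_
    have := neg_mem_nonunits W hg
    rwa [neg_sub] at this
  rw [ss_mem_nonunits_iff, not_or, not_not] at hgn
  obtain ⟨hg0, hgi⟩ := hgn
  refine ⟨δ ^ Q * rE R K F c₁, LocUnit.mul' (LocUnit.pow' hδ Q) (locUnit_rE hc₁u), ?_, ?_⟩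
  · have e : h ^ Q / g - δ ^ Q * rE R K F c₁
        = (h ^ Q - δ ^ Q) * g⁻¹ + δ ^ Q * rE R K F c₁ * g⁻¹ * -(g - rE R K F c₀) := by
      field_simp
      linear_combination (-δ ^ Q) * hE
    rw [e]
    refine add_mem_nonunits W (mul_mem_nonunits' W (ss_pow_sub_pow_mem W hhW hδW hhδ Q) hgi) ?_
    exact mul_mem_nonunits W (mul_mem (mul_mem (pow_mem hδW Q) h1W) hgi) (neg_mem_nonunits W hg)
  · have e : δ ^ Q * rE R K F c₁ - rE R K F (r ^ Q * c₁)
        = rE R K F c₁ * (δ ^ Q - rE R K F r ^ Q) := by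
      rw [map_mul, map_pow]; ring
    rw [e]
    exact InMax.mul_left (InLoc.rE c₁) (tb_pow_sub_pow_inMax hδ.2.1 (InLoc.rE r) hmax Q)

end Fermat.Agent.S36.Tor
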