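import Fermat.Agent.S36.LG.Sat
import Fermat.Agent.S36.Norm.Basic
import Fermat.Agent.S34.SS.Basic

set_option autoImplicit false

/-!
# S36 / Tor : the abstract TORIC theorem (blueprint steps (6) cocycle + (7) connectedness) -- definitions

`R` a DVR with uniformiser `ϖ`, `K = Frac R` (char. 0), `F / K` the function field of the upper level, `x : F`, charts `t = x, x⁻¹`,
`V : κ → ValuationSubring F` the components of the special fibre (`LG.VertFam ϖ t V`, any multiplicities).
`F' / K` the lower level, `γ : F' →ₐ[K] F` a degeneracy map with "norm" `Nm : F →* F'`.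

* `OneP K ϖ W z`        : `z ≡ 1 mod ϖ W`      (precision `ϖ`, NOT only mod `𝔪_W`);
* `LocData1 V n m u`    : `u = (element of O_n) * h ^ m`, `h ≡ 1 mod 𝔪` on all components through `n`;
* `LocDataV ϖ V n m u`  : the same with `h ≡ 1 mod ϖ`;
* `ValAt n W h r`       : "the reduction of `h` on the component `W` is regular at `n` with value `r mod ϖ`";
* `RepAt W n`           : `O_n / (O_n ∩ 𝔪_W)` is integrally closed in the residue field of `W` (for pure equations);
* `DegMap ..`           : a degeneracy map of degree `q`: above `Vs` the components `Va` (`e = f = 1`), `Vb` (`e = q - 1`, `f = 1`), above `Vr` the component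
                          `Vc` (`e = 1`, `f = q` radicial).
-/

noncomputable section

namespace Fermat.Agent.S36.Tor

open Polynomial IntermediateField Fermat.Agent.S18 Fermat.Agent.S34 Fermat.Agent.S36.LG
open Fermat.Agent.S36.Norm (One1 Near)

section
variable {R F : Type} [CommRing R] [Field F]

/-- `z ≡ 1` modulo `ϖ W`. -/
def OneP (K : Type) [Field K] [Algebra R K] [Algebra K F] (ϖ : R) (W : ValuationSubring F) (z : F) :
    Prop := (rE R K F ϖ)⁻¹ * (z - 1) ∈ W

variable {K : Type} [Field K] [Algebra R K] [Algebra K F]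

/-- local hypothesis, precision `𝔪`. -/
def LocData1 {κ : Type} (V : κ → ValuationSubring F) {t : F} (n : Ideal (CInt R K t)) (m : ℕ)
    (u : F) : Prop :=
  ∃ h : F, h ≠ 0 ∧ InLoc n (u / h ^ m) ∧ ∀ k, Centered (V k) n → One1 (V k) h

/-- local hypothesis of the gluing theorem, precision `ϖ`. -/
def LocDataV (ϖ : R) {κ : Type} (V : κ → ValuationSubring F) {t : F} (n : Ideal (CInt R K t)) (m : ℕ)
    (u : F) : Prop :=
  ∃ h : F, h ≠ 0 ∧ InLoc n (u / h ^ m) ∧ ∀ k, Centered (V k) n → OneP K ϖ (V k) h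

/-- `h` is congruent on the component `W` to a unit `δ` of `O_n` with value `r` at `n`. -/
def ValAt {t : F} (n : Ideal (CInt R K t)) (W : ValuationSubring F) (h : F) (r : R) : Prop :=
  ∃ δ : F, LocUnit n δ ∧ h - δ ∈ W.nonunits ∧ InMax n (δ - rE R K F r)

/-- normality of the component `W` at `n`. -/
def RepAt (W : ValuationSubring F) {t : F} (n : Ideal (CInt R K t)) : Prop :=
  ∀ (m : ℕ) (z a : F), m ≠ 0 → z ∈ W → InLoc n a → z ^ m - a ∈ W.nonunits →
    ∃ δ : F, InLoc n δ ∧ z - δ ∈ W.nonunits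

variable {F' : Type} [Field F'] [Algebra K F']

/-- the restriction of `γ` to the charts. -/
def restrC (γ : F' →ₐ[K] F) {t' : F'} {t : F} (h : ∀ y ∈ CInt R K t', γ y ∈ CInt R K t) :
    CInt R K t' →+* CInt R K t :=
  RingHom.restrict (γ : F' →+* F) (CInt R K t') (CInt R K t) h

@[simp] theorem coe_restrC (γ : F' →ₐ[K] F) {t' : F'} {t : F}
    (h : ∀ y ∈ CInt R K t', γ y ∈ CInt R K t) (y : CInt R K t') : (restrC γ h y : F) = γ y := rfl

/-- the image of the point `n` at the lower level. -/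
def below (γ : F' →ₐ[K] F) {t' : F'} {t : F} (h : ∀ y ∈ CInt R K t', γ y ∈ CInt R K t)
    (n : Ideal (CInt R K t)) : Ideal (CInt R K t') := n.comap (restrC γ h)

/-- a degeneracy map of degree `q`, in one pair of charts `(t', t)`. -/
structure DegMap (R : Type) [CommRing R] [Algebra R K] (q : ℕ) (t' : F') (t : F) (γ : F' →ₐ[K] F)
    (Nm : F →* F') (Vs Vr : ValuationSubring F') (Va Vb Vc : ValuationSubring F) : Prop where
  mapC : ∀ y ∈ CInt R K t', γ y ∈ CInt R K t
  normC : ∀ c ∈ CInt R K t, Nm c ∈ CInt R K t'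
  norm_map : ∀ y : F', Nm (γ y) = y ^ q
  integral : ∀ c ∈ CInt R K t, ∃ P : F'[X], P.Monic ∧ (∀ i, P.coeff i ∈ CInt R K t') ∧
    (P.map (γ : F' →+* F)).eval c = 0
  comap_a : ∀ y : F', γ y ∈ Va ↔ y ∈ Vs
  comap_b : ∀ y : F', γ y ∈ Vb ↔ y ∈ Vs
  comap_c : ∀ y : F', γ y ∈ Vc ↔ y ∈ Vr
  nt_a : ∀ c ∈ CInt R K t, ∃ y ∈ CInt R K t', c - γ y ∈ Va.nonunits
  nt_b : ∀ c ∈ CInt R K t, ∃ y ∈ CInt R K t', c - γ y ∈ Vb.nonunits
  nt_c : ∀ c ∈ CInt R K t, ∃ y ∈ CInt R K t', c ^ q - γ y ∈ Vc.nonunits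
  norm_split : ∀ (u : F) (ya yb : F'), Near Va u (γ ya) → Near Vb u (γ yb) →
    Near Vs (Nm u) (ya * yb ^ (q - 1))
  norm_rad : ∀ u : F, u ≠ 0 → Near Vc (u ^ q) (γ (Nm u))

end

end Fermat.Agent.S36.Tor
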