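import Fermat.Agent.S36.Tor.GlueLoc
import Fermat.Agent.S34.GlueE

set_option autoImplicit false
set_option linter.unusedSectionVars false

/-!
# S36 / Tor / GlueE : the gluing lemma for a family of components   (task TOR-GlueE)

ADAPTATION of Fermat/Agent/S34/GlueE.lean (`exists_cong_chart`, `idem_sq_cong`, `glue_prime`): copy the proofs, prefix private lemmas with `tge_`.
 `Branches` → `LG.VertFam`; `hui hu0 : u - 1 ∈ 𝔪` → `hu : ∀ k, OneP K ϖ (V k) u`;  "`(u - 1)/ϖ` is `InO`" is now `(hV.inO_iff _).2 hu` (no `div_mem`).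
 The chart `x⁻¹`: `hV.inv hϖ : VertFam ϖ x⁻¹ V`.  `S18.glue`, `CongA_inv_iff`, `S34.transcendental_map`, `S34.finiteDimensional_tower` as in S34.
-/

noncomputable section

namespace Fermat.Agent.S36.Tor

open Polynomial IntermediateField Fermat.Agent.S18 Fermat.Agent.S34 Fermat.Agent.S36.LG
open Fermat.Agent.S36.Norm (One1 Near)

variable {R K F E : Type} [CommRing R] [IsDomain R] [IsDiscreteValuationRing R] [Field K] [CharZero K]
  [Algebra R K] [IsFractionRing R K] [Field F] [Algebra K F] [Field E] [Algebra K E] [Algebra F E]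
  [IsScalarTower K F E]
  {ϖ : R} {κ : Type} [Finite κ] {V : κ → ValuationSubring F}

theorem tge_mem (hϖ : Irreducible ϖ) {t : F} (hV : VertFam (K := K) ϖ t V) {u : F}
    (hu : ∀ k, OneP K ϖ (V k) u) (k : κ) : u ∈ V k := by
  have hπ : rE R K F ϖ ≠ 0 := rE_unif_ne_zero hϖ
  have h1 : u = 1 + rE R K F ϖ * ((rE R K F ϖ)⁻¹ * (u - 1)) := by
    rw [← mul_assoc, mul_inv_cancel₀ hπ, one_mul]; ring
  rw [h1]
  exact add_mem (one_mem _) (mul_mem (hV.unif_mem k) (hu k))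

theorem tge_root_inO (hϖ : Irreducible ϖ) {t : F} (hV : VertFam (K := K) ϖ t V) {p : ℕ}
    (hp : p.Prime) {u : F} (hu : ∀ k, OneP K ϖ (V k) u)
    {y : E} (hy : y ^ p = algebraMap F E u) :
    InO K ϖ (algebraMap F E t) y := by
  refine InO_of_pow hϖ hp.ne_zero ?_
  rw [hy]
  exact map_InO ((hV.inO_iff u).2 (tge_mem hϖ hV hu))

theorem tge_idem_inO (hϖ : Irreducible ϖ) {t : F} (hV : VertFam (K := K) ϖ t V) {p : ℕ}
    (hp : p.Prime) (hpR : IsUnit (p : R)) {u : F} (hu : ∀ k, OneP K ϖ (V k) u)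
    {y : E} (hy : y ^ p = algebraMap F E u) :
    InO K ϖ (algebraMap F E t) (idem p y) := by
  obtain ⟨rp, hrp⟩ := hpR.exists_left_inv
  rw [glueE_idem_eq (K := K) hrp]
  exact (InO.of_mem_CInt hϖ (rE_mem_CInt _ rp)).mul hϖ
    (glueE_sum_inO hϖ (tge_root_inO hϖ hV hp hu hy) p)

theorem exists_cong_chartV (hϖ : Irreducible ϖ) {t : F} (hV : VertFam (K := K) ϖ t V) {p : ℕ}
    (hp : p.Prime) (hpR : IsUnit (p : R)) {u : F} (hu : ∀ k, OneP K ϖ (V k) u)
    {y : E} (hy : y ^ p = algebraMap F E u)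
    (hloc : ∀ n : Ideal (CInt R K t), IsClosedPt ϖ n → LocDataV ϖ V n p u) :
    ∃ y₁ ∈ CInt R K (algebraMap F E t), CongA K ϖ (algebraMap F E t) y₁ (idem p y) := by
  have heO := tge_idem_inO (E := E) hϖ hV hp hpR hu hy
  let I : Ideal (CInt R K t) :=
    { carrier := {d | ∃ y₁ ∈ CInt R K (algebraMap F E t),
        CongA K ϖ (algebraMap F E t) y₁ (algebraMap F E d * idem p y)}
      add_mem' := by
        rintro d d' ⟨y₁, h1, c1⟩ ⟨y₂, h2, c2⟩
        refine ⟨y₁ + y₂, add_mem h1 h2, ?_⟩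
        have := c1.add hϖ c2
        rwa [← add_mul, ← map_add] at this
      zero_mem' := ⟨0, zero_mem _, by
        have : algebraMap F E ((0 : CInt R K t) : F) * idem p y = 0 := by simp
        rw [this]
        exact CongA.refl hϖ _ _⟩
      smul_mem' := by
        rintro c d ⟨y₁, h1, c1⟩
        refine ⟨algebraMap F E c * y₁, mul_mem (map_mem_CInt c.2) h1, ?_⟩
        have := c1.mul_left hϖ (InO.of_mem_CInt (K := K) hϖ (map_mem_CInt (E := E) c.2))
        rwa [← mul_assoc, ← map_mul] at this }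
  have hI : I = ⊤ := by
    by_contra hne
    obtain ⟨n, hn, hIn⟩ := Ideal.exists_le_maximal I hne
    have hπ : unifC t ϖ ∈ I := by
      refine ⟨0, zero_mem _, -idem p y, heO.neg, ?_⟩
      rw [unifC, map_rE]
      ring
    obtain ⟨d, hdn, hd⟩ := exists_mem_localV (E := E) hϖ hV hp hpR hu hy ⟨hn, hIn hπ⟩
      (hloc n ⟨hn, hIn hπ⟩)
    exact hdn (hIn hd)
  obtain ⟨y₁, h1, c1⟩ : (1 : CInt R K t) ∈ I := hI ▸ Submodule.mem_top
  refine ⟨y₁, h1, ?_⟩
  have e : algebraMap F E ((1 : CInt R K t) : F) * idem p y = idem p y := by simp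
  rwa [e] at c1

theorem idem_sq_congV (hϖ : Irreducible ϖ) {x : F} (hV : VertFam (K := K) ϖ x V) {p : ℕ}
    (hp : p.Prime) (hpR : IsUnit (p : R)) {u : F} (hu : ∀ k, OneP K ϖ (V k) u)
    {y : E} (hy : y ^ p = algebraMap F E u) :
    CongA K ϖ (algebraMap F E x) (idem p y ^ 2) (idem p y) := by
  obtain ⟨rp, hrp⟩ := hpR.exists_left_inv
  have hyO := tge_root_inO (E := E) hϖ hV hp hu hy
  have hc : rE R K E rp * (p : E) = 1 := by
    have := congrArg (rE R K E) hrp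
    rwa [map_mul, map_natCast, map_one] at this
  have hπ : rE R K F ϖ ≠ 0 := fun h0 => hϖ.ne_zero (rE_injective (h0.trans (map_zero _).symm))
  -- `u - 1 = ϖ μ`
  have hμ : InO K ϖ x ((rE R K F ϖ)⁻¹ * (u - 1)) := (hV.inO_iff _).2 hu
  have hu1 : algebraMap F E (u - 1) = rE R K E ϖ * algebraMap F E ((rE R K F ϖ)⁻¹ * (u - 1)) := by
    rw [← map_rE (F := F) (E := E) ϖ, ← map_mul, ← mul_assoc, mul_inv_cancel₀ hπ, one_mul]
  set S : E := ∑ i ∈ Finset.range p, y ^ i with hS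
  have hS1 : S * (y - 1) = algebraMap F E (u - 1) := by
    rw [hS, geom_sum_mul, hy, map_sub, map_one]
  have hi : ∀ i : ℕ, y ^ i * S = S + (∑ j ∈ Finset.range i, y ^ j) * algebraMap F E (u - 1) := by
    intro i
    have h1 := geom_sum_mul y i
    rw [← hS1]
    linear_combination (-S) * h1
  have hSS : S * S = (p : E) * S +
      (∑ i ∈ Finset.range p, ∑ j ∈ Finset.range i, y ^ j) * algebraMap F E (u - 1) := by
    conv_lhs => rw [hS, Finset.sum_mul]
    rw [Finset.sum_congr rfl fun i _ => hi i, Finset.sum_add_distrib, Finset.sum_const,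
      Finset.card_range, nsmul_eq_mul, Finset.sum_mul]
  refine ⟨rE R K E rp ^ 2 * (∑ i ∈ Finset.range p, ∑ j ∈ Finset.range i, y ^ j) *
    algebraMap F E ((rE R K F ϖ)⁻¹ * (u - 1)), ?_, ?_⟩
  · refine (((InO.of_mem_CInt hϖ (rE_mem_CInt _ rp)).pow hϖ 2).mul hϖ ?_).mul hϖ (map_InO hμ)
    rw [← mem_ORing hϖ]
    exact sum_mem fun i _ => (mem_ORing hϖ).2 (glueE_sum_inO hϖ hyO i)
  · rw [glueE_idem_eq (K := K) hrp, ← hS]
    linear_combination (rE R K E rp) ^ 2 * hSS + (rE R K E rp * S) * hc +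
      (rE R K E rp ^ 2 * ∑ i ∈ Finset.range p, ∑ j ∈ Finset.range i, y ^ j) * hu1

/-- **the gluing lemma**. -/
theorem glue_primeV [FiniteDimensional F E] (hϖ : Irreducible ϖ) {x : F}
    (hV : VertFam (K := K) ϖ x V)
    (hE : ∀ z : E, IsAlgebraic K z → z ∈ (algebraMap K E).range)
    {p : ℕ} (hp : p.Prime) (hpR : IsUnit (p : R)) {u : F} (hu : ∀ k, OneP K ϖ (V k) u)
    {y : E} (hy : y ^ p = algebraMap F E u)
    (hfin : ∀ n : Ideal (CInt R K x), IsClosedPt ϖ n → LocDataV ϖ V n p u)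
    (hinf : ∀ n : Ideal (CInt R K x⁻¹), IsClosedPt ϖ n → LocDataV ϖ V n p u) :
    ∃ r : R, CongA K ϖ (algebraMap F E x) (rE R K E r) (idem p y) := by
  obtain ⟨y₁, hy₁, c₁⟩ := exists_cong_chartV (E := E) hϖ hV hp hpR hu hy hfin
  obtain ⟨y₂, hy₂, c₂⟩ := exists_cong_chartV (E := E) hϖ (hV.inv hϖ) hp hpR hu hy hinf
  have hx0 : algebraMap F E x ≠ 0 := by
    intro h
    exact transcendental_map (E := E) hV.trans (h ▸ isAlgebraic_zero)
  rw [map_inv₀] at hy₂ c₂
  exact glue hϖ (transcendental_map hV.trans) (finiteDimensional_tower hV.fin) hE _ y₁ y₂ hy₁ hy₂ c₁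
    ((CongA_inv_iff hϖ hx0).1 c₂) (idem_sq_congV hϖ hV hp hpR hu hy)

end Fermat.Agent.S36.Tor
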