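import Fermat.Agent.S36.Tor.Defs
import Fermat.Agent.S34.GlueLoc

set_option autoImplicit false
set_option linter.unusedSectionVars false

/-!
# S36 / Tor / GlueLoc : the gluing lemma, local part, for a family of components   (task TOR-GlueLoc)

ADAPTATION of `S34.exists_mem_local` (file Fermat/Agent/S34/GlueLoc.lean: copy its proof and its private lemmas with a new prefix `tgl_`).
Differences: `Branches ϖ x Vi V0` + `ht` is replaced by `LG.VertFam ϖ t V` (finite family, any multiplicities, API in S36/LG/Sat.lean: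
`VertFam.mem_of_mem_CInt`, `VertFam.inO_iff`, `VertFam.exists_pow`, `VertFam.exists_centered`), and all congruences `≡ 1` are given with precision `ϖ` (`OneP`), so that
`Branches.div_mem_*` (`𝔪_V = ϖ V`) is never needed.

SKETCH (as in S34).  `LocDataV` gives `h`, and `b ∉ n` with `b * (u / h^p) ∈ C`.   `u` is a unit of every `V k` (`u - 1 = ϖ * (..) ∈ 𝔪`).
 `b / h ∈ V k` for ALL `k`: `(b/h)^p = b^(p-1) * (b u / h^p) * u⁻¹ ∈ V k`, valuation rings are integrally closed (`S18.mem_of_pow_mem`).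
 For every `k` NOT centred at `n` choose `c_k ∈ C`, `c_k ∈ 𝔪_{V k}`, `c_k ∉ n`, and `N_k` with `ϖ⁻¹ c_k^(N_k) ∈ V k` (`hV.ram k`);  `d₂ := ∏_{k not centred} c_k^(N_k) ∉ n`
 (`Fintype.ofFinite κ`, `Finset.prod` over `univ.filter`, `Ideal.IsPrime.prod_mem_iff` / induction), `ϖ⁻¹ d₂ ∈ V k` for every non-centred `k` (the other factors are in `C ⊆ V k`).
 `d := d₂ * b^p ∉ n`;  `y₁ := d₂ * (1/p) * ∑_{i<p} b^(p-i) * (b y / h)^i ∈ CInt R K tE`  (`(b y / h)^p = b^(p-1) * (b u / h^p)`, `S34.mem_CInt_of_pow`).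
 `d * e - y₁ = ∑_i c_i y^i`, `c_i := (1/p) d₂ (b^p - b^(p-i) (b/h)^i) = (1/p) d₂ b^p (1 - h^(-i))`.  `ϖ⁻¹ c_i ∈ V k` for all `k`:
 centred: `OneP` for `h` ⟹ `OneP` for `h⁻¹`, `h^(-i)` (`h` unit of `V k`; `1 - a b = (1 - a) + a (1 - b)`);  non-centred: `ϖ⁻¹ d₂ ∈ V k` and `b^p - b^(p-i) (b/h)^i ∈ V k`.
 So `ϖ⁻¹ c_i` is `InO` (`hV.inO_iff`), `η := ∑ (ϖ⁻¹ c_i) y^i` is `InO` in `E` (`S34.map_InO`, `y` is `InO` by `S34.InO_of_pow`).
-/

noncomputable section

namespace Fermat.Agent.S36.Tor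

open Polynomial IntermediateField Fermat.Agent.S18 Fermat.Agent.S34 Fermat.Agent.S36.LG
open Fermat.Agent.S36.Norm (One1 Near)

variable {R K F E : Type} [CommRing R] [IsDomain R] [IsDiscreteValuationRing R] [Field K] [CharZero K]
  [Algebra R K] [IsFractionRing R K] [Field F] [Algebra K F] [Field E] [Algebra K E] [Algebra F E]
  [IsScalarTower K F E]
  {ϖ : R} {κ : Type} [Finite κ] {V : κ → ValuationSubring F}

theorem OneP.sub_one_mem {W : ValuationSubring F} (hW : rE R K F ϖ ∈ W.nonunits)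
    (hϖ : Irreducible ϖ) {z : F} (h : OneP K ϖ W z) : One1 W z := by
  have hπ : rE R K F ϖ ≠ 0 := rE_unif_ne_zero hϖ
  have e : z - 1 = rE R K F ϖ * ((rE R K F ϖ)⁻¹ * (z - 1)) := by
    rw [← mul_assoc, mul_inv_cancel₀ hπ, one_mul]
  unfold One1
  rw [e]
  exact mul_mem_nonunits' W hW h

theorem tgl_inv {W : ValuationSubring F} (hW : rE R K F ϖ ∈ W.nonunits)
    (hϖ : Irreducible ϖ) {z : F} (h : OneP K ϖ W z) : OneP K ϖ W z⁻¹ := by
  obtain ⟨h0, -, h3, -⟩ := glueLoc_unit (h.sub_one_mem hW hϖ)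
  have e : (rE R K F ϖ)⁻¹ * (z⁻¹ - 1) = z⁻¹ * (-((rE R K F ϖ)⁻¹ * (z - 1))) := by
    field_simp
    ring
  unfold OneP
  rw [e]
  exact mul_mem h3 (neg_mem h)

theorem tgl_pow {W : ValuationSubring F} (hW : rE R K F ϖ ∈ W.nonunits)
    (hϖ : Irreducible ϖ) {z : F} (h : OneP K ϖ W z) (i : ℕ) : OneP K ϖ W (z ^ i) := by
  have hz := (glueLoc_unit (h.sub_one_mem hW hϖ)).2.1
  unfold OneP at h ⊢
  induction i with
  | zero => rw [pow_zero, sub_self, mul_zero]; exact zero_mem W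
  | succ i ih =>
    have e : (rE R K F ϖ)⁻¹ * (z ^ (i + 1) - 1) =
        z ^ i * ((rE R K F ϖ)⁻¹ * (z - 1)) + (rE R K F ϖ)⁻¹ * (z ^ i - 1) := by ring
    rw [e]
    exact add_mem (mul_mem (pow_mem hz i) h) ih

theorem tgl_coeff_mem {W : ValuationSubring F} (hW : rE R K F ϖ ∈ W.nonunits)
    (hϖ : Irreducible ϖ) {b h d₂ c : F} {p i : ℕ} (hi : i ≤ p)
    (hb : b ∈ W) (hbh : b / h ∈ W) (hd₂ : d₂ ∈ W) (hc : c ∈ W)
    (hcase : OneP K ϖ W h ∨ (rE R K F ϖ)⁻¹ * d₂ ∈ W) :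
    (rE R K F ϖ)⁻¹ * (c * d₂ * (b ^ p - b ^ (p - i) * (b / h) ^ i)) ∈ W := by
  rcases hcase with h1 | h1
  · have h2 : (rE R K F ϖ)⁻¹ * ((h⁻¹) ^ i - 1) ∈ W := tgl_pow hW hϖ (tgl_inv hW hϖ h1) i
    have e : (rE R K F ϖ)⁻¹ * (c * d₂ * (b ^ p - b ^ (p - i) * (b / h) ^ i)) =
        c * d₂ * (b ^ p * (-((rE R K F ϖ)⁻¹ * ((h⁻¹) ^ i - 1)))) := by
      obtain ⟨j, rfl⟩ := Nat.exists_eq_add_of_le hi
      rw [Nat.add_sub_cancel_left, div_eq_mul_inv, mul_pow, pow_add]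
      ring
    rw [e]
    exact mul_mem (mul_mem hc hd₂) (mul_mem (pow_mem hb p) (neg_mem h2))
  · have e : (rE R K F ϖ)⁻¹ * (c * d₂ * (b ^ p - b ^ (p - i) * (b / h) ^ i)) =
        c * ((rE R K F ϖ)⁻¹ * d₂) * (b ^ p - b ^ (p - i) * (b / h) ^ i) := by ring
    rw [e]
    exact mul_mem (mul_mem hc h1)
      (sub_mem (pow_mem hb p) (mul_mem (pow_mem hb _) (pow_mem hbh i)))

/-- a function not vanishing at `n` and divisible by `ϖ` on the component `V k` if it does not pass through `n`. -/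
theorem tgl_exists_sep {t : F} (hV : VertFam (K := K) ϖ t V) (k : κ) (n : Ideal (CInt R K t))
    [hn : n.IsPrime] :
    ∃ d : CInt R K t, d ∉ n ∧ (Centered (V k) n ∨ (rE R K F ϖ)⁻¹ * (d : F) ∈ V k) := by
  by_cases hc : Centered (V k) n
  · exact ⟨1, fun h => hn.ne_top ((Ideal.eq_top_iff_one n).2 h), Or.inl hc⟩
  · unfold Centered at hc
    push Not at hc
    obtain ⟨c, hc1, hc2⟩ := hc
    obtain ⟨e, -, he⟩ := hV.ram k
    refine ⟨c ^ e, fun h => hc2 (hn.mem_of_pow_mem e h), Or.inr ?_⟩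
    rw [Subring.coe_pow]
    exact he _ hc1

theorem exists_mem_localV (hϖ : Irreducible ϖ) {t : F} (hV : VertFam (K := K) ϖ t V) {p : ℕ}
    (hp : p.Prime) (hpR : IsUnit (p : R)) {u : F} (hu : ∀ k, OneP K ϖ (V k) u)
    {y : E} (hy : y ^ p = algebraMap F E u) {n : Ideal (CInt R K t)} (hn : IsClosedPt ϖ n)
    (hloc : LocDataV ϖ V n p u) :
    ∃ d : CInt R K t, d ∉ n ∧ ∃ y₁ ∈ CInt R K (algebraMap F E t),
      CongA K ϖ (algebraMap F E t) y₁ (algebraMap F E d * idem p y) := by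
  classical
  have := Fintype.ofFinite κ
  have hnp : n.IsPrime := hn.max.isPrime
  obtain ⟨h, hh0, ⟨b, hbn, hbu⟩, hh⟩ := hloc
  have hsep := fun k => tgl_exists_sep hV k n
  choose dk hdkn hdk using hsep
  obtain ⟨rp, hrp⟩ := hpR.exists_left_inv
  have hCV : ∀ z ∈ CInt R K t, ∀ k, z ∈ V k := fun z hz k => hV.mem_of_mem_CInt hϖ hz k
  have hu1 : ∀ k, u - 1 ∈ (V k).nonunits := fun k => (hu k).sub_one_mem (hV.mem k) hϖ
  -- the constants
  set c : F := rE R K F rp with hc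
  have hcC : c ∈ CInt R K t := rE_mem_CInt t rp
  have hcp : c * (p : F) = 1 := by
    have := congrArg (rE R K F) hrp
    rwa [map_mul, map_natCast, map_one] at this
  set D : CInt R K t := ∏ k, dk k with hD
  set d₂ : F := (D : F) with hd₂
  have hd₂C : d₂ ∈ CInt R K t := D.2
  have hDn : D ∉ n := by
    intro hmem
    obtain ⟨k, -, hk⟩ := (hnp.prod_mem_iff).1 hmem
    exact hdkn k hk
  -- `b / h` lies in all the valuation rings
  have hbh : ∀ k, (b : F) / h ∈ V k := by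
    intro k
    obtain ⟨hu0', -, hu2, -⟩ := glueLoc_unit (hu1 k)
    refine mem_of_pow_mem (V k) hp.ne_zero ?_
    have e : ((b : F) / h) ^ p = (b : F) ^ (p - 1) * ((b : F) * (u / h ^ p)) * u⁻¹ := by
      obtain ⟨p', rfl⟩ : ∃ p', p = p' + 1 := ⟨p - 1, (Nat.succ_pred_eq_of_pos hp.pos).symm⟩
      rw [Nat.add_sub_cancel, div_pow]
      field_simp
      ring
    rw [e]
    exact mul_mem (mul_mem (pow_mem (hCV _ b.2 k) _) (hCV _ hbu k)) hu2
  have hcase : ∀ k, OneP K ϖ (V k) h ∨ (rE R K F ϖ)⁻¹ * d₂ ∈ V k := by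
    intro k
    refine (hdk k).imp (hh k) fun h' => ?_
    have e : (rE R K F ϖ)⁻¹ * d₂ = (rE R K F ϖ)⁻¹ * (dk k : F) *
        ((∏ x ∈ Finset.univ.erase k, dk x : CInt R K t) : F) := by
      rw [hd₂, hD, ← Finset.mul_prod_erase Finset.univ dk (Finset.mem_univ k), Subring.coe_mul,
        mul_assoc]
    rw [e]
    exact mul_mem h' (hCV _ (∏ x ∈ Finset.univ.erase k, dk x : CInt R K t).2 k)
  -- the coefficients
  set cf : ℕ → F := fun i => c * d₂ * ((b : F) ^ p - (b : F) ^ (p - i) * ((b : F) / h) ^ i) with hcf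
  have hcfO : ∀ i ∈ Finset.range p, InO K ϖ t ((rE R K F ϖ)⁻¹ * cf i) := by
    intro i hi
    have hi' : i ≤ p := (Finset.mem_range.1 hi).le
    rw [hV.inO_iff]
    intro k
    exact tgl_coeff_mem (hV.mem k) hϖ hi' (hCV _ b.2 k) (hbh k) (hCV _ hd₂C k) (hCV _ hcC k)
      (hcase k)
  -- `y` is integral at the Gauss valuations
  have hyO : InO K ϖ (algebraMap F E t) y := by
    refine InO_of_pow hϖ hp.ne_zero ?_
    rw [hy]
    exact map_InO ((hV.inO_iff u).2 fun k => (glueLoc_unit (hu1 k)).2.1)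
  -- `w = b y / h` is integral
  set a : F →+* E := algebraMap F E with ha
  set w : E := a b * y / a h with hw
  have hah : a h ≠ 0 := by rw [Ne, map_eq_zero]; exact hh0
  have hwC : w ∈ CInt R K (a t) := by
    refine mem_CInt_of_pow hp.ne_zero ?_
    have e : w ^ p = a ((b : F) ^ (p - 1) * ((b : F) * (u / h ^ p))) := by
      obtain ⟨p', rfl⟩ : ∃ p', p = p' + 1 := ⟨p - 1, (Nat.succ_pred_eq_of_pos hp.pos).symm⟩
      rw [Nat.add_sub_cancel, hw, div_pow, mul_pow, hy, map_mul, map_mul, map_div₀, map_pow, map_pow]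
      field_simp
      ring
    rw [e]
    exact map_mem_CInt (mul_mem (pow_mem b.2 _) hbu)
  refine ⟨D * b ^ p, fun hmem => ?_, a c * a d₂ * ∑ i ∈ Finset.range p, a b ^ (p - i) * w ^ i,
    ?_, -∑ i ∈ Finset.range p, a ((rE R K F ϖ)⁻¹ * cf i) * y ^ i, ?_, ?_⟩
  · rcases hnp.mem_or_mem hmem with h1 | h1
    · exact hDn h1
    · exact hbn (hnp.mem_of_pow_mem _ h1)
  · exact mul_mem (mul_mem (map_mem_CInt hcC) (map_mem_CInt hd₂C))
      (sum_mem fun i _ => mul_mem (pow_mem (map_mem_CInt b.2) _) (pow_mem hwC i))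
  · refine InO.neg ?_
    rw [← mem_ORing hϖ]
    exact sum_mem fun i hi => mul_mem ((mem_ORing hϖ).2 (map_InO (hcfO i hi)))
      ((mem_ORing hϖ).2 (hyO.pow hϖ i))
  · have hπ : rE R K F ϖ ≠ 0 := fun h0 => hϖ.ne_zero (rE_injective (h0.trans (map_zero _).symm))
    have hpE : (p : E) ≠ 0 := by
      have : a (c * (p : F)) = 1 := by rw [hcp, map_one]
      rw [map_mul, map_natCast] at this
      exact right_ne_zero_of_mul_eq_one this
    have hcE : a c = 1 / (p : E) := by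
      have : a (c * (p : F)) = 1 := by rw [hcp, map_one]
      rw [map_mul, map_natCast] at this
      field_simp
      exact this
    rw [mul_neg, Finset.mul_sum, idem, Finset.sum_div, Finset.mul_sum, Finset.mul_sum,
      ← Finset.sum_sub_distrib, ← Finset.sum_neg_distrib]
    refine Finset.sum_congr rfl fun i _ => ?_
    have key : rE R K E ϖ * (a ((rE R K F ϖ)⁻¹ * cf i) * y ^ i) = a (cf i) * y ^ i := by
      rw [← map_rE (F := F) (E := E) ϖ, ← mul_assoc, ← ha, ← map_mul, ← mul_assoc,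
        mul_inv_cancel₀ hπ, one_mul]
    rw [key, hcf]
    simp only [map_mul, map_sub, map_pow, map_div₀, Subring.coe_mul, Subring.coe_pow]
    rw [hcE, hw]
    field_simp
    ring

end Fermat.Agent.S36.Tor
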