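import Fermat.Agent.S36.Tor.Basic

set_option autoImplicit false
set_option linter.unusedSectionVars false

/-!
# S36 / Tor / LocalNT : a local unit is congruent on a component of residue degree one to a local unit of the lower level   (task TOR-LocalNT)

SKETCH.  `δ = c₁ / d`, `d ∉ n`, `c₁ = d δ ∈ C`.  `hnt`: `c₁ - γ y₁ ∈ 𝔪_W`, `d - γ y_d ∈ 𝔪_W`, `y₁, y_d ∈ C'`.  `y_d ∉ n'` (`γ y_d = d - (d - γ y_d)`, `hc`).  `δ' := y₁ / y_d`: `InLoc n'`.
 `δ - γ δ' = ((c₁ - γ y₁) γ y_d - (d - γ y_d) γ y₁) / (d γ y_d) ∈ 𝔪_W`  (`d`, `γ y_d` are units of `W`: elements of `C \ n`, `hc`, `inv_mem_of_notMem_nonunits`).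
 `δ'` is a `LocUnit n'` (`LocUnit.of_not_inMax`): if `InMax n' δ'` then `InMax n (γ δ')` (`inMax_map`), and `δ - γ δ' ∈ O_n ∩ 𝔪_W` is `InMax n` (`Centered.inMax`, `inLoc_map`), so `δ` is `InMax`: contradiction.
 Value: `γ δ' - rE r = (γ δ' - δ) + (δ - rE r)` is `InMax n`.
-/

noncomputable section

namespace Fermat.Agent.S36.Tor

open Polynomial IntermediateField Fermat.Agent.S18 Fermat.Agent.S34 Fermat.Agent.S36.LG
open Fermat.Agent.S36.Norm (One1 Near)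

variable {R K F' F : Type} [CommRing R] [IsDomain R] [IsDiscreteValuationRing R] [Field K] [CharZero K]
  [Algebra R K] [IsFractionRing R K] [Field F'] [Algebra K F'] [Field F] [Algebra K F]
  {ϖ : R} {κ : Type} [Finite κ] {V : κ → ValuationSubring F}
  {q : ℕ} {t' : F'} {t : F} {γ : F' →ₐ[K] F} {Nm : F →* F'} {Vs Vr : ValuationSubring F'} {a b c : κ}

theorem exists_below_rep (h : ∀ y ∈ CInt R K t', γ y ∈ CInt R K t) {n : Ideal (CInt R K t)}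
    [n.IsPrime] {W : ValuationSubring F} (hCW : ∀ y ∈ CInt R K t, y ∈ W) (hc : Centered W n)
    (hnt : ∀ c ∈ CInt R K t, ∃ y ∈ CInt R K t', c - γ y ∈ W.nonunits) {δ : F} (hδ : LocUnit n δ) :
    ∃ δ' : F', LocUnit (below γ h n) δ' ∧ δ - γ δ' ∈ W.nonunits := by
  haveI := below_isPrime h n
  obtain ⟨hδ0, ⟨d, hd, hc₁⟩, hδinv⟩ := hδ
  obtain ⟨y₁, hy₁, e₁⟩ := hnt _ hc₁
  obtain ⟨yd, hyd, e₂⟩ := hnt _ d.2
  have hydn : (⟨yd, hyd⟩ : CInt R K t') ∉ below γ h n := by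
    intro hmem
    rw [mem_below] at hmem
    apply hd
    have h1 : d - ⟨γ yd, h yd hyd⟩ ∈ n := hc _ e₂
    have := n.add_mem h1 hmem
    rwa [sub_add_cancel] at this
  have hdW : (d : F) ∉ W.nonunits := fun hh => hd (hc d hh)
  have hγyd : γ yd ∉ W.nonunits := fun hh =>
    hydn ((mem_below h n _).2 (hc ⟨γ yd, h yd hyd⟩ hh))
  have hd0 : (d : F) ≠ 0 := ss_coe_ne_zero hd
  have hyd0 : yd ≠ 0 := ss_coe_ne_zero hydn
  have hγyd0 : γ yd ≠ 0 := (map_ne_zero γ).2 hyd0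
  have hδ'loc : InLoc (below γ h n) (y₁ / yd) := ⟨⟨yd, hyd⟩, hydn, by
    show yd * (y₁ / yd) ∈ _
    rw [mul_div_cancel₀ _ hyd0]
    exact hy₁⟩
  have hdiff : δ - γ (y₁ / yd) ∈ W.nonunits := by
    have e : δ - γ (y₁ / yd) = (((d : F) * δ - γ y₁) * γ yd - ((d : F) - γ yd) * γ y₁) *
        ((d : F)⁻¹ * (γ yd)⁻¹) := by
      rw [map_div₀]
      field_simp
      ring
    rw [e]
    exact mul_mem_nonunits' W (sub_mem_nonunits W (mul_mem_nonunits' W e₁ (hCW _ (h yd hyd)))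
      (mul_mem_nonunits' W e₂ (hCW _ (h y₁ hy₁))))
      (mul_mem (inv_mem_of_notMem_nonunits W (hCW _ d.2) hdW)
        (inv_mem_of_notMem_nonunits W (hCW _ (h yd hyd)) hγyd))
  refine ⟨y₁ / yd, LocUnit.of_not_inMax hδ'loc ?_, hdiff⟩
  intro hmax
  have h1 : InMax n (γ (y₁ / yd)) := inMax_map h hmax
  have h2 : InMax n (δ - γ (y₁ / yd)) :=
    hc.inMax hCW (InLoc.sub ⟨d, hd, hc₁⟩ (inLoc_map h hδ'loc)) hdiff
  have h3 : InMax n δ := by
    have := h2.add h1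
    rwa [sub_add_cancel] at this
  exact LocUnit.not_inMax ⟨hδ0, ⟨d, hd, hc₁⟩, hδinv⟩ h3

/-- the same for `ValAt`. -/
theorem ValAt.exists_below (h : ∀ y ∈ CInt R K t', γ y ∈ CInt R K t) {n : Ideal (CInt R K t)}
    [n.IsPrime] {W : ValuationSubring F} (hCW : ∀ y ∈ CInt R K t, y ∈ W) (hc : Centered W n)
    (hnt : ∀ c ∈ CInt R K t, ∃ y ∈ CInt R K t', c - γ y ∈ W.nonunits) {z : F} {r : R}
    (hv : ValAt n W z r) :
    ∃ δ' : F', LocUnit (below γ h n) δ' ∧ Near W z (γ δ') ∧ InMax n (γ δ' - rE R K F r) := by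
  obtain ⟨δ, hδ, hzδ, hδr⟩ := hv
  obtain ⟨δ', hδ', hdiff⟩ := exists_below_rep h hCW hc hnt hδ
  have hu : LocUnit n (γ δ') := locUnit_map h hδ'
  refine ⟨δ', hδ', ⟨hu.1, ?_⟩, ?_⟩
  · show z / γ δ' - 1 ∈ W.nonunits
    have e : z / γ δ' - 1 = ((z - δ) + (δ - γ δ')) * (γ δ')⁻¹ := by
      have := hu.1
      field_simp
      ring
    rw [e]
    exact mul_mem_nonunits' W (add_mem_nonunits W hzδ hdiff) (hc.mem_of_inLoc hCW hu.2.2)
  · have h2 : InMax n (δ - γ δ') := hc.inMax hCW (hδ.2.1.sub hu.2.1) hdiff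
    have e : γ δ' - rE R K F r = (δ - rE R K F r) - (δ - γ δ') := by ring
    rw [e]
    exact hδr.sub h2

end Fermat.Agent.S36.Tor
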