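import Fermat.Agent.S36.Tor.UP

set_option autoImplicit false
set_option linter.unusedSectionVars false

/-!
# S36 / Tor / NormUnit : norms of local units; the unit `e = w / Nm h`   (task TOR-NormUnit)

SKETCH.  `n' := below γ hD.mapC n` (prime: `below_isPrime`).
 * `inLoc_norm`: `DegMap.exists_mul_mem`: `d' ∉ n'`, `γ d' * z ∈ C`.  `Nm (γ d' * z) = d'^q * Nm z ∈ C'` (`map_mul`, `hD.norm_map`, `hD.normC`), `d'^q ∉ n'`.
 * `locUnit_norm`: `Nm ε * Nm ε⁻¹ = Nm 1 = 1`, so `Nm ε ≠ 0`, `(Nm ε)⁻¹ = Nm ε⁻¹`.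
 * `locUnit_quot`: `Nm h ≠ 0` (same trick).  `e := w / Nm h`, `e^m = Nm u / Nm (h^m) = Nm ε`; `InLoc.of_pow` for `e` and for `e⁻¹`; `e ≠ 0` since `e^m = Nm ε ≠ 0`.
-/

noncomputable section

namespace Fermat.Agent.S36.Tor

open Polynomial IntermediateField Fermat.Agent.S18 Fermat.Agent.S34 Fermat.Agent.S36.LG
open Fermat.Agent.S36.Norm (One1 Near)

variable {R K F' F : Type} [CommRing R] [IsDomain R] [IsDiscreteValuationRing R] [Field K] [CharZero K]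
  [Algebra R K] [IsFractionRing R K] [Field F'] [Algebra K F'] [Field F] [Algebra K F]
  {ϖ : R} {κ : Type} [Finite κ] {V : κ → ValuationSubring F}
  {q : ℕ} {t' : F'} {t : F} {γ : F' →ₐ[K] F} {Nm : F →* F'} {Vs Vr : ValuationSubring F'} {a b c : κ}

theorem DegMap.inLoc_norm (hϖ : Irreducible ϖ) (hq : q ≠ 0) (hV : VertFam (K := K) ϖ t V)
    (hall : ∀ k, k = a ∨ k = b ∨ k = c) (hD : DegMap R q t' t γ Nm Vs Vr (V a) (V b) (V c))
    {n : Ideal (CInt R K t)} (hn : IsClosedPt ϖ n) (hcen : ∀ k, Centered (V k) n)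
    {z : F} (hz : InLoc n z) : InLoc (below γ hD.mapC n) (Nm z) := by
  haveI := hn.max.isPrime
  haveI := below_isPrime hD.mapC n
  obtain ⟨d', hd', h1⟩ := hD.exists_mul_mem hϖ hq hV hall hn hcen hz
  refine ⟨d' ^ q, fun h => hd' (Ideal.IsPrime.mem_of_pow_mem inferInstance q h), ?_⟩
  have h2 := hD.normC _ h1
  rw [map_mul, hD.norm_map] at h2
  exact h2

theorem DegMap.locUnit_norm (hϖ : Irreducible ϖ) (hq : q ≠ 0) (hV : VertFam (K := K) ϖ t V)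
    (hall : ∀ k, k = a ∨ k = b ∨ k = c) (hD : DegMap R q t' t γ Nm Vs Vr (V a) (V b) (V c))
    {n : Ideal (CInt R K t)} (hn : IsClosedPt ϖ n) (hcen : ∀ k, Centered (V k) n)
    {ε : F} (hε : LocUnit n ε) : LocUnit (below γ hD.mapC n) (Nm ε) := by
  have h1 : Nm ε * Nm ε⁻¹ = 1 := by rw [← map_mul, mul_inv_cancel₀ hε.1, map_one]
  have h0 : Nm ε ≠ 0 := left_ne_zero_of_mul_eq_one h1
  refine ⟨h0, hD.inLoc_norm hϖ hq hV hall hn hcen hε.2.1, ?_⟩
  rw [inv_eq_of_mul_eq_one_right h1]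
  exact hD.inLoc_norm hϖ hq hV hall hn hcen hε.2.2

theorem DegMap.locUnit_quot (hϖ : Irreducible ϖ) (hq : q ≠ 0) (hV : VertFam (K := K) ϖ t V)
    (hall : ∀ k, k = a ∨ k = b ∨ k = c) (hD : DegMap R q t' t γ Nm Vs Vr (V a) (V b) (V c))
    {n : Ideal (CInt R K t)} (hn : IsClosedPt ϖ n) (hcen : ∀ k, Centered (V k) n)
    {m : ℕ} (hm : m ≠ 0) {u ε h : F} (hε : LocUnit n ε) (hh : h ≠ 0) (hu : u = ε * h ^ m)
    {w : F'} (hw : Nm u = w ^ m) :
    Nm h ≠ 0 ∧ LocUnit (below γ hD.mapC n) (w / Nm h) := by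
  haveI := hn.max.isPrime
  haveI := below_isPrime hD.mapC n
  have hN : Nm h * Nm h⁻¹ = 1 := by rw [← map_mul, mul_inv_cancel₀ hh, map_one]
  have hNh : Nm h ≠ 0 := left_ne_zero_of_mul_eq_one hN
  refine ⟨hNh, ?_⟩
  have hεN := hD.locUnit_norm hϖ hq hV hall hn hcen hε
  have e : (w / Nm h) ^ m = Nm ε := by
    rw [div_pow, ← hw, hu, map_mul, map_pow, mul_div_assoc, div_self (pow_ne_zero _ hNh), mul_one]
  have h0 : w / Nm h ≠ 0 := fun h0 => hεN.1 (by rw [← e, h0, zero_pow hm])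
  exact ⟨h0, InLoc.of_pow hm (by rw [e]; exact hεN.2.1),
    InLoc.of_pow hm (by rw [inv_pow, e]; exact hεN.2.2)⟩

end Fermat.Agent.S36.Tor
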