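import Fermat.Agent.S36.Tor.NormUnit
import Fermat.Agent.S36.Tor.LocalNT

set_option autoImplicit false
set_option linter.unusedSectionVars false

/-!
# S36 / Tor / Rel : the norm relation between the values at a point of `Σ`   (tasks TOR-RelSplit, TOR-RelRad, TOR-Rel)

`n` a closed point on all components, `n' = below γ _ n`, `e ∈ O'_{n'}ˣ`, `e * Nm h = w`, `w ≡ ω_s` on `Vs`, `w ≡ ω_r` on `Vr`; `h` has values `r_a, r_b, r_c` on the three components.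

SKETCH of `rel_split`.  `ValAt.exists_below` (with `hD.nt_a`, `hD.nt_b`): `δ'_a, δ'_b`, `Near (V a) h (γ δ'_a)`, `Near (V b) h (γ δ'_b)`.  `hD.norm_split`: `Near Vs (Nm h) P`, `P := δ'_a δ'_b^(q-1)`.
 `e P - w = w (P / Nm h - 1) ∈ 𝔪_{Vs}` (`Near.symm`; `w ∈ Vs`: `w = (w - rE ω_s) + rE ω_s`, `rE ω_s ∈ Vs` because `γ (rE ω_s) = rE ω_s ∈ C ⊆ V a` and `hD.comap_a`).  So `e P - rE ω_s ∈ 𝔪_{Vs} ∩ O'_{n'}`,
 hence `InMax n'` (`Centered.inMax` at the lower level with `centered_below hD.mapC hD.comap_a (hcen a)`; `C' ⊆ Vs` by `hD.mapC`, `hD.comap_a`), hence `InMax n (γ e * γ P - rE ω_s)` (`inMax_map`, `ss_algHom_rE`).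
 `γ P - rE (r_a r_b^(q-1))` is `InMax n` (products/powers of congruences mod `InMax` between elements of `O_n`).  `γ e ∈ O_n` (`inLoc_map`).  Add up.
SKETCH of `rel_rad`.  `hD.norm_rad h`: `Near (V c) (h^q) (γ (Nm h))`.  `γ e * h^q - γ w = γ w (h^q / γ (Nm h) - 1) ∈ 𝔪_c` (`γ w ∈ V c`), `γ w - rE ω_r ∈ 𝔪_c` (`comap_nonunits_iff hD.comap_c`),
 `h^q - δ_c^q ∈ 𝔪_c` (`ss_pow_sub_pow_mem`), `γ e ∈ O_n ⊆ V c`.  So `γ e * δ_c^q - rE ω_r ∈ 𝔪_c ∩ O_n`: `InMax n`.  `δ_c^q - rE (r_c^q)` is `InMax n`.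
SKETCH of `rel`.  `e := w / Nm h` (`DegMap.locUnit_quot`).  `rE (ω_s r_c^q - ω_r r_a r_b^(q-1)) = rE(r_a r_b^(q-1)) * (γ e rE(r_c^q) - rE ω_r) - rE(r_c^q) * (γ e rE(r_a r_b^(q-1)) - rE ω_s)` is `InMax n`; `dvd_of_inMax`.
-/

noncomputable section

namespace Fermat.Agent.S36.Tor

open Polynomial IntermediateField Fermat.Agent.S18 Fermat.Agent.S34 Fermat.Agent.S36.LG
open Fermat.Agent.S36.Norm (One1 Near)

variable {R K F' F : Type} [CommRing R] [IsDomain R] [IsDiscreteValuationRing R] [Field K] [CharZero K]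
  [Algebra R K] [IsFractionRing R K] [Field F'] [Algebra K F'] [Field F] [Algebra K F]
  {ϖ : R} {κ : Type} [Finite κ] {V : κ → ValuationSubring F}
  {q : ℕ} {t' : F'} {t : F} {γ : F' →ₐ[K] F} {Nm : F →* F'} {Vs Vr : ValuationSubring F'} {a b c : κ}

theorem rel_inMax_pow {n : Ideal (CInt R K t)} [n.IsPrime] {y s : F} (hy : InLoc n y)
    (hs : InLoc n s) (h : InMax n (y - s)) (k : ℕ) : InMax n (y ^ k - s ^ k) := by
  induction k with
  | zero =>
    rw [pow_zero, pow_zero, sub_self]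
    have := InMax.mul_left (InLoc.of_mem n (CInt R K t).zero_mem) h
    rwa [zero_mul] at this
  | succ k ih =>
    have e : y ^ (k + 1) - s ^ (k + 1) = y * (y ^ k - s ^ k) + s ^ k * (y - s) := by ring
    rw [e]
    exact (InMax.mul_left hy ih).add (InMax.mul_left (hs.pow k) h)

theorem DegMap.rel_split (hϖ : Irreducible ϖ) (hV : VertFam (K := K) ϖ t V)
    (hD : DegMap R q t' t γ Nm Vs Vr (V a) (V b) (V c))
    {n : Ideal (CInt R K t)} (hn : IsClosedPt ϖ n) (hcen : ∀ k, Centered (V k) n)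
    {h : F} {w e : F'} (hNh : Nm h ≠ 0) (he : LocUnit (below γ hD.mapC n) e) (hew : e * Nm h = w)
    {ωs : R} (hws : w - rE R K F' ωs ∈ Vs.nonunits) {ra rb : R}
    (ha : ValAt n (V a) h ra) (hb : ValAt n (V b) h rb) :
    InMax n (γ e * rE R K F (ra * rb ^ (q - 1)) - rE R K F ωs) := by
  haveI := hn.max.isPrime
  haveI := below_isPrime (γ := γ) hD.mapC n
  have hCV : ∀ k, ∀ y ∈ CInt R K t, y ∈ V k := fun k y hy => hV.mem_of_mem_CInt hϖ hy k
  have hC'Vs : ∀ y ∈ CInt R K t', y ∈ Vs := fun y hy => (hD.comap_a y).1 (hCV a _ (hD.mapC y hy))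
  obtain ⟨δa, hδa, hna, hma⟩ := ha.exists_below hD.mapC (hCV a) (hcen a) hD.nt_a
  obtain ⟨δb, hδb, hnb, hmb⟩ := hb.exists_below hD.mapC (hCV b) (hcen b) hD.nt_b
  have hN := (hD.norm_split h δa δb hna hnb).symm
  have hwV : w ∈ Vs := by
    have := Vs.add_mem _ _ (Norm.nu_mem hws) (hC'Vs _ (rE_mem_CInt t' ωs))
    rwa [sub_add_cancel] at this
  have h1 : e * (δa * δb ^ (q - 1)) - w ∈ Vs.nonunits := by
    have e1 : e * (δa * δb ^ (q - 1)) - w = w * (δa * δb ^ (q - 1) / Nm h - 1) := by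
      rw [← hew]; field_simp
    rw [e1]
    exact Norm.nu_mul_left hwV hN.2
  have h2 : e * (δa * δb ^ (q - 1)) - rE R K F' ωs ∈ Vs.nonunits := by
    have := Norm.nu_add h1 hws
    rwa [sub_add_sub_cancel] at this
  have h3 : InLoc (below γ hD.mapC n) (e * (δa * δb ^ (q - 1)) - rE R K F' ωs) :=
    (he.2.1.mul (hδa.2.1.mul (hδb.2.1.pow _))).sub (InLoc.rE _)
  have h4 : InMax (below γ hD.mapC n) (e * (δa * δb ^ (q - 1)) - rE R K F' ωs) :=
    Centered.inMax hC'Vs (centered_below hD.mapC hD.comap_a (hcen a)) h3 h2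
  have h5 := inMax_map hD.mapC h4
  rw [map_sub, map_mul, map_mul, map_pow, ss_algHom_rE] at h5
  have hγa : InLoc n (γ δa) := inLoc_map hD.mapC hδa.2.1
  have hγb : InLoc n (γ δb) := inLoc_map hD.mapC hδb.2.1
  have hγe : InLoc n (γ e) := inLoc_map hD.mapC he.2.1
  have h6 : InMax n (γ δa * γ δb ^ (q - 1) - rE R K F (ra * rb ^ (q - 1))) := by
    have e2 : γ δa * γ δb ^ (q - 1) - rE R K F (ra * rb ^ (q - 1)) =
        γ δb ^ (q - 1) * (γ δa - rE R K F ra) +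
          rE R K F ra * (γ δb ^ (q - 1) - rE R K F rb ^ (q - 1)) := by
      rw [map_mul, map_pow]; ring
    rw [e2]
    exact (InMax.mul_left (hγb.pow _) hma).add
      (InMax.mul_left (InLoc.rE _) (rel_inMax_pow hγb (InLoc.rE _) hmb _))
  have e3 : γ e * rE R K F (ra * rb ^ (q - 1)) - rE R K F ωs =
      (γ e * (γ δa * γ δb ^ (q - 1)) - rE R K F ωs) -
        γ e * (γ δa * γ δb ^ (q - 1) - rE R K F (ra * rb ^ (q - 1))) := by ring
  rw [e3]
  exact h5.sub (InMax.mul_left hγe h6)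

theorem DegMap.rel_rad (hϖ : Irreducible ϖ) (hV : VertFam (K := K) ϖ t V)
    (hD : DegMap R q t' t γ Nm Vs Vr (V a) (V b) (V c))
    {n : Ideal (CInt R K t)} (hn : IsClosedPt ϖ n) (hcen : ∀ k, Centered (V k) n)
    {h : F} (hh : h ≠ 0) {w e : F'} (hNh : Nm h ≠ 0) (he : LocUnit (below γ hD.mapC n) e)
    (hew : e * Nm h = w) {ωr : R} (hwr : w - rE R K F' ωr ∈ Vr.nonunits) {rc : R}
    (hc : ValAt n (V c) h rc) :
    InMax n (γ e * rE R K F (rc ^ q) - rE R K F ωr) := by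
  haveI := hn.max.isPrime
  haveI := below_isPrime (γ := γ) hD.mapC n
  have hCV : ∀ k, ∀ y ∈ CInt R K t, y ∈ V k := fun k y hy => hV.mem_of_mem_CInt hϖ hy k
  have hC'Vr : ∀ y ∈ CInt R K t', y ∈ Vr := fun y hy => (hD.comap_c y).1 (hCV c _ (hD.mapC y hy))
  obtain ⟨δ, hδ, hhδ, hδr⟩ := hc
  have hN := hD.norm_rad h hh
  have hwV : w ∈ Vr := by
    have := Vr.add_mem _ _ (Norm.nu_mem hwr) (hC'Vr _ (rE_mem_CInt t' ωr))
    rwa [sub_add_cancel] at this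
  have hγw : γ w ∈ V c := (hD.comap_c w).2 hwV
  have hγN : γ (Nm h) ≠ 0 := hN.1
  have h1 : γ e * h ^ q - γ w ∈ (V c).nonunits := by
    have e1 : γ e * h ^ q - γ w = γ w * (h ^ q / γ (Nm h) - 1) := by
      rw [← hew, map_mul]; field_simp
    rw [e1]
    exact Norm.nu_mul_left hγw hN.2
  have h2 : γ w - rE R K F ωr ∈ (V c).nonunits := by
    have := (comap_nonunits_iff hD.comap_c (w - rE R K F' ωr)).2 hwr
    rwa [map_sub, ss_algHom_rE] at this
  have hδV : δ ∈ V c := (hcen c).mem_of_inLoc (hCV c) hδ.2.1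
  have hhV : h ∈ V c := by
    have := (V c).add_mem _ _ (Norm.nu_mem hhδ) hδV
    rwa [sub_add_cancel] at this
  have h3 : h ^ q - δ ^ q ∈ (V c).nonunits := ss_pow_sub_pow_mem (V c) hhV hδV hhδ q
  have hγe : InLoc n (γ e) := inLoc_map hD.mapC he.2.1
  have hγeV : γ e ∈ V c := (hcen c).mem_of_inLoc (hCV c) hγe
  have h4 : γ e * δ ^ q - rE R K F ωr ∈ (V c).nonunits := by
    have e2 : γ e * δ ^ q - rE R K F ωr =
        ((γ e * h ^ q - γ w) + (γ w - rE R K F ωr)) - γ e * (h ^ q - δ ^ q) := by ring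
    rw [e2]
    exact Norm.nu_sub (Norm.nu_add h1 h2) (Norm.nu_mul_left hγeV h3)
  have h5 : InMax n (γ e * δ ^ q - rE R K F ωr) :=
    Centered.inMax (hCV c) (hcen c) ((hγe.mul (hδ.2.1.pow _)).sub (InLoc.rE _)) h4
  have e3 : γ e * rE R K F (rc ^ q) - rE R K F ωr =
      (γ e * δ ^ q - rE R K F ωr) - γ e * (δ ^ q - rE R K F rc ^ q) := by
    rw [map_pow]; ring
  rw [e3]
  exact h5.sub (InMax.mul_left hγe (rel_inMax_pow hδ.2.1 (InLoc.rE _) hδr _))

/-- **the norm relation**. -/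
theorem DegMap.rel (hϖ : Irreducible ϖ) (hq : q ≠ 0) (hV : VertFam (K := K) ϖ t V)
    (hall : ∀ k, k = a ∨ k = b ∨ k = c) (hD : DegMap R q t' t γ Nm Vs Vr (V a) (V b) (V c))
    {n : Ideal (CInt R K t)} (hn : IsClosedPt ϖ n) (hcen : ∀ k, Centered (V k) n)
    {m : ℕ} (hm : m ≠ 0) {u ε h : F} (hε : LocUnit n ε) (hh : h ≠ 0) (hu : u = ε * h ^ m)
    {w : F'} (hw : Nm u = w ^ m) {ωs ωr : R} (hws : w - rE R K F' ωs ∈ Vs.nonunits)
    (hwr : w - rE R K F' ωr ∈ Vr.nonunits) {ra rb rc : R}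
    (ha : ValAt n (V a) h ra) (hb : ValAt n (V b) h rb) (hc : ValAt n (V c) h rc) :
    ϖ ∣ ωs * rc ^ q - ωr * (ra * rb ^ (q - 1)) := by
  haveI := hn.max.isPrime
  obtain ⟨hNh, he⟩ := hD.locUnit_quot hϖ hq hV hall hn hcen hm hε hh hu hw
  have hew : w / Nm h * Nm h = w := div_mul_cancel₀ _ hNh
  have h1 := hD.rel_split hϖ hV hn hcen hNh he hew hws ha hb
  have h2 := hD.rel_rad hϖ hV hn hcen hh hNh he hew hwr hc
  apply dvd_of_inMax hϖ hn
  have e1 : rE R K F (ωs * rc ^ q - ωr * (ra * rb ^ (q - 1))) =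
      rE R K F (ra * rb ^ (q - 1)) * (γ (w / Nm h) * rE R K F (rc ^ q) - rE R K F ωr) -
      rE R K F (rc ^ q) * (γ (w / Nm h) * rE R K F (ra * rb ^ (q - 1)) - rE R K F ωs) := by
    rw [map_sub, map_mul, map_mul]
    ring
  rw [e1]
  exact (InMax.mul_left (InLoc.rE _) h2).sub (InMax.mul_left (InLoc.rE _) h1)

end Fermat.Agent.S36.Tor
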