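import Fermat.Agent.S36.Tor.Defs
import Fermat.Agent.S34.SS.NT

set_option autoImplicit false
set_option linter.unusedSectionVars false

/-!
# S36 / Tor / Rep : normality of a component at a closed point, from `S34.Side` + `S34.Chart1`   (task TOR-Rep)

SKETCH.  `z ∈ W`, `a = c / d` (`d ∉ n`, `c = d a ∈ C`), `z^m - a ∈ 𝔪_W`.  `hs.res`: `y ∈ V₁`, `z - ιa y ∈ 𝔪_W`.  `Side.exists_sub_mem`: `c - ιa y_c ∈ 𝔪_W`, `d - ιa y_d ∈ 𝔪_W`, `y_c, y_d ∈ C₁`.
 `ιa y_d ∈ C` is not in `n` (`d ∉ n`, `d - ιa y_d ∈ C ∩ 𝔪_W ⊆ n` by `hc`).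
 `(d z)^m - d^(m-1) c = d^m (z^m - a) ∈ 𝔪_W`; replacing `d, z, c` by `ιa y_d, ιa y, ιa y_c` (congruent mod `𝔪_W`, all in `W`; `ss_pow_sub_pow_mem`): `ιa ((y_d y)^m - y_d^(m-1) y_c) ∈ 𝔪_W`,
 so (`Side.comap_nonunits`) `(y_d y)^m - y_d^(m-1) y_c ∈ 𝔪₁`.  `Chart1.exists_of_monic` with `ε = y_d y`, `P = X^m - C (y_d^(m-1) y_c)` (monic: `monic_X_pow_sub_C`, `m ≠ 0`; coefficients in `C₁`):
 `y'' ∈ C₁`, `y_d y - y'' ∈ 𝔪₁`.   `δ := ιa y'' / ιa y_d` is `InLoc` (`InLoc.inv_of_notMem`), and `z - δ = (z - ιa y) + ιa (y_d y - y'') / ιa y_d ∈ 𝔪_W` (`ιa y_d` is a unit of `W`: not in `n`, `hc`).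
-/

noncomputable section

namespace Fermat.Agent.S36.Tor

open Polynomial IntermediateField Fermat.Agent.S18 Fermat.Agent.S34 Fermat.Agent.S36.LG

variable {R K F₁ F : Type} [CommRing R] [IsDomain R] [IsDiscreteValuationRing R] [Field K] [CharZero K]
  [Algebra R K] [IsFractionRing R K] [Field F₁] [Algebra K F₁] [Field F] [Algebra K F] {ϖ : R}

theorem repAt_of_side (hϖ : Irreducible ϖ) {q : ℕ} {t₁ : F₁} {V₁ : ValuationSubring F₁} {t : F}
    {W : ValuationSubring F} {ιa ιb : F₁ →ₐ[K] F} (h1 : Chart1 K ϖ t₁ V₁)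
    (hs : Side R q t₁ V₁ t W ιa ιb) {n : Ideal (CInt R K t)} [n.IsPrime] (hc : Centered W n) :
    RepAt W n := by
  intro m z a hm hz ⟨d, hd, hda⟩ hza
  obtain ⟨y, hy, hzy⟩ := hs.res z hz
  obtain ⟨yc, hyc, hcyc⟩ := hs.exists_sub_mem hϖ h1 hda
  obtain ⟨yd, hyd, hdyd⟩ := hs.exists_sub_mem hϖ h1 d.2
  obtain ⟨j, rfl⟩ : ∃ j, m = j + 1 := ⟨m - 1, by omega⟩
  set D : F := ιa yd with hD
  set Y : F := ιa y with hY
  set Cc : F := ιa yc with hCc
  have hDC : D ∈ CInt R K t := hs.mapC_a _ hyd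
  have hDn : (⟨D, hDC⟩ : CInt R K t) ∉ n := by
    intro h
    apply hd
    have h2 : d - ⟨D, hDC⟩ ∈ n := hc _ hdyd
    have h3 := n.add_mem h2 h
    rwa [sub_add_cancel] at h3
  have hDW : D ∈ W := hs.C_le _ hDC
  have hDu : D ∉ W.nonunits := fun h => hDn (hc ⟨D, hDC⟩ h)
  have hD0 : D ≠ 0 := fun h => hDu (by rw [h]; exact zero_mem_nonunits W)
  have hDinv : D⁻¹ ∈ W := inv_mem_of_notMem_nonunits W hDW hDu
  have hdW : (d : F) ∈ W := hs.C_le _ d.2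
  have hcW : (d : F) * a ∈ W := hs.C_le _ hda
  have hYW : Y ∈ W := (hs.comap y).2 hy
  have hCcW : Cc ∈ W := hs.C_le _ (hs.mapC_a _ hyc)
  -- the congruence in `W`
  have k1 : D * Y - (d : F) * z ∈ W.nonunits := by
    have e : D * Y - (d : F) * z = -(D * (z - Y)) + -(((d : F) - D) * z) := by ring
    rw [e]
    exact add_mem_nonunits W (neg_mem_nonunits W (mul_mem_nonunits W hDW hzy))
      (neg_mem_nonunits W (mul_mem_nonunits' W hdyd hz))
  have k2 : (D * Y) ^ (j + 1) - ((d : F) * z) ^ (j + 1) ∈ W.nonunits :=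
    ss_pow_sub_pow_mem W (mul_mem hDW hYW) (mul_mem hdW hz) k1 _
  have k3 : D ^ j - (d : F) ^ j ∈ W.nonunits := by
    have := ss_pow_sub_pow_mem W hdW hDW hdyd j
    have e : D ^ j - (d : F) ^ j = -((d : F) ^ j - D ^ j) := by ring
    rw [e]
    exact neg_mem_nonunits W this
  have k4 : D ^ j * Cc - (d : F) ^ j * ((d : F) * a) ∈ W.nonunits := by
    have e : D ^ j * Cc - (d : F) ^ j * ((d : F) * a) =
        -(D ^ j * ((d : F) * a - Cc)) + (D ^ j - (d : F) ^ j) * ((d : F) * a) := by ring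
    rw [e]
    exact add_mem_nonunits W (neg_mem_nonunits W (mul_mem_nonunits W (pow_mem hDW j) hcyc))
      (mul_mem_nonunits' W k3 hcW)
  have k5 : ((d : F) * z) ^ (j + 1) - (d : F) ^ j * ((d : F) * a) ∈ W.nonunits := by
    have e : ((d : F) * z) ^ (j + 1) - (d : F) ^ j * ((d : F) * a) =
        (d : F) ^ (j + 1) * (z ^ (j + 1) - a) := by ring
    rw [e]
    exact mul_mem_nonunits W (pow_mem hdW _) hza
  have k6 : (D * Y) ^ (j + 1) - D ^ j * Cc ∈ W.nonunits := by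
    have e : (D * Y) ^ (j + 1) - D ^ j * Cc =
        ((D * Y) ^ (j + 1) - ((d : F) * z) ^ (j + 1)) +
          (((d : F) * z) ^ (j + 1) - (d : F) ^ j * ((d : F) * a)) +
          -(D ^ j * Cc - (d : F) ^ j * ((d : F) * a)) := by ring
    rw [e]
    exact add_mem_nonunits W (add_mem_nonunits W k2 k5) (neg_mem_nonunits W k4)
  have k7 : (yd * y) ^ (j + 1) - yd ^ j * yc ∈ V₁.nonunits := by
    rw [← hs.comap_nonunits, map_sub, map_pow, map_mul, map_mul, map_pow]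
    exact k6
  have hydV : yd ∈ V₁ := h1.C_le hϖ hyd
  obtain ⟨y'', hy'', hyy⟩ := h1.exists_of_monic hϖ (mul_mem hydV hy)
    (X ^ (j + 1) - C (yd ^ j * yc)) (monic_X_pow_sub_C _ (Nat.succ_ne_zero j))
    (by
      intro i
      rw [coeff_sub, coeff_X_pow, coeff_C]
      have hmem : yd ^ j * yc ∈ CInt R K t₁ := (CInt R K t₁).mul_mem (pow_mem hyd j) hyc
      split_ifs
      · exact (CInt R K t₁).sub_mem (CInt R K t₁).one_mem hmem
      · exact (CInt R K t₁).sub_mem (CInt R K t₁).one_mem (CInt R K t₁).zero_mem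
      · exact (CInt R K t₁).sub_mem (CInt R K t₁).zero_mem hmem
      · exact (CInt R K t₁).sub_mem (CInt R K t₁).zero_mem (CInt R K t₁).zero_mem)
    (by
      rw [eval_sub, eval_pow, eval_X, eval_C]
      exact k7)
  refine ⟨ιa y'' * D⁻¹, (InLoc.of_mem n (hs.mapC_a _ hy'')).mul
    (InLoc.inv_of_notMem (d := ⟨D, hDC⟩) hDn), ?_⟩
  have k8 : D * Y - ιa y'' ∈ W.nonunits := by
    have := (hs.comap_nonunits (yd * y - y'')).2 hyy
    rwa [map_sub, map_mul] at this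
  have e : z - ιa y'' * D⁻¹ = (z - Y) + (D * Y - ιa y'') * D⁻¹ := by
    field_simp
    ring
  rw [e]
  exact add_mem_nonunits W hzy (mul_mem_nonunits' W k8 hDinv)

end Fermat.Agent.S36.Tor
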