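import Fermat.Agent.S36.Tor.GlueE
import Fermat.Agent.S34.RootA

set_option autoImplicit false
set_option linter.unusedSectionVars false

/-!
# S36 / Tor / RootA : the prime step, existence of a root   (task TOR-RootA)

ADAPTATION of `S34.exists_root` (Fermat/Agent/S34/RootA.lean; its lemmas `RootA.sum_char`, `RootA.avg_idem`, `RootA.false_of_eq_mul` are general and can be cited; `RootA.core` must be
copied with `Branches` → `VertFam`, `glue_prime` → `glue_primeV`).  At the end: `u / ϖ` is `InO`, so it lies in `V k` for the given `k₀ : κ` (`[Nonempty κ]`), but `u` is a unit of `V k₀` and `ϖ ∈ 𝔪`.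
-/

noncomputable section

namespace Fermat.Agent.S36.Tor

open Polynomial IntermediateField Fermat.Agent.S18 Fermat.Agent.S34 Fermat.Agent.S36.LG
open Fermat.Agent.S36.Norm (One1 Near)

variable {R K F : Type} [CommRing R] [IsDomain R] [IsDiscreteValuationRing R] [Field K] [CharZero K]
  [Algebra R K] [IsFractionRing R K] [Field F] [Algebra K F]
  {ϖ : R} {κ : Type} [Finite κ] {V : κ → ValuationSubring F}

theorem tra_core [Nonempty κ] {x : F} {E : Type} [Field E] [Algebra K E] [Algebra F E] [IsScalarTower K F E]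
    [FiniteDimensional F E] (hϖ : Irreducible ϖ) (hV : VertFam (K := K) ϖ x V)
    (hE : ∀ z : E, IsAlgebraic K z → z ∈ (algebraMap K E).range)
    {p : ℕ} (hp : p.Prime) (hpR : IsUnit (p : R)) {ζ : K} (hζ : IsPrimitiveRoot ζ p)
    {u : F} (hu : ∀ k, OneP K ϖ (V k) u)
    {y : E} (hy : y ^ p = algebraMap F E u)
    (hfin : ∀ n : Ideal (CInt R K x), IsClosedPt ϖ n → LocDataV ϖ V n p u)
    (hinf : ∀ n : Ideal (CInt R K x⁻¹), IsClosedPt ϖ n → LocDataV ϖ V n p u)
    (σ : ℕ → E →+* E) (hσF : ∀ k a, σ k (algebraMap F E a) = algebraMap F E a)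
    (hσy : ∀ k, σ k y = algebraMap K E ζ ^ k * y) : False := by
  have : CharZero E := charZero_of_injective_algebraMap (algebraMap K E).injective
  obtain ⟨r, η, hη, hrη⟩ := glue_primeV (E := E) hϖ hV hE hp hpR hu hy hfin hinf
  set ξ : E := algebraMap K E ζ with hξdef
  have hξ : IsPrimitiveRoot ξ p := hζ.map_of_injective (algebraMap K E).injective
  have hσR : ∀ k (s : R), σ k (rE R K E s) = rE R K E s := by
    intro k s
    rw [← map_rE (F := F) (E := E), hσF]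
  have hσx : ∀ k, σ k (algebraMap F E x) = algebraMap F E x := fun k => hσF k x
  -- `ξ⁻¹` is integral
  have hone : InO K ϖ (algebraMap F E x) (1 : E) := InO.of_mem_CInt hϖ (Subring.one_mem _)
  have hξO : InO K ϖ (algebraMap F E x) ξ⁻¹ := by
    refine InO_of_pow hϖ hp.ne_zero ?_
    rw [inv_pow, hξ.pow_eq_one, inv_one]
    exact hone
  -- apply the averaging operator
  have hT : ∑ k ∈ Finset.range p, ξ⁻¹ ^ k * σ k (rE R K E r - idem p y)
      = ∑ k ∈ Finset.range p, ξ⁻¹ ^ k * σ k (rE R K E ϖ * η) := by rw [hrη]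
  have hL : ∑ k ∈ Finset.range p, ξ⁻¹ ^ k * σ k (rE R K E r - idem p y) = - y := by
    simp_rw [map_sub, mul_sub, Finset.sum_sub_distrib, hσR]
    rw [RootA.avg_idem hp hξ σ hσy, ← Finset.sum_mul, hξ.inv.geom_sum_eq_zero hp.one_lt]
    ring
  have hRr : ∑ k ∈ Finset.range p, ξ⁻¹ ^ k * σ k (rE R K E ϖ * η)
      = rE R K E ϖ * ∑ k ∈ Finset.range p, ξ⁻¹ ^ k * σ k η := by
    rw [Finset.mul_sum]
    refine Finset.sum_congr rfl fun k _ => ?_
    rw [map_mul, hσR]
    ring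
  have hTO : InO K ϖ (algebraMap F E x) (∑ k ∈ Finset.range p, ξ⁻¹ ^ k * σ k η) := by
    rw [← mem_ORing hϖ]
    refine Subring.sum_mem _ fun k _ => ?_
    rw [mem_ORing hϖ]
    exact (hξO.pow hϖ k).mul hϖ (InO_map_end (σ k) (hσR k) (hσx k) hη)
  set η' := ∑ k ∈ Finset.range p, ξ⁻¹ ^ k * σ k η with hη'
  have hyη : y = rE R K E ϖ * (-η') := by
    rw [mul_neg, ← hRr, ← hT, hL, neg_neg]
  have hϖ0 : rE R K F ϖ ≠ 0 := by
    intro h
    exact hϖ.ne_zero (rE_injective (K := K) (E := F) (by rw [h, map_zero]))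
  obtain ⟨q, rfl⟩ : ∃ q, p = q + 1 := ⟨p - 1, (Nat.succ_pred_eq_of_pos hp.pos).symm⟩
  have hc : InO K ϖ (algebraMap F E x) (algebraMap F E ((rE R K F ϖ)⁻¹ * u)) := by
    have : algebraMap F E ((rE R K F ϖ)⁻¹ * u) = rE R K E ϖ ^ q * (-η') ^ (q + 1) := by
      have hϖE : rE R K E ϖ ≠ 0 := by
        rw [← map_rE (F := F) (E := E)]
        exact (_root_.map_ne_zero _).2 hϖ0
      rw [map_mul, map_inv₀, map_rE, ← hy]
      conv_lhs => rw [hyη]
      rw [mul_pow, pow_succ (rE R K E ϖ) q]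
      field_simp
    rw [this]
    exact ((InO.of_mem_CInt hϖ (rE_mem_CInt _ ϖ)).pow hϖ q).mul hϖ ((hTO.neg).pow hϖ _)
  obtain ⟨k₀⟩ := (inferInstance : Nonempty κ)
  have hc' := (hV.inO_iff _).1 (InO_of_map hc) k₀
  have hui : u - 1 ∈ (V k₀).nonunits := by
    have h1 : u - 1 = rE R K F ϖ * ((rE R K F ϖ)⁻¹ * (u - 1)) := by
      rw [← mul_assoc, mul_inv_cancel₀ hϖ0, one_mul]
    have h2 := hV.mem k₀
    have h3 : (rE R K F ϖ)⁻¹ * (u - 1) ∈ V k₀ := hu k₀
    rw [ValuationSubring.mem_nonunits_iff] at h2 ⊢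
    rw [← ValuationSubring.valuation_le_one_iff] at h3
    rw [h1, map_mul]
    exact mul_lt_one_of_lt_of_le h2 h3
  exact RootA.false_of_eq_mul (hV.mem k₀) hui hc'
    (by rw [← mul_assoc, mul_inv_cancel₀ hϖ0, one_mul])


theorem exists_rootV [Nonempty κ] (hϖ : Irreducible ϖ) {x : F} (hV : VertFam (K := K) ϖ x V)
    {p : ℕ} (hp : p.Prime) (hpR : IsUnit (p : R)) {ζ : K} (hζ : IsPrimitiveRoot ζ p)
    {𝕃 : Type} [Field 𝕃] [Algebra K 𝕃] [Algebra F 𝕃] [IsScalarTower K F 𝕃]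
    (h𝕃 : ∀ z : 𝕃, IsAlgebraic K z → z ∈ (algebraMap K 𝕃).range)
    {u : F} (hu : ∀ k, OneP K ϖ (V k) u) {y : 𝕃} (hy : y ^ p = algebraMap F 𝕃 u)
    (hfin : ∀ n : Ideal (CInt R K x), IsClosedPt ϖ n → LocDataV ϖ V n p u)
    (hinf : ∀ n : Ideal (CInt R K x⁻¹), IsClosedPt ϖ n → LocDataV ϖ V n p u) :
    ∃ w : F, w ^ p = u := by
  by_contra hno
  push Not at hno
  have hirr : Irreducible (X ^ p - C u : F[X]) := X_pow_sub_C_irreducible_of_prime hp hno
  have : Fact (Irreducible (X ^ p - C u : F[X])) := ⟨hirr⟩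
  have hne : (X ^ p - C u : F[X]) ≠ 0 := hirr.ne_zero
  have : FiniteDimensional F (AdjoinRoot (X ^ p - C u : F[X])) :=
    (AdjoinRoot.powerBasis hne).finite
  have hroot : (AdjoinRoot.root (X ^ p - C u : F[X])) ^ p
      = algebraMap F (AdjoinRoot (X ^ p - C u : F[X])) u := by
    have := AdjoinRoot.eval₂_root (X ^ p - C u : F[X])
    rw [eval₂_sub, eval₂_pow, eval₂_X, eval₂_C, sub_eq_zero] at this
    rw [this, AdjoinRoot.algebraMap_eq]
  -- `K` is algebraically closed in `E`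
  have hE : ∀ z : AdjoinRoot (X ^ p - C u : F[X]), IsAlgebraic K z →
      z ∈ (algebraMap K (AdjoinRoot (X ^ p - C u : F[X]))).range := by
    intro z hz
    let φ : AdjoinRoot (X ^ p - C u : F[X]) →ₐ[K] 𝕃 :=
      AdjoinRoot.liftAlgHom (X ^ p - C u : F[X]) (IsScalarTower.toAlgHom K F 𝕃) y (by
        rw [eval₂_sub, eval₂_pow, eval₂_X, eval₂_C, hy]
        simp)
    obtain ⟨c, hc⟩ := h𝕃 (φ z) (hz.algHom φ)
    refine ⟨c, φ.toRingHom.injective ?_⟩
    simp only [AlgHom.toRingHom_eq_coe, RingHom.coe_coe, AlgHom.commutes]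
    exact hc
  refine tra_core (E := AdjoinRoot (X ^ p - C u : F[X])) hϖ hV hE hp hpR hζ hu hroot hfin hinf
    (fun k => AdjoinRoot.lift (algebraMap F (AdjoinRoot (X ^ p - C u : F[X])))
      (algebraMap K (AdjoinRoot (X ^ p - C u : F[X])) ζ ^ k * AdjoinRoot.root _) (by
        rw [eval₂_sub, eval₂_pow, eval₂_X, eval₂_C, mul_pow, hroot, ← pow_mul, mul_comm k p, pow_mul,
          ← map_pow, hζ.pow_eq_one, map_one, one_pow, one_mul, sub_self])) ?_ ?_
  · intro k a
    exact AdjoinRoot.lift_of _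
  · intro k
    rw [AdjoinRoot.lift_root]

end Fermat.Agent.S36.Tor
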