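import Fermat.Agent.S36.Inst.LocGen

set_option autoImplicit false
set_option linter.unusedSectionVars false

/-!
# S36 / Tor / Tri : a closed point lies on all three components or on at most one

`V 0 = V_∞`, `V 1 = V_mid`, `V 2 = V_0`.  With `S = ϖ G2` (divisor `V_∞`), `T = G1⁻¹` (divisor `V_0`), `Y = G1 / G2` (divisor `V_mid`):
`S ≡ s T` on `V_mid`, `Y ≡ T ^ (q - 1)` on `V_∞`.
-/

noncomputable section

namespace Fermat.Agent.S36.Tor

open Polynomial IntermediateField Fermat.Agent.S18 Fermat.Agent.S34 Fermat.Agent.S36.LG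
open Fermat.Agent.S36.Inst

variable {R K F : Type} [CommRing R] [IsDomain R] [IsDiscreteValuationRing R] [Field K] [CharZero K]
  [Algebra R K] [IsFractionRing R K] [Field F] [Algebra K F] {ϖ : R} {t : F}

theorem tri_inLoc_pow_mul {n : Ideal (CInt R K t)} [n.IsPrime] {z : F} {k l : ℕ} (hkl : k ≤ l)
    (h : InLoc n (rE R K F ϖ ^ k * z)) : InLoc n (rE R K F ϖ ^ l * z) := by
  obtain ⟨d, rfl⟩ := Nat.exists_eq_add_of_le hkl
  rw [pow_add, mul_comm (rE R K F ϖ ^ k), mul_assoc]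
  exact ((InLoc.rE ϖ).pow d).mul h

theorem tri_genUnit_of_int {n : Ideal (CInt R K t)} [n.IsPrime] {J z : F} (hJ : InLoc n J)
    (hz : z ≠ 0) (h1 : ∃ k : ℕ, rE R K F ϖ ^ k * z ∈ CInt R K J)
    (h2 : ∃ k : ℕ, rE R K F ϖ ^ k * z⁻¹ ∈ CInt R K J) : GenUnit ϖ n z := by
  obtain ⟨k, hk⟩ := h1
  obtain ⟨l, hl⟩ := h2
  exact ⟨hz, max k l, tri_inLoc_pow_mul (le_max_left k l) (hJ.of_mem_CInt hk),
    tri_inLoc_pow_mul (le_max_right k l) (hJ.of_mem_CInt hl)⟩

theorem tri_genUnit_mul {n : Ideal (CInt R K t)} [n.IsPrime] {a b : F} (ha : GenUnit ϖ n a)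
    (hb : GenUnit ϖ n b) : GenUnit ϖ n (a * b) := by
  obtain ⟨ha0, k, h1, h2⟩ := ha
  obtain ⟨hb0, l, h3, h4⟩ := hb
  refine ⟨mul_ne_zero ha0 hb0, k + l, ?_, ?_⟩
  · have e : rE R K F ϖ ^ (k + l) * (a * b) = (rE R K F ϖ ^ k * a) * (rE R K F ϖ ^ l * b) := by
      rw [pow_add]; ring
    rw [e]; exact h1.mul h3
  · have e : rE R K F ϖ ^ (k + l) * (a * b)⁻¹ =
        (rE R K F ϖ ^ k * a⁻¹) * (rE R K F ϖ ^ l * b⁻¹) := by
      rw [pow_add, mul_inv]; ring
    rw [e]; exact h2.mul h4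

theorem tri_genUnit_inv {n : Ideal (CInt R K t)} {a : F} (ha : GenUnit ϖ n a) :
    GenUnit ϖ n a⁻¹ := by
  obtain ⟨ha0, k, h1, h2⟩ := ha
  exact ⟨inv_ne_zero ha0, k, h2, by rwa [inv_inv]⟩

variable {κ : Type} [Finite κ] {V : κ → ValuationSubring F}

/-- a function whose vertical divisor is supported on `V k₀`. -/
theorem tri_inMax_iff (hϖ : Irreducible ϖ) (hV : VertFam (K := K) ϖ t V) {n : Ideal (CInt R K t)}
    [n.IsPrime] {X : F} (hX : GenUnit ϖ n X) (k₀ : κ) (h0 : X ∈ (V k₀).nonunits)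
    (h1 : ∀ k, k ≠ k₀ → X ∈ V k ∧ X⁻¹ ∈ V k) :
    InLoc n X ∧ (InMax n X ↔ Centered (V k₀) n) := by
  have hCV : ∀ k, ∀ y ∈ CInt R K t, y ∈ V k := fun k y hy => hV.mem_of_mem_CInt hϖ hy k
  have hin : InLoc n X := by
    obtain ⟨-, j, hj, -⟩ := hX
    refine hV.sat_loc hϖ j hj fun k _ => ?_
    by_cases hk : k = k₀
    · rw [hk]; exact mem_of_mem_nonunits _ h0
    · exact (h1 k hk).1
  refine ⟨hin, fun hm => ?_, fun hc => hc.inMax (hCV k₀) hin h0⟩
  by_contra hc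
  have hu : LocUnit n X := hV.locUnit_of_genUnit hϖ hX fun k hk =>
    h1 k (fun e => hc (e ▸ hk))
  exact not_locUnit_of_inMax n hm hu

/-- **TRI**: a closed point lies on all three components or on at most one. -/
theorem tri_of_chartData {E : Type} [Field E] [Algebra K E] {q : ℕ} {t₀ : E}
    {VE : ValuationSubring E} {V : Fin 3 → ValuationSubring F} {ι₀ ι₂ : E →ₐ[K] F}
    {J Jq Jqq g₁ g₂ G1 G2 : F} (hϖ : Irreducible ϖ)
    (D : ChartData ϖ q t₀ VE t V ι₀ ι₂ J Jq Jqq g₁ g₂ G1 G2) {s : R} (hs : IsUnit s)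
    (c1 : rE R K F ϖ * G2 - rE R K F s * G1⁻¹ ∈ (V 1).nonunits)
    (c2 : G2 - G1 ^ q ∈ (V 0).nonunits)
    {n : Ideal (CInt R K t)} (hn : IsClosedPt ϖ n) :
    (∀ j, Centered (V j) n) ∨ ∃ j₀, ∀ j, Centered (V j) n → j = j₀ := by
  have hp := hn.max.isPrime
  have hq := D.hq
  have hV := D.vert
  have hCV : ∀ k, ∀ y ∈ CInt R K t, y ∈ V k := fun k y hy => hV.mem_of_mem_CInt hϖ hy k
  have hϖ0 := rE_unif_ne_zero (K := K) (F := F) hϖ
  rcases cusp_or (n := n) D.J_eq with hJ | hJ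
  swap
  · obtain ⟨k₀, hk₀⟩ := hV.exists_centered hϖ hn
    exact Or.inr ⟨k₀, fun k hk => D.sep.unique hϖ (by omega) hV hn hJ hk hk₀⟩
  have h1 := D.tab.G1_ne
  have h2 := D.tab.G2_ne
  have gG1 : GenUnit ϖ n G1 := tri_genUnit_of_int hJ h1 D.tab.G1_int D.tab.G1_int'
  have gG2 : GenUnit ϖ n G2 := tri_genUnit_of_int hJ h2 D.tab.G2_int D.tab.G2_int'
  obtain ⟨hS, iS⟩ := tri_inMax_iff hϖ hV (tri_genUnit_mul (genUnit_unif hϖ n) gG2) 0
    (mul_comm (rE R K F ϖ) G2 ▸ mul_mem_nonunits _ D.tab.G2_oo.1 (hV.mem 0))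
    (fun k hk => by
      fin_cases k
      · exact absurd rfl hk
      · exact D.tab.G2_mid
      · exact D.tab.G2_0)
  obtain ⟨hT, iT⟩ := tri_inMax_iff hϖ hV (tri_genUnit_inv gG1) 2
    (by
      have e : G1⁻¹ = (rE R K F ϖ * G1)⁻¹ * rE R K F ϖ := by field_simp
      rw [e]
      exact mul_mem_nonunits _ D.tab.G1_0.2 (hV.mem 2))
    (fun k hk => by
      fin_cases k
      · exact ⟨D.tab.G1_oo.2, by rw [inv_inv]; exact D.tab.G1_oo.1⟩
      · exact ⟨D.tab.G1_mid.2, by rw [inv_inv]; exact D.tab.G1_mid.1⟩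
      · exact absurd rfl hk)
  obtain ⟨hY, iY⟩ := tri_inMax_iff hϖ hV (tri_genUnit_mul gG1 (tri_genUnit_inv gG2)) 1
    (by
      have e : G1 * G2⁻¹ = (G1 * (rE R K F ϖ * G2)⁻¹) * rE R K F ϖ := by field_simp
      rw [e]
      exact mul_mem_nonunits _ (mul_mem D.tab.G1_mid.1 D.tab.G2_mid.2) (hV.mem 1))
    (fun k hk => by
      fin_cases k
      · refine ⟨mul_mem D.tab.G1_oo.1 D.tab.G2_oo.2, ?_⟩
        rw [mul_inv, inv_inv]
        exact mul_mem D.tab.G1_oo.2 D.tab.G2_oo.1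
      · exact absurd rfl hk
      · have e : G1 * G2⁻¹ = (rE R K F ϖ * G1) * (rE R K F ϖ * G2)⁻¹ := by field_simp
        have e' : (G1 * G2⁻¹)⁻¹ = (rE R K F ϖ * G1)⁻¹ * (rE R K F ϖ * G2) := by field_simp
        exact ⟨e ▸ mul_mem D.tab.G1_0.1 D.tab.G2_0.2, e' ▸ mul_mem D.tab.G1_0.2 D.tab.G2_0.1⟩)
  obtain ⟨s', hs'⟩ := hs.exists_left_inv
  -- on the middle component
  have A : Centered (V 1) n → (Centered (V 0) n ↔ Centered (V 2) n) := by
    intro hc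
    have hm : InMax n (rE R K F ϖ * G2 - rE R K F s * G1⁻¹) :=
      hc.inMax (hCV 1) (hS.sub ((InLoc.rE s).mul hT)) c1
    rw [← iS, ← iT]
    constructor
    · intro h
      have e : G1⁻¹ = rE R K F s' *
          (rE R K F ϖ * G2 - (rE R K F ϖ * G2 - rE R K F s * G1⁻¹)) := by
        rw [sub_sub_cancel, ← mul_assoc, ← map_mul, hs', map_one, one_mul]
      rw [e]
      exact InMax.mul_left (InLoc.rE s') (h.sub hm)
    · intro h
      have e : rE R K F ϖ * G2 =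
          (rE R K F ϖ * G2 - rE R K F s * G1⁻¹) + rE R K F s * G1⁻¹ := by ring
      rw [e]
      exact hm.add (InMax.mul_left (InLoc.rE s) h)
  -- on the component `∞`
  have B : Centered (V 0) n → Centered (V 2) n → Centered (V 1) n := by
    intro hc0 hc2
    rw [← iY]
    have hTm : InMax n (G1⁻¹ ^ (q - 1)) := cuspSep_inMax_pow (iT.2 hc2) (by omega)
    have e : G1 * G2⁻¹ - G1⁻¹ ^ (q - 1) = (-(G2⁻¹ * G1⁻¹ ^ (q - 1))) * (G2 - G1 ^ q) := by
      obtain ⟨r, rfl⟩ : ∃ r, q = r + 1 := ⟨q - 1, by omega⟩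
      simp only [Nat.add_sub_cancel]
      have := pow_ne_zero r h1
      rw [inv_pow, pow_succ]
      field_simp
      ring
    have hmem : G1 * G2⁻¹ - G1⁻¹ ^ (q - 1) ∈ (V 0).nonunits := by
      rw [e]
      exact mul_mem_nonunits _ (neg_mem (mul_mem D.tab.G2_oo.2 (pow_mem D.tab.G1_oo.2 _))) c2
    have hm := hc0.inMax (hCV 0) (hY.sub (hT.pow _)) hmem
    have e2 : G1 * G2⁻¹ = (G1 * G2⁻¹ - G1⁻¹ ^ (q - 1)) + G1⁻¹ ^ (q - 1) := by ring
    rw [e2]
    exact hm.add hTm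
  by_cases k1 : Centered (V 1) n
  · by_cases k0 : Centered (V 0) n
    · left
      intro j
      fin_cases j
      · exact k0
      · exact k1
      · exact (A k1).1 k0
    · right
      refine ⟨1, fun j hj => ?_⟩
      fin_cases j
      · exact absurd hj k0
      · rfl
      · exact absurd ((A k1).2 hj) k0
  · by_cases k0 : Centered (V 0) n
    · right
      refine ⟨0, fun j hj => ?_⟩
      fin_cases j
      · rfl
      · exact absurd hj k1
      · exact absurd (B k0 hj) k1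
    · right
      refine ⟨2, fun j hj => ?_⟩
      fin_cases j
      · exact absurd hj k0
      · exact absurd hj k1
      · rfl

end Fermat.Agent.S36.Tor
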