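import Fermat.Agent.S36.Tor.Basic

set_option autoImplicit false
set_option linter.unusedSectionVars false

/-!
# S36 / Tor / UP : a point on all components is the only point above its image   (task TOR-UP)

In the form: every `d ∈ C \ n` divides (in `C`) the image of some `d' ∈ C' \ n'`, `n' = below γ _ n`.  (So `O_n` = integral closure of `O'_{n'}`.)

SKETCH.  STEP 1.  `hD.nt_a`, `nt_b`, `nt_c`: `y_a y_b y_c ∈ C'`, `d - γ y_a ∈ 𝔪_a`, `d - γ y_b ∈ 𝔪_b`, `d^q - γ y_c ∈ 𝔪_c`.  None of `y_a, y_b, y_c` lies in `n'`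
 (`γ y_a = d - (d - γ y_a)`, `d - γ y_a ∈ C ∩ 𝔪_a ⊆ n` by `hcen a`, `d ∉ n`; for `c`: `d^q ∉ n`).   `hV.ram`: exponents `e_a e_b e_c > 0`.
 `Π := (d - γ y_a)^(e_a) (d - γ y_b)^(e_b) (d^q - γ y_c)^(e_c) ∈ C`; `ϖ⁻¹ Π ∈ V k` for all `k` (`hall k`; one factor gives `ϖ⁻¹ (..)^e ∈ V k`, the others are in `C ⊆ V k`), so
 `c₀ := ϖ⁻¹ Π ∈ C` (`VertFam.sat` with `j = 1`).    With `f := (X - C A)^(e_a) (X - C B)^(e_b) (X^q - C D)^(e_c) : C[X]`: `d ∣ f.eval d - f.eval 0` (`Polynomial.sub_dvd_eval_sub`), `f.eval d = Π`,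
 `f.eval 0 = γ Y`, `Y := (-y_a)^(e_a) (-y_b)^(e_b) (-y_c)^(e_c) ∈ C' \ n'` (needs `q ≠ 0`: `0^q = 0`).    So `z := γ Y - ϖ c₀ = - d A₀`, `A₀ ∈ C`.
 STEP 2.  `hD.integral c₀`: monic `P` over `C'`, `P^γ(c₀) = 0`.  `P₁ := P.scaleRoots ϖ` (`Polynomial.scaleRoots`, `scaleRoots_eval₂_eq_zero`/`scaleRoots_aeval_eq_zero`): monic, coefficients `ϖ^(k-i) a_i ∈ C'`, `P₁^γ(ϖ c₀) = 0`.
 `z = γ Y - ϖ c₀ ∣ P₁^γ(γ Y) - P₁^γ(ϖ c₀) = γ (P₁.eval Y)` in `C` (`sub_dvd_eval_sub` for the polynomial over `C`).   `d' := P₁.eval Y = Y^k + ϖ (..)`: `d' - Y^k ∈ ϖ C' ⊆ n'`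
 (all lower coefficients of `scaleRoots` are multiples of `ϖ`: `coeff_scaleRoots`), `Y^k ∉ n'`, so `d' ∉ n'`.   `γ d' = z B₀ = d (- A₀ B₀)`.
 (work with polynomials over the subrings `C'`, `C`, or over the fields keeping track of memberships, as you prefer.)
-/

noncomputable section

namespace Fermat.Agent.S36.Tor

open Polynomial IntermediateField Fermat.Agent.S18 Fermat.Agent.S34 Fermat.Agent.S36.LG
open Fermat.Agent.S36.Norm (One1 Near)

variable {R K F' F : Type} [CommRing R] [IsDomain R] [IsDiscreteValuationRing R] [Field K] [CharZero K]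
  [Algebra R K] [IsFractionRing R K] [Field F'] [Algebra K F'] [Field F] [Algebra K F]
  {ϖ : R} {κ : Type} [Finite κ] {V : κ → ValuationSubring F}
  {q : ℕ} {t' : F'} {t : F} {γ : F' →ₐ[K] F} {Nm : F →* F'} {Vs Vr : ValuationSubring F'} {a b c : κ}

/-- pure commutative algebra, step 2 of the sketch. -/
theorem up_step2 {C' C : Type} [CommRing C'] [CommRing C] (g : C' →+* C) (n : Ideal C) [n.IsPrime]
    (π' : C') (hπ : g π' ∈ n) {d : C} {Y : C'} (hY : g Y ∉ n) {c₀ : C} {P : C'[X]} (hP : P.Monic)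
    (hP0 : P.eval₂ g c₀ = 0) (hdvd : d ∣ g Y - g π' * c₀) :
    ∃ d' : C', g d' ∉ n ∧ d ∣ g d' := by
  refine ⟨(P.scaleRoots π').eval Y, ?_, ?_⟩
  · intro hmem
    let φ : C' →+* C ⧸ n := (Ideal.Quotient.mk n).comp g
    have hφπ : φ π' = 0 := Ideal.Quotient.eq_zero_iff_mem.2 hπ
    have h1 : φ ((P.scaleRoots π').eval Y) = 0 := Ideal.Quotient.eq_zero_iff_mem.2 hmem
    have h2 : φ P.leadingCoeff ≠ 0 := by
      rw [hP.leadingCoeff, map_one]; exact one_ne_zero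
    rw [← Polynomial.eval_map_apply, Polynomial.map_scaleRoots _ _ _ h2, hφπ,
      Polynomial.scaleRoots_zero, (hP.map φ).leadingCoeff, one_smul, eval_pow, eval_X] at h1
    have h3 : φ Y = 0 := eq_zero_of_pow_eq_zero h1
    exact hY (Ideal.Quotient.eq_zero_iff_mem.1 h3)
  · have h1 : eval₂ g (g π' * c₀) (P.scaleRoots π') = 0 := scaleRoots_eval₂_eq_zero g hP0
    have h2 : g Y - g π' * c₀ ∣
        ((P.scaleRoots π').map g).eval (g Y) - ((P.scaleRoots π').map g).eval (g π' * c₀) :=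
      Polynomial.sub_dvd_eval_sub _ _ _
    rw [eval_map, eval_map, h1, sub_zero, Polynomial.eval₂_hom] at h2
    exact hdvd.trans h2

theorem DegMap.exists_denominator (hϖ : Irreducible ϖ) (hq : q ≠ 0) (hV : VertFam (K := K) ϖ t V)
    (hall : ∀ k, k = a ∨ k = b ∨ k = c) (hD : DegMap R q t' t γ Nm Vs Vr (V a) (V b) (V c))
    {n : Ideal (CInt R K t)} (hn : IsClosedPt ϖ n) (hcen : ∀ k, Centered (V k) n)
    {d : CInt R K t} (hd : d ∉ n) :
    ∃ d' : CInt R K t', d' ∉ below γ hD.mapC n ∧ ∃ e : CInt R K t, γ (d' : F') = (d : F) * e := by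
  haveI : n.IsPrime := hn.max.isPrime
  set g : CInt R K t' →+* CInt R K t := restrC γ hD.mapC with hg
  have hϖ0 : rE R K F ϖ ≠ 0 := rE_unif_ne_zero hϖ
  -- step 1
  obtain ⟨ya, hya, ha⟩ := hD.nt_a d d.2
  obtain ⟨yb, hyb, hb⟩ := hD.nt_b d d.2
  obtain ⟨yc, hyc, hc⟩ := hD.nt_c d d.2
  obtain ⟨ea, -, hea⟩ := hV.ram a
  obtain ⟨eb, -, heb⟩ := hV.ram b
  obtain ⟨ec, -, hec⟩ := hV.ram c
  let A : CInt R K t := g ⟨ya, hya⟩
  let B : CInt R K t := g ⟨yb, hyb⟩
  let D : CInt R K t := g ⟨yc, hyc⟩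
  have hAn : d - A ∈ n := hcen a (d - A) ha
  have hBn : d - B ∈ n := hcen b (d - B) hb
  have hDn : d ^ q - D ∈ n := hcen c (d ^ q - D) hc
  have hA : A ∉ n := fun h => hd (by simpa using n.add_mem hAn h)
  have hB : B ∉ n := fun h => hd (by simpa using n.add_mem hBn h)
  have hD' : D ∉ n := fun h =>
    hd (Ideal.IsPrime.mem_of_pow_mem inferInstance q (by simpa using n.add_mem hDn h))
  let Pi : CInt R K t := (d - A) ^ ea * (d - B) ^ eb * (d ^ q - D) ^ ec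
  have hmemV : ∀ (z : CInt R K t) (k : κ), (z : F) ∈ V k := fun z k =>
    hV.mem_of_mem_CInt hϖ z.2 k
  have hc0 : (rE R K F ϖ)⁻¹ * (Pi : F) ∈ CInt R K t := by
    refine hV.sat hϖ 1 ?_ ?_
    · rw [pow_one, mul_inv_cancel_left₀ hϖ0]
      exact Pi.2
    · intro k
      rcases hall k with rfl | rfl | rfl
      · have e : (rE R K F ϖ)⁻¹ * (Pi : F) = ((rE R K F ϖ)⁻¹ * ((d - A : CInt R K t) : F) ^ ea) *
            (((d - B) ^ eb * (d ^ q - D) ^ ec : CInt R K t) : F) := by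
          simp only [Pi, Subring.coe_mul, Subring.coe_pow]; ring
        rw [e]
        exact mul_mem (hea _ ha) (hmemV _ _)
      · have e : (rE R K F ϖ)⁻¹ * (Pi : F) = ((rE R K F ϖ)⁻¹ * ((d - B : CInt R K t) : F) ^ eb) *
            (((d - A) ^ ea * (d ^ q - D) ^ ec : CInt R K t) : F) := by
          simp only [Pi, Subring.coe_mul, Subring.coe_pow]; ring
        rw [e]
        exact mul_mem (heb _ hb) (hmemV _ _)
      · have e : (rE R K F ϖ)⁻¹ * (Pi : F) =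
            ((rE R K F ϖ)⁻¹ * ((d ^ q - D : CInt R K t) : F) ^ ec) *
            (((d - A) ^ ea * (d - B) ^ eb : CInt R K t) : F) := by
          simp only [Pi, Subring.coe_mul, Subring.coe_pow]; ring
        rw [e]
        exact mul_mem (hec _ hc) (hmemV _ _)
  let c₀ : CInt R K t := ⟨_, hc0⟩
  let π' : CInt R K t' := unifC t' ϖ
  have hgπ : g π' = unifC t ϖ := by
    apply Subtype.ext
    show γ (rE R K F' ϖ) = rE R K F ϖ
    exact γ.commutes _
  have hπc : g π' * c₀ = Pi := by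
    rw [hgπ]
    apply Subtype.ext
    show rE R K F ϖ * ((rE R K F ϖ)⁻¹ * (Pi : F)) = Pi
    rw [mul_inv_cancel_left₀ hϖ0]
  let Y : CInt R K t' := (-⟨ya, hya⟩) ^ ea * (-⟨yb, hyb⟩) ^ eb * (-⟨yc, hyc⟩) ^ ec
  have hgY : g Y = (-A) ^ ea * (-B) ^ eb * (-D) ^ ec := by
    simp only [Y, map_mul, map_pow, map_neg, A, B, D]
  have hYn : g Y ∉ n := by
    rw [hgY]
    intro h
    have hneg : ∀ {z : CInt R K t} (e : ℕ), z ∉ n → (-z) ^ e ∉ n := by
      intro z e hz h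
      exact hz (by simpa using Ideal.IsPrime.mem_of_pow_mem inferInstance e h)
    rcases Ideal.IsPrime.mem_or_mem inferInstance h with h | h
    · rcases Ideal.IsPrime.mem_or_mem inferInstance h with h | h
      · exact hneg ea hA h
      · exact hneg eb hB h
    · exact hneg ec hD' h
  have hdvd : d ∣ g Y - g π' * c₀ := by
    let f : (CInt R K t)[X] := (X - C A) ^ ea * (X - C B) ^ eb * (X ^ q - C D) ^ ec
    have h1 : d - 0 ∣ f.eval d - f.eval 0 := Polynomial.sub_dvd_eval_sub _ _ _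
    have h2 : f.eval d = Pi := by
      simp only [f, Pi, eval_mul, eval_pow, eval_sub, eval_X, eval_C]
    have h3 : f.eval 0 = g Y := by
      rw [hgY]
      simp only [f, eval_mul, eval_pow, eval_sub, eval_X, eval_C, zero_pow hq, zero_sub]
    rw [sub_zero, h2, h3] at h1
    rw [hπc, ← neg_sub]
    exact (dvd_neg).2 h1
  -- step 2
  obtain ⟨P, hP, hPc, hP0⟩ := hD.integral c₀ c₀.2
  have hcoef : (↑P.coeffs : Set F') ⊆ (CInt R K t') := by
    intro z hz
    obtain ⟨i, -, rfl⟩ := Polynomial.mem_coeffs_iff.1 hz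
    exact hPc i
  let P' : (CInt R K t')[X] := P.toSubring (CInt R K t') hcoef
  have hP' : P'.Monic := (Polynomial.monic_toSubring P _ hcoef).2 hP
  have hP'0 : P'.eval₂ g c₀ = 0 := by
    apply Subtype.ext
    have h1 : ((P'.eval₂ g c₀ : CInt R K t) : F) =
        P'.eval₂ ((CInt R K t).subtype.comp g) ((CInt R K t).subtype c₀) :=
      Polynomial.hom_eval₂ P' g (CInt R K t).subtype c₀
    have h2 : (CInt R K t).subtype.comp g = (γ : F' →+* F).comp (CInt R K t').subtype := rfl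
    rw [h1, h2, ← Polynomial.eval₂_map, Polynomial.map_toSubring, ← Polynomial.eval_map]
    exact hP0
  obtain ⟨d', hd', e, he⟩ := up_step2 g n π' (by rw [hgπ]; exact hn.mem) hYn hP' hP'0 hdvd
  exact ⟨d', hd', e, congrArg Subtype.val he⟩

/-- consequence: denominators can be taken at the lower level. -/
theorem DegMap.exists_mul_mem (hϖ : Irreducible ϖ) (hq : q ≠ 0) (hV : VertFam (K := K) ϖ t V)
    (hall : ∀ k, k = a ∨ k = b ∨ k = c) (hD : DegMap R q t' t γ Nm Vs Vr (V a) (V b) (V c))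
    {n : Ideal (CInt R K t)} (hn : IsClosedPt ϖ n) (hcen : ∀ k, Centered (V k) n)
    {z : F} (hz : InLoc n z) :
    ∃ d' : CInt R K t', d' ∉ below γ hD.mapC n ∧ γ (d' : F') * z ∈ CInt R K t := by
  obtain ⟨d, hd, h1⟩ := hz
  obtain ⟨d', hd', e, he⟩ := hD.exists_denominator hϖ hq hV hall hn hcen hd
  refine ⟨d', hd', ?_⟩
  have : γ (d' : F') * z = (e : F) * ((d : F) * z) := by rw [he]; ring
  rw [this]
  exact mul_mem e.2 h1

end Fermat.Agent.S36.Tor
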